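import Mathlib

/-!
# Finite abelian extensions and the topological abelianization of the Galois group

Let `Ω/K` be a Galois extension and `e` an isomorphism of topological groups from the topological
abelianization of `Gal(Ω/K)` to a commutative group `A`.  Then `U ↦ fieldOf e U` is a bijection from
the open subgroups of `A` to the finite abelian extensions of `K` in `Ω`; it reverses inclusions, and
the Galois group of `fieldOf e U` is `A/U`.
-/

set_option autoImplicit false

noncomputable section

namespace Fermat.Agent.Cor.LocCount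

open InfiniteGalois Module

variable {K Ω : Type*} [Field K] [Field Ω] [Algebra K Ω] [IsGalois K Ω]
variable {A : Type*} [CommGroup A] [TopologicalSpace A] [IsTopologicalGroup A]
variable (e : TopologicalAbelianization Gal(Ω/K) ≃ₜ* A)

omit [IsGalois K Ω] [IsTopologicalGroup A] in
/-- The projection of the Galois group to its abelianization. -/
def proj : Gal(Ω/K) →* A := e.toMulEquiv.toMonoidHom.comp (QuotientGroup.mk' _)

omit [IsGalois K Ω] [IsTopologicalGroup A] in
lemma proj_apply (g : Gal(Ω/K)) : proj e g = e (QuotientGroup.mk g) := rfl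

omit [IsGalois K Ω] [IsTopologicalGroup A] in
lemma proj_surjective : Function.Surjective (proj e) :=
  e.toMulEquiv.surjective.comp (QuotientGroup.mk'_surjective _)

omit [IsGalois K Ω] [IsTopologicalGroup A] in
lemma continuous_proj : Continuous (proj e) := e.continuous_toFun.comp continuous_quot_mk

omit [IsGalois K Ω] [IsTopologicalGroup A] in
lemma isOpenMap_proj : IsOpenMap (proj e) :=
  e.toHomeomorph.isOpenMap.comp QuotientGroup.isOpenMap_coe

omit [IsGalois K Ω] [IsTopologicalGroup A] in
lemma ker_proj : (proj e).ker = (commutator Gal(Ω/K)).topologicalClosure := by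
  ext g
  rw [MonoidHom.mem_ker, proj_apply, map_eq_one_iff e e.injective, QuotientGroup.eq_one_iff]

/-- The field attached to an open subgroup. -/
def fieldOf (U : OpenSubgroup A) : IntermediateField K Ω :=
  IntermediateField.fixedField ((U : Subgroup A).comap (proj e))

lemma fixingSubgroup_fieldOf (U : OpenSubgroup A) :
    (fieldOf e U).fixingSubgroup = (U : Subgroup A).comap (proj e) :=
  fixingSubgroup_fixedField (K := Ω) (k := K)
    ⟨(U : Subgroup A).comap (proj e), U.isClosed.preimage (continuous_proj e)⟩

instance finiteDimensional_fieldOf (U : OpenSubgroup A) : FiniteDimensional K (fieldOf e U) := by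
  rw [← isOpen_iff_finite, fixingSubgroup_fieldOf]
  exact U.isOpen.preimage (continuous_proj e)

theorem finrank_fieldOf (U : OpenSubgroup A) :
    finrank K (fieldOf e U) = (U : Subgroup A).index := by
  rw [IntermediateField.finrank_eq_fixingSubgroup_index, fixingSubgroup_fieldOf,
    Subgroup.index_comap_of_surjective _ (proj_surjective e)]

instance isGalois_fieldOf (U : OpenSubgroup A) : IsGalois K (fieldOf e U) := by
  rw [← normal_iff_isGalois, fixingSubgroup_fieldOf]
  infer_instance

/-- The Galois group of `fieldOf e U` is `A/U`. -/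
def galEquiv (U : OpenSubgroup A) : A ⧸ (U : Subgroup A) ≃* Gal(fieldOf e U/K) :=
  (QuotientGroup.liftEquiv ((U : Subgroup A).comap (proj e))
      (φ := (QuotientGroup.mk' (U : Subgroup A)).comp (proj e))
      ((QuotientGroup.mk'_surjective _).comp (proj_surjective e))
      (by rw [← MonoidHom.comap_ker, QuotientGroup.ker_mk'])).symm.trans
    (QuotientGroup.liftEquiv _ (AlgEquiv.restrictNormalHom_surjective Ω)
      ((fixingSubgroup_fieldOf e U).symm.trans
        (IntermediateField.restrictNormalHom_ker (fieldOf e U)).symm))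

/-- The isomorphism `A/U ≅ Gal(fieldOf e U/K)` sends the class of `e(σ)` to the restriction of
`σ`. -/
lemma galEquiv_apply (U : OpenSubgroup A) (σ : Gal(Ω/K)) (x : fieldOf e U) :
    (galEquiv e U (QuotientGroup.mk (e (QuotientGroup.mk σ))) x : Ω) = σ x := by
  have h : galEquiv e U (QuotientGroup.mk (e (QuotientGroup.mk σ))) =
      AlgEquiv.restrictNormalHom (fieldOf e U) σ := by
    rw [galEquiv, MulEquiv.trans_apply]
    have h1 : (QuotientGroup.liftEquiv ((U : Subgroup A).comap (proj e))
      (φ := (QuotientGroup.mk' (U : Subgroup A)).comp (proj e))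
      ((QuotientGroup.mk'_surjective _).comp (proj_surjective e))
      (by rw [← MonoidHom.comap_ker, QuotientGroup.ker_mk'])).symm
        (QuotientGroup.mk (e (QuotientGroup.mk σ))) = QuotientGroup.mk σ := by
      rw [MulEquiv.symm_apply_eq]
      rfl
    rw [h1]
    rfl
  rw [h]
  exact AlgEquiv.restrictNormal_commutes σ (fieldOf e U) x

instance isAbelianGalois_fieldOf (U : OpenSubgroup A) : IsAbelianGalois K (fieldOf e U) where
  is_comm := ⟨fun a b => (galEquiv e U).symm.injective (by
    rw [map_mul, map_mul, mul_comm])⟩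

lemma fieldOf_le_iff {U V : OpenSubgroup A} : fieldOf e U ≤ fieldOf e V ↔ V ≤ U := by
  show fieldOf e U ≤ IntermediateField.fixedField ((V : Subgroup A).comap (proj e)) ↔ _
  rw [IntermediateField.le_iff_le, fixingSubgroup_fieldOf,
    Subgroup.comap_le_comap_of_surjective (proj_surjective e)]
  rfl

lemma fieldOf_injective : Function.Injective (fieldOf (Ω := Ω) (K := K) e) := fun U V h =>
  le_antisymm ((fieldOf_le_iff e).mp h.ge) ((fieldOf_le_iff e).mp h.le)

/-- Every finite abelian extension is of the form `fieldOf e U`. -/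
theorem exists_fieldOf (E : IntermediateField K Ω) [FiniteDimensional K E] [IsAbelianGalois K E] :
    ∃ U : OpenSubgroup A, fieldOf e U = E := by
  have hopen : IsOpen (E.fixingSubgroup : Set Gal(Ω/K)) := (isOpen_iff_finite E).mpr inferInstance
  have h1 : commutator Gal(Ω/K) ≤ E.fixingSubgroup := by
    rw [← IntermediateField.restrictNormalHom_ker, commutator_eq_closure, Subgroup.closure_le]
    rintro _ ⟨a, b, rfl⟩
    rw [SetLike.mem_coe, MonoidHom.mem_ker, map_commutatorElement, commutatorElement_eq_one_iff_mul_comm]
    exact IsMulCommutative.is_comm.comm _ _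
  have h2 : (proj e).ker ≤ E.fixingSubgroup := by
    rw [ker_proj]
    exact Subgroup.topologicalClosure_minimal _ h1 (E.fixingSubgroup.isClosed_of_isOpen hopen)
  refine ⟨⟨E.fixingSubgroup.map (proj e), isOpenMap_proj e _ hopen⟩, ?_⟩
  have h3 : ((E.fixingSubgroup.map (proj e)).comap (proj e)) = E.fixingSubgroup := by
    rw [Subgroup.comap_map_eq, sup_eq_left]
    exact h2
  show IntermediateField.fixedField ((E.fixingSubgroup.map (proj e)).comap (proj e)) = E
  rw [h3]
  exact fixedField_fixingSubgroup E

/-- **The finite abelian extensions of `K` in `Ω` correspond to the open subgroups of `A`.** -/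
def abelianEquiv : OpenSubgroup A ≃
    {E : IntermediateField K Ω // FiniteDimensional K E ∧ IsAbelianGalois K E} :=
  Equiv.ofBijective (fun U => ⟨fieldOf e U, inferInstance, inferInstance⟩)
    ⟨fun U V h => fieldOf_injective e (congrArg Subtype.val h), fun ⟨E, h1, h2⟩ => by
      obtain ⟨U, hU⟩ := exists_fieldOf e E
      exact ⟨U, Subtype.ext hU⟩⟩

lemma isAbelianGalois_of_prime {E : IntermediateField K Ω} [IsGalois K E] {ℓ : ℕ} (hℓ : ℓ.Prime)
    (h : finrank K E = ℓ) : FiniteDimensional K E ∧ IsAbelianGalois K E := by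
  have h1 : FiniteDimensional K E :=
    FiniteDimensional.of_finrank_pos (by rw [h]; exact hℓ.pos)
  have : Fact ℓ.Prime := ⟨hℓ⟩
  have h2 : Nat.card Gal(E/K) = ℓ := by rw [IsGalois.card_aut_eq_finrank, h]
  have h3 : IsCyclic Gal(E/K) := isCyclic_of_prime_card h2
  exact ⟨h1, { is_comm := ⟨fun a b => IsCyclic.commGroup.mul_comm a b⟩ }⟩

/-- The Galois extensions of prime degree `ℓ` correspond to the open subgroups of index `ℓ`. -/
def primeEquiv {ℓ : ℕ} (hℓ : ℓ.Prime) : {U : OpenSubgroup A // (U : Subgroup A).index = ℓ} ≃
    {E : IntermediateField K Ω // IsGalois K E ∧ finrank K E = ℓ} :=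
  Equiv.ofBijective (fun U => ⟨fieldOf e U.1, inferInstance, (finrank_fieldOf e U.1).trans U.2⟩)
    ⟨fun U V h => Subtype.ext (fieldOf_injective e (congrArg Subtype.val h)), fun ⟨E, h1, h2⟩ => by
      obtain ⟨h3, h4⟩ := isAbelianGalois_of_prime hℓ h2
      obtain ⟨U, hU⟩ := exists_fieldOf e E
      exact ⟨⟨U, by rw [← finrank_fieldOf e U, hU, h2]⟩, Subtype.ext hU⟩⟩

end Fermat.Agent.Cor.LocCount
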