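import Mathlib

/-!
# The number of subgroups of prime index of a commutative group

`card_index_eq` : if the `ℓ`-th powers have index `ℓ ^ d` in the commutative group `A`, then `A` has
exactly `1 + ℓ + ... + ℓ ^ (d - 1)` subgroups of index `ℓ`.
-/

set_option autoImplicit false

noncomputable section

namespace Fermat.Agent.Cor.LocCount

open Module

variable {ℓ : ℕ} [hℓ : Fact ℓ.Prime]

section Vector

variable {V : Type*} [AddCommGroup V] [Module (ZMod ℓ) V] [FiniteDimensional (ZMod ℓ) V]

/-- Hyperplanes and lines in the dual space. -/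
def hyperEquiv : {W : Submodule (ZMod ℓ) V // finrank (ZMod ℓ) W + 1 = finrank (ZMod ℓ) V} ≃
    {W : Submodule (ZMod ℓ) (Dual (ZMod ℓ) V) // finrank (ZMod ℓ) W = 1} where
  toFun W := ⟨W.1.dualAnnihilator, by
    have h1 := Subspace.finrank_add_finrank_dualAnnihilator_eq W.1
    have h2 := W.2
    omega⟩
  invFun W := ⟨W.1.dualCoannihilator, by
    have h1 := Subspace.finrank_add_finrank_dualCoannihilator_eq (K := ZMod ℓ) (V := V) W.1
    have h2 := W.2
    omega⟩
  left_inv _ := Subtype.ext Subspace.dualAnnihilator_dualCoannihilator_eq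
  right_inv _ := Subtype.ext Subspace.dualCoannihilator_dualAnnihilator_eq

lemma index_iff (W : AddSubgroup V) : W.index = ℓ ↔
    finrank (ZMod ℓ) (AddSubgroup.toZModSubmodule ℓ W) + 1 = finrank (ZMod ℓ) V := by
  have hf : Finite V := Module.finite_of_finite (ZMod ℓ)
  have h1 : Nat.card W * W.index = Nat.card V := W.card_mul_index
  have h2 : Nat.card W = ℓ ^ finrank (ZMod ℓ) (AddSubgroup.toZModSubmodule ℓ W) := by
    have h := Module.natCard_eq_pow_finrank (K := ZMod ℓ) (V := AddSubgroup.toZModSubmodule ℓ W)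
    rwa [Nat.card_zmod] at h
  have h3 : Nat.card V = ℓ ^ finrank (ZMod ℓ) V := by
    have h := Module.natCard_eq_pow_finrank (K := ZMod ℓ) (V := V)
    rwa [Nat.card_zmod] at h
  rw [h2, h3] at h1
  constructor
  · intro h
    rw [h, ← pow_succ] at h1
    exact Nat.pow_right_injective hℓ.out.two_le h1
  · intro h
    rw [← h, pow_succ] at h1
    exact Nat.eq_of_mul_eq_mul_left (pow_pos hℓ.out.pos _) h1

/-- The number of subgroups of index `ℓ` of a vector space over `ℤ/ℓ`. -/
theorem card_hyper {d : ℕ} (hd : finrank (ZMod ℓ) V = d) :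
    Nat.card {W : AddSubgroup V // W.index = ℓ} = ∑ i ∈ Finset.range d, ℓ ^ i := by
  have e : {W : AddSubgroup V // W.index = ℓ} ≃
      {W : Submodule (ZMod ℓ) V // finrank (ZMod ℓ) W + 1 = finrank (ZMod ℓ) V} :=
    (AddSubgroup.toZModSubmodule ℓ).toEquiv.subtypeEquiv index_iff
  rw [Nat.card_congr ((e.trans hyperEquiv).trans (Projectivization.equivSubmodule _ _).symm),
    Projectivization.card_of_finrank (ZMod ℓ) (Dual (ZMod ℓ) V) (Subspace.dual_finrank_eq.trans hd),
    Nat.card_zmod]

omit [FiniteDimensional (ZMod ℓ) V] in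
theorem card_hyper' {d : ℕ} (hd : Nat.card V = ℓ ^ d) :
    Nat.card {W : AddSubgroup V // W.index = ℓ} = ∑ i ∈ Finset.range d, ℓ ^ i := by
  have hfin : Finite V := Nat.finite_of_card_ne_zero (by
    rw [hd]
    exact pow_ne_zero d hℓ.out.ne_zero)
  have hfd : FiniteDimensional (ZMod ℓ) V := Module.Finite.of_finite
  refine card_hyper ?_
  have h : Nat.card V = Nat.card (ZMod ℓ) ^ finrank (ZMod ℓ) V :=
    Module.natCard_eq_pow_finrank
  rw [Nat.card_zmod, hd] at h
  exact (Nat.pow_right_injective hℓ.out.two_le h).symm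

end Vector

section Group

variable {A : Type*} [CommGroup A]

/-- **The number of subgroups of index `ℓ`** of a commutative group in which the `ℓ`-th powers have
index `ℓ ^ d`. -/
theorem card_index_eq {d : ℕ} (hA : (powMonoidHom ℓ : A →* A).range.index = ℓ ^ d) :
    Nat.card {U : Subgroup A // U.index = ℓ} = ∑ i ∈ Finset.range d, ℓ ^ i := by
  let Q := A ⧸ (powMonoidHom ℓ : A →* A).range
  let _ : Module (ZMod ℓ) (Additive Q) := AddCommGroup.zmodModule (n := ℓ) (by
    intro x
    obtain ⟨a, ha⟩ := QuotientGroup.mk'_surjective (powMonoidHom ℓ : A →* A).range x.toMul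
    have h1 : x = Additive.ofMul (QuotientGroup.mk' (powMonoidHom ℓ : A →* A).range a) := by
      rw [ha]; rfl
    rw [h1, ← ofMul_pow, ← map_pow, ofMul_eq_zero]
    exact (QuotientGroup.eq_one_iff _).mpr ⟨a, rfl⟩)
  have hcard : Nat.card (Additive Q) = ℓ ^ d := hA
  have key : Nat.card {W : AddSubgroup (Additive Q) // W.index = ℓ} =
      ∑ i ∈ Finset.range d, ℓ ^ i := card_hyper' hcard
  rw [← key]
  have hs : Function.Surjective (QuotientGroup.mk' (powMonoidHom ℓ : A →* A).range) :=
    QuotientGroup.mk'_surjective _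
  refine (Nat.card_congr (Equiv.ofBijective
    (fun W : {W : AddSubgroup (Additive Q) // W.index = ℓ} =>
      (⟨(AddSubgroup.toSubgroup' W.1).comap (QuotientGroup.mk' (powMonoidHom ℓ : A →* A).range),
        (Subgroup.index_comap_of_surjective _ hs).trans W.2⟩ : {U : Subgroup A // U.index = ℓ}))
    ⟨?_, ?_⟩)).symm
  · intro W W' h
    have h1 := Subgroup.comap_injective hs (congrArg Subtype.val h)
    exact Subtype.ext (AddSubgroup.toSubgroup'.injective h1)
  · rintro ⟨U, hU⟩
    have h1 : (QuotientGroup.mk' (powMonoidHom ℓ : A →* A).range).ker ≤ U := by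
      rw [QuotientGroup.ker_mk']
      rintro _ ⟨a, rfl⟩
      rw [powMonoidHom_apply, ← hU]
      exact U.pow_index_mem a
    have h2 : (U.map (QuotientGroup.mk' (powMonoidHom ℓ : A →* A).range)).comap
        (QuotientGroup.mk' (powMonoidHom ℓ : A →* A).range) = U := by
      rw [Subgroup.comap_map_eq, sup_eq_left]
      exact h1
    refine ⟨⟨AddSubgroup.toSubgroup'.symm
      (U.map (QuotientGroup.mk' (powMonoidHom ℓ : A →* A).range)), ?_⟩, Subtype.ext ?_⟩
    · show (U.map (QuotientGroup.mk' (powMonoidHom ℓ : A →* A).range)).index = ℓ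
      rw [← Subgroup.index_comap_of_surjective _ hs, h2, hU]
    · exact h2

end Group

end Fermat.Agent.Cor.LocCount
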