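import Mathlib

/-!
# The index of the `ℓ`-th powers in `ℤ_pˣ` and in `ℤ_pˣ × ∏ ℤ_ℓ`

* `exists_pow_eq` : a unit congruent to `1` modulo `p ^ 3` is an `ℓ`-th power (`ℓ` prime);
* `index_units` : the index of the `ℓ`-th powers in `ℤ_pˣ`;
* `index_hat` : the index of the `ℓ`-th powers in `∏ ℤ_ℓ`.
-/

set_option autoImplicit false

noncomputable section

namespace Fermat.Agent.Cor.LocCount

open Polynomial

/-- The elements of `Nat.Primes` are primes. -/
lemma fact_prime_sub (q : Nat.Primes) : Fact (q : ℕ).Prime := ⟨q.2⟩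

variable {p : ℕ} [hp : Fact p.Prime] {ℓ : ℕ} [hℓ : Fact ℓ.Prime]

lemma norm_prime_ge : (p : ℝ)⁻¹ ≤ ‖(ℓ : ℤ_[p])‖ := by
  by_cases h : ℓ = p
  · subst h
    exact PadicInt.norm_p.ge
  · have h1 : ‖(ℓ : ℤ_[p])‖ = 1 :=
      PadicInt.norm_natCast_eq_one_iff.mpr ((Nat.coprime_primes hp.out hℓ.out).mpr (Ne.symm h))
    rw [h1]
    exact inv_le_one_of_one_le₀ (by exact_mod_cast hp.out.one_lt.le)

/-- A unit congruent to `1` modulo `p ^ 3` is an `ℓ`-th power. -/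
theorem exists_pow_eq {u : ℤ_[p]ˣ} (hu : PadicInt.toZModPow 3 (u : ℤ_[p]) = 1) :
    ∃ v : ℤ_[p]ˣ, v ^ ℓ = u := by
  have h1 : ‖(u : ℤ_[p]) - 1‖ ≤ (p : ℝ) ^ (-(3 : ℕ) : ℤ) := by
    rw [PadicInt.norm_le_pow_iff_mem_span_pow, ← PadicInt.ker_toZModPow, RingHom.mem_ker, map_sub,
      map_one, hu, sub_self]
  have hp1 : (1 : ℝ) < p := by exact_mod_cast hp.out.one_lt
  have hp0 : (0 : ℝ) < p := by linarith
  have h2 : ‖(X ^ ℓ - C (u : ℤ_[p])).aeval (1 : ℤ_[p])‖ <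
      ‖(X ^ ℓ - C (u : ℤ_[p])).derivative.aeval (1 : ℤ_[p])‖ ^ 2 := by
    have e1 : (X ^ ℓ - C (u : ℤ_[p])).aeval (1 : ℤ_[p]) = -((u : ℤ_[p]) - 1) := by
      simp
    have e2 : (X ^ ℓ - C (u : ℤ_[p])).derivative.aeval (1 : ℤ_[p]) = (ℓ : ℤ_[p]) := by
      rw [derivative_sub, derivative_X_pow, derivative_C]
      simp
    rw [e1, e2, norm_neg]
    have h3 : (p : ℝ)⁻¹ ^ 2 ≤ ‖(ℓ : ℤ_[p])‖ ^ 2 :=
      pow_le_pow_left₀ (inv_nonneg.mpr hp0.le) norm_prime_ge 2
    refine lt_of_lt_of_le (lt_of_le_of_lt h1 ?_) h3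
    rw [zpow_neg, zpow_natCast, ← inv_pow]
    exact pow_lt_pow_right_of_lt_one₀ (inv_pos.mpr hp0) (inv_lt_one_of_one_lt₀ hp1) (by norm_num)
  obtain ⟨z, hz, -⟩ := hensels_lemma h2
  have h3 : z ^ ℓ = u := by
    have := hz
    simp only [map_sub, map_pow, aeval_X, aeval_C, Algebra.algebraMap_self, RingHom.id_apply,
      sub_eq_zero] at this
    exact this
  have h4 : IsUnit z := by
    rw [← isUnit_pow_iff hℓ.out.ne_zero, h3]
    exact u.isUnit
  refine ⟨h4.unit, Units.ext ?_⟩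
  rw [Units.val_pow_eq_pow_val, IsUnit.unit_spec, h3]

/-- Reduction of units modulo `p ^ n`. -/
def red (p : ℕ) [Fact p.Prime] (n : ℕ) : ℤ_[p]ˣ →* (ZMod (p ^ n))ˣ :=
  Units.map (PadicInt.toZModPow n : ℤ_[p] →+* ZMod (p ^ n)).toMonoidHom

lemma red_surjective {n : ℕ} (hn : n ≠ 0) : Function.Surjective (red p n) := by
  intro x
  obtain ⟨y, hy⟩ := ZMod.ringHom_surjective (PadicInt.toZModPow n : ℤ_[p] →+* ZMod (p ^ n)) x
  have : Fact (1 < p ^ n) := ⟨Nat.one_lt_pow hn hp.out.one_lt⟩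
  have h1 : IsUnit y := by
    by_contra h
    rw [PadicInt.not_isUnit_iff, PadicInt.norm_lt_one_iff_dvd] at h
    obtain ⟨c, rfl⟩ := h
    rw [map_mul, map_natCast] at hy
    have h2 : IsUnit ((p : ℕ) : ZMod (p ^ n)) := isUnit_of_mul_isUnit_left (hy ▸ x.isUnit)
    rw [ZMod.isUnit_iff_coprime, Nat.coprime_pow_right_iff (Nat.pos_of_ne_zero hn),
      Nat.coprime_self] at h2
    exact hp.out.one_lt.ne' h2
  exact ⟨h1.unit, Units.ext hy⟩

variable (p ℓ) in
/-- The exponent of the index of the `ℓ`-th powers in `ℤ_pˣ`. -/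
def ed : ℕ := (if ℓ ∣ p - 1 then 1 else 0) + (if ℓ = p then 1 else 0) +
  (if ℓ = 2 ∧ p = 2 then 1 else 0)

lemma comap_red : ((powMonoidHom ℓ : (ZMod (p ^ 3))ˣ →* (ZMod (p ^ 3))ˣ).range).comap (red p 3) =
    (powMonoidHom ℓ : ℤ_[p]ˣ →* ℤ_[p]ˣ).range := by
  ext x
  rw [Subgroup.mem_comap, MonoidHom.mem_range, MonoidHom.mem_range]
  constructor
  · rintro ⟨y, hy⟩
    obtain ⟨z, rfl⟩ := red_surjective (p := p) (n := 3) (by norm_num) y
    have h1 : red p 3 (x * (z ^ ℓ)⁻¹) = 1 := by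
      rw [map_mul, map_inv, map_pow, ← hy]
      exact mul_inv_cancel _
    obtain ⟨v, hv⟩ := exists_pow_eq (p := p) (ℓ := ℓ) (u := x * (z ^ ℓ)⁻¹)
      (congrArg Units.val h1)
    refine ⟨v * z, ?_⟩
    rw [powMonoidHom_apply, mul_pow, hv, inv_mul_cancel_right]
  · rintro ⟨y, rfl⟩
    exact ⟨red p 3 y, (map_pow (red p 3) y ℓ).symm⟩

lemma index_units_eq : (powMonoidHom ℓ : ℤ_[p]ˣ →* ℤ_[p]ˣ).range.index =
    (powMonoidHom ℓ : (ZMod (p ^ 3))ˣ →* (ZMod (p ^ 3))ˣ).range.index := by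
  rw [← comap_red, Subgroup.index_comap_of_surjective _ (red_surjective (by norm_num))]

/-- **The index of the `ℓ`-th powers in `ℤ_pˣ`.** -/
theorem index_units : (powMonoidHom ℓ : ℤ_[p]ˣ →* ℤ_[p]ˣ).range.index = ℓ ^ ed p ℓ := by
  rw [index_units_eq]
  have hp2 := hp.out.two_le
  by_cases h2 : p = 2
  · subst h2
    by_cases hl : ℓ = 2
    · subst hl
      have h1 : (powMonoidHom 2 : (ZMod (2 ^ 3))ˣ →* (ZMod (2 ^ 3))ˣ).range = ⊥ := by
        rw [eq_bot_iff]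
        rintro _ ⟨x, rfl⟩
        rw [Subgroup.mem_bot]
        revert x
        decide
      rw [h1, Subgroup.index_bot, Nat.card_eq_fintype_card, ZMod.card_units_eq_totient]
      decide
    · have h1 : (powMonoidHom ℓ : (ZMod (2 ^ 3))ˣ →* (ZMod (2 ^ 3))ˣ).range = ⊤ := by
        rw [MonoidHom.range_eq_top]
        have h3 : (Nat.card (ZMod (2 ^ 3))ˣ).Coprime ℓ := by
          rw [Nat.card_eq_fintype_card, ZMod.card_units_eq_totient]
          have : Nat.totient (2 ^ 3) = 2 ^ 2 := by decide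
          rw [this]
          exact Nat.Coprime.pow_left 2 ((Nat.coprime_primes Nat.prime_two hℓ.out).mpr
            (Ne.symm hl))
        exact (powCoprime h3).surjective
      have h3 : ¬ ℓ ∣ 2 - 1 := by
        intro h
        exact hℓ.out.one_lt.ne' (Nat.dvd_one.mp h)
      rw [h1, Subgroup.index_top, ed, if_neg h3, if_neg hl, if_neg fun h => hl h.1]
      rfl
  · have hc : IsCyclic (ZMod (p ^ 3))ˣ := ZMod.isCyclic_units_of_prime_pow p hp.out h2 3
    have hn : NeZero (p ^ 3) := ⟨pow_ne_zero 3 hp.out.ne_zero⟩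
    rw [IsCyclic.index_powMonoidHom_range, Nat.card_eq_fintype_card, ZMod.card_units_eq_totient,
      Nat.totient_prime_pow_succ hp.out, ed, if_neg (c := ℓ = 2 ∧ p = 2) fun h => h2 h.2]
    by_cases hl : ℓ = p
    · subst hl
      have h3 : ¬ ℓ ∣ ℓ - 1 := by
        intro h
        have := Nat.le_of_dvd (by omega) h
        omega
      rw [if_neg h3, if_pos rfl, Nat.gcd_eq_right (Dvd.dvd.mul_right (dvd_pow_self ℓ two_ne_zero) _)]
      rw [zero_add, add_zero, pow_one]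
    · rw [if_neg hl]
      by_cases hd : ℓ ∣ p - 1
      · rw [if_pos hd, Nat.gcd_eq_right (Dvd.dvd.mul_left hd _), add_zero, add_zero, pow_one]
      · rw [if_neg hd, add_zero, add_zero, pow_zero]
        have h3 : ¬ ℓ ∣ p ^ 2 * (p - 1) := by
          rw [hℓ.out.dvd_mul, not_or]
          refine ⟨fun h => hl ?_, hd⟩
          exact (Nat.prime_dvd_prime_iff_eq hℓ.out hp.out).mp (hℓ.out.dvd_of_dvd_pow h)
        exact Nat.coprime_comm.mp ((Nat.Prime.coprime_iff_not_dvd hℓ.out).mpr h3)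

/-! ### The profinite completion of `ℤ` -/

lemma exists_mul_eq {q : ℕ} [hq : Fact q.Prime] {x : ℤ_[q]}
    (h : q = ℓ → PadicInt.toZModPow 1 x = 0) : ∃ y : ℤ_[q], (ℓ : ℤ_[q]) * y = x := by
  by_cases hl : q = ℓ
  · subst hl
    have h1 := h rfl
    rw [← RingHom.mem_ker, PadicInt.ker_toZModPow, pow_one, Ideal.mem_span_singleton] at h1
    obtain ⟨y, hy⟩ := h1
    exact ⟨y, hy.symm⟩
  · have h1 : IsUnit (ℓ : ℤ_[q]) := PadicInt.isUnit_iff.mpr
      (PadicInt.norm_natCast_eq_one_iff.mpr ((Nat.coprime_primes hq.out hℓ.out).mpr hl))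
    exact ⟨(h1.unit⁻¹ : ℤ_[q]ˣ) * x, by
      rw [← mul_assoc, IsUnit.mul_val_inv, one_mul]⟩

attribute [local instance] fact_prime_sub

/-- The profinite completion of `ℤ`, written multiplicatively. -/
abbrev ZHat : Type := Multiplicative ((q : Nat.Primes) → ℤ_[q])

/-- The component at `r` modulo `r`. -/
def comp (r : Nat.Primes) : ZHat →* Multiplicative (ZMod ((r : ℕ) ^ 1)) :=
  AddMonoidHom.toMultiplicative (((PadicInt.toZModPow 1 : ℤ_[r] →+* ZMod ((r : ℕ) ^ 1)) :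
    ℤ_[r] →+ ZMod ((r : ℕ) ^ 1)).comp (Pi.evalAddMonoidHom (fun q : Nat.Primes => ℤ_[q]) r))

lemma comp_apply (r : Nat.Primes) (x : ZHat) : comp r x =
    Multiplicative.ofAdd (PadicInt.toZModPow 1 (x.toAdd r)) := rfl

lemma comp_surjective (r : Nat.Primes) : Function.Surjective (comp r) := by
  intro y
  obtain ⟨z, hz⟩ := ZMod.ringHom_surjective
    (PadicInt.toZModPow 1 : ℤ_[r] →+* ZMod ((r : ℕ) ^ 1)) y.toAdd
  refine ⟨Multiplicative.ofAdd (Pi.single r z), ?_⟩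
  rw [comp_apply, toAdd_ofAdd, Pi.single_eq_same, hz]
  rfl

lemma ker_comp (r : Nat.Primes) : (comp r).ker = (powMonoidHom (r : ℕ) : ZHat →* ZHat).range := by
  ext x
  rw [MonoidHom.mem_ker, comp_apply, MonoidHom.mem_range]
  constructor
  · intro h
    have h1 : ∀ q : Nat.Primes, ∃ y : ℤ_[q], (r : ℤ_[q]) * y = x.toAdd q := by
      intro q
      refine exists_mul_eq fun hq => ?_
      have hq' : q = r := Subtype.ext hq
      subst hq'
      exact h
    choose y hy using h1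
    refine ⟨Multiplicative.ofAdd y, ?_⟩
    apply Multiplicative.toAdd.injective
    funext q
    rw [powMonoidHom_apply, toAdd_pow, toAdd_ofAdd, Pi.smul_apply, nsmul_eq_mul, hy q]
  · rintro ⟨y, rfl⟩
    rw [powMonoidHom_apply, toAdd_pow, Pi.smul_apply, nsmul_eq_mul, map_mul, map_natCast]
    have h1 : (((r : ℕ) : ℕ) : ZMod ((r : ℕ) ^ 1)) = 0 := by
      rw [ZMod.natCast_eq_zero_iff, pow_one]
    rw [h1, zero_mul]
    rfl

lemma index_hat' (r : Nat.Primes) : (powMonoidHom (r : ℕ) : ZHat →* ZHat).range.index = r := by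
  rw [← ker_comp, Subgroup.index_ker, MonoidHom.range_eq_top.mpr (comp_surjective r),
    Subgroup.card_top]
  show Nat.card (ZMod ((r : ℕ) ^ 1)) = r
  rw [Nat.card_zmod, pow_one]

/-- **The index of the `ℓ`-th powers in the profinite completion of `ℤ`.** -/
theorem index_hat : (powMonoidHom ℓ : ZHat →* ZHat).range.index = ℓ := index_hat' ⟨ℓ, hℓ.out⟩

/-! ### The product -/

variable (p) in
/-- The abelianized Galois group of `ℚ_p`. -/
abbrev Ab : Type := ℤ_[p]ˣ × ZHat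

omit hℓ in
lemma range_pow_prod : (powMonoidHom ℓ : Ab p →* Ab p).range =
    (powMonoidHom ℓ : ℤ_[p]ˣ →* ℤ_[p]ˣ).range.prod (powMonoidHom ℓ : ZHat →* ZHat).range := by
  ext ⟨a, b⟩
  rw [Subgroup.mem_prod]
  constructor
  · rintro ⟨⟨x, y⟩, h⟩
    exact ⟨⟨x, congrArg Prod.fst h⟩, ⟨y, congrArg Prod.snd h⟩⟩
  · rintro ⟨⟨x, hx⟩, ⟨y, hy⟩⟩
    exact ⟨⟨x, y⟩, Prod.ext hx hy⟩

theorem index_prod_pow : (powMonoidHom ℓ : Ab p →* Ab p).range.index = ℓ ^ (ed p ℓ + 1) := by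
  rw [range_pow_prod, Subgroup.index_prod, index_units, index_hat, pow_succ]

lemma isOpen_toZModPow (n : ℕ) (c : ℤ_[p]) :
    IsOpen {x : ℤ_[p] | PadicInt.toZModPow n x = PadicInt.toZModPow n c} := by
  have h : {x : ℤ_[p] | PadicInt.toZModPow n x = PadicInt.toZModPow n c} =
      Metric.ball c ((p : ℝ) ^ (-(n : ℤ) + 1)) := by
    ext x
    rw [Set.mem_ofPred_eq, Metric.mem_ball, dist_eq_norm,
      ← PadicInt.norm_le_pow_iff_norm_lt_pow_add_one, PadicInt.norm_le_pow_iff_mem_span_pow,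
      ← PadicInt.ker_toZModPow, RingHom.mem_ker, map_sub, sub_eq_zero]
  rw [h]
  exact Metric.isOpen_ball

lemma isOpen_range_pow' (r : Nat.Primes) :
    IsOpen ((powMonoidHom (r : ℕ) : Ab p →* Ab p).range : Set (Ab p)) := by
  have h1 : (red p 3).ker.prod (comp r).ker ≤ (powMonoidHom (r : ℕ) : Ab p →* Ab p).range := by
    rw [range_pow_prod, ker_comp]
    refine Subgroup.prod_mono (fun u hu => ?_) le_rfl
    obtain ⟨v, hv⟩ := exists_pow_eq (p := p) (ℓ := r) (congrArg Units.val (MonoidHom.mem_ker.mp hu))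
    exact ⟨v, hv⟩
  refine Subgroup.isOpen_mono h1 ?_
  have e1 : (((red p 3).ker.prod (comp r).ker : Subgroup (Ab p)) : Set (Ab p)) =
      (fun x : Ab p => (x.1 : ℤ_[p])) ⁻¹' {x | PadicInt.toZModPow 3 x = PadicInt.toZModPow 3 1} ∩
      (fun x : Ab p => x.2.toAdd r) ⁻¹'
        {x | PadicInt.toZModPow 1 x = PadicInt.toZModPow 1 0} := by
    ext ⟨a, b⟩
    rw [SetLike.mem_coe, Subgroup.mem_prod, MonoidHom.mem_ker, MonoidHom.mem_ker, comp_apply,
      Set.mem_inter_iff, Set.mem_preimage, Set.mem_preimage, Set.mem_ofPred_eq, Set.mem_ofPred_eq,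
      map_one, map_zero, Units.ext_iff]
    rfl
  rw [e1]
  refine (IsOpen.preimage ?_ (isOpen_toZModPow 3 1)).inter
    (IsOpen.preimage ?_ (isOpen_toZModPow (p := r) 1 0))
  · exact Units.continuous_val.comp continuous_fst
  · exact (continuous_apply r).comp (continuous_toAdd.comp continuous_snd)

/-- The `ℓ`-th powers are an open subgroup. -/
lemma isOpen_range_pow : IsOpen ((powMonoidHom ℓ : Ab p →* Ab p).range : Set (Ab p)) :=
  isOpen_range_pow' ⟨ℓ, hℓ.out⟩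

/-- Every subgroup of index `ℓ` is open. -/
theorem isOpen_of_index {U : Subgroup (Ab p)} (hU : U.index = ℓ) : IsOpen (U : Set (Ab p)) := by
  refine Subgroup.isOpen_mono (H₁ := (powMonoidHom ℓ : Ab p →* Ab p).range) ?_ isOpen_range_pow
  rintro _ ⟨a, rfl⟩
  rw [powMonoidHom_apply, ← hU]
  exact U.pow_index_mem a

end Fermat.Agent.Cor.LocCount
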