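import Fermat.Agent.Corollaries.KW.LocCFT
import Fermat.Agent.Corollaries.LocCount.Galois
import Fermat.Agent.Corollaries.LocCount.Hyper
import Fermat.Agent.Corollaries.LocCount.PadicUnits

/-!
# The number of Galois extensions of prime degree of `ℚ_p`

* `card_galois_extensions` : `ℚ_p` has exactly `1 + ℓ + ... + ℓ ^ (d - 1)` Galois extensions of prime
  degree `ℓ` in its algebraic closure, where `d = 1 + [ℓ ∣ p - 1] + [ℓ = p] + [ℓ = p = 2]`;
* `card_galois_extensions_self` : `p + 1` Galois extensions of degree `p` for `p` odd;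
* `card_quadratic_two` : `ℚ_2` has exactly seven quadratic extensions;
* `card_quadratic` : `ℚ_p` has exactly three quadratic extensions for `p` odd.
-/

set_option autoImplicit false

noncomputable section

namespace Fermat.Agent.Cor.LocCount

open Module

/-- The class field theory isomorphism. -/
def cft (p : ℕ) [Fact p.Prime] :
    TopologicalAbelianization Gal(PadicAlgCl p/ℚ_[p]) ≃ₜ* Ab p :=
  (KW.class_field_theory_padic p).choose

/-- Subgroups of index `ℓ` are open. -/
def openEquiv (p ℓ : ℕ) [Fact p.Prime] [Fact ℓ.Prime] :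
    {U : OpenSubgroup (Ab p) // (U : Subgroup (Ab p)).index = ℓ} ≃
      {U : Subgroup (Ab p) // U.index = ℓ} where
  toFun U := ⟨U.1, U.2⟩
  invFun U := ⟨⟨U.1, isOpen_of_index U.2⟩, U.2⟩
  left_inv _ := rfl
  right_inv _ := rfl

/-- **The number of Galois extensions of prime degree `ℓ` of `ℚ_p`** is `1 + ℓ + ... + ℓ ^ (d - 1)`
with `d = 1 + [ℓ ∣ p - 1] + [ℓ = p] + [ℓ = p = 2]`. -/
theorem card_galois_extensions (p ℓ : ℕ) [Fact p.Prime] [Fact ℓ.Prime] :
    Nat.card {E : IntermediateField ℚ_[p] (PadicAlgCl p) //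
        IsGalois ℚ_[p] E ∧ finrank ℚ_[p] E = ℓ} =
      ∑ i ∈ Finset.range ((if ℓ ∣ p - 1 then 1 else 0) + (if ℓ = p then 1 else 0) +
        (if ℓ = 2 ∧ p = 2 then 1 else 0) + 1), ℓ ^ i :=
  (Nat.card_congr ((primeEquiv (cft p) Fact.out).symm.trans (openEquiv p ℓ))).trans
    (card_index_eq index_prod_pow)

/-- `ℚ_p` has exactly `p + 1` Galois extensions of degree `p`, if `p` is odd. -/
theorem card_galois_extensions_self (p : ℕ) [hp : Fact p.Prime] (hp2 : p ≠ 2) :
    Nat.card {E : IntermediateField ℚ_[p] (PadicAlgCl p) //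
        IsGalois ℚ_[p] E ∧ finrank ℚ_[p] E = p} = p + 1 := by
  have h1 : ¬ p ∣ p - 1 := by
    intro h
    have := hp.out.two_le
    have := Nat.le_of_dvd (by omega) h
    omega
  rw [card_galois_extensions, if_neg h1, if_pos rfl, if_neg fun h => hp2 h.1]
  simp [Finset.sum_range_succ, add_comm]

/-- `ℚ_p` has exactly `ℓ + 1` Galois extensions of degree `ℓ`, if `ℓ` is a prime divisor of
`p - 1`. -/
theorem card_galois_extensions_dvd (p ℓ : ℕ) [hp : Fact p.Prime] [hℓ : Fact ℓ.Prime]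
    (h : ℓ ∣ p - 1) :
    Nat.card {E : IntermediateField ℚ_[p] (PadicAlgCl p) //
        IsGalois ℚ_[p] E ∧ finrank ℚ_[p] E = ℓ} = ℓ + 1 := by
  have h1 : ℓ ≠ p := by
    rintro rfl
    have := hp.out.two_le
    have := Nat.le_of_dvd (by omega) h
    omega
  have h2 : ¬ (ℓ = 2 ∧ p = 2) := fun h2 => h1 (h2.1.trans h2.2.symm)
  rw [card_galois_extensions, if_pos h, if_neg h1, if_neg h2]
  simp [Finset.sum_range_succ, add_comm]

/-- `ℚ_p` has only one Galois extension of degree `ℓ` (the unramified one), if `ℓ` is different from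
`p` and does not divide `p - 1`. -/
theorem card_galois_extensions_not_dvd (p ℓ : ℕ) [hp : Fact p.Prime] [hℓ : Fact ℓ.Prime]
    (h1 : ℓ ≠ p) (h : ¬ ℓ ∣ p - 1) :
    Nat.card {E : IntermediateField ℚ_[p] (PadicAlgCl p) //
        IsGalois ℚ_[p] E ∧ finrank ℚ_[p] E = ℓ} = 1 := by
  have h2 : ¬ (ℓ = 2 ∧ p = 2) := fun h2 => h1 (h2.1.trans h2.2.symm)
  rw [card_galois_extensions, if_neg h, if_neg h1, if_neg h2]
  simp

lemma isGalois_of_finrank_two {p : ℕ} [Fact p.Prime] {E : IntermediateField ℚ_[p] (PadicAlgCl p)}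
    (h : finrank ℚ_[p] E = 2) : IsGalois ℚ_[p] E := by
  have : Algebra.IsQuadraticExtension ℚ_[p] E := ⟨h⟩
  infer_instance

lemma card_two_eq (p : ℕ) [Fact p.Prime] :
    Nat.card {E : IntermediateField ℚ_[p] (PadicAlgCl p) // finrank ℚ_[p] E = 2} =
    Nat.card {E : IntermediateField ℚ_[p] (PadicAlgCl p) //
        IsGalois ℚ_[p] E ∧ finrank ℚ_[p] E = 2} :=
  Nat.card_congr (Equiv.subtypeEquivRight fun _ =>
    ⟨fun h => ⟨isGalois_of_finrank_two h, h⟩, fun h => h.2⟩)

/-- **`ℚ_2` has exactly seven quadratic extensions.** -/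
theorem card_quadratic_two : Nat.card
    {E : IntermediateField ℚ_[2] (PadicAlgCl 2) // finrank ℚ_[2] E = 2} = 7 := by
  rw [card_two_eq, card_galois_extensions]
  simp [Finset.sum_range_succ]

/-- **`ℚ_p` has exactly three quadratic extensions**, if `p` is odd. -/
theorem card_quadratic (p : ℕ) [hp : Fact p.Prime] (hp2 : p ≠ 2) : Nat.card
    {E : IntermediateField ℚ_[p] (PadicAlgCl p) // finrank ℚ_[p] E = 2} = 3 := by
  rw [card_two_eq, card_galois_extensions_dvd p 2 (hp.out.even_sub_one hp2).two_dvd]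

end Fermat.Agent.Cor.LocCount
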