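import Fermat.Agent.Corollaries.LocCount.Dense
import Fermat.Agent.Corollaries.LocCount.Main

/-!
# The reciprocity map and the existence theorem for `ℚ_p`

`artin p : ℚ_pˣ → Gal(ℚ_p^alg/ℚ_p)^ab` is the continuous injective homomorphism with dense image
such that `artin p (u p ^ k)` acts on the roots of unity of order `p ^ n` as `ζ ↦ ζ ^ (u⁻¹)` and on
the roots of unity of order prime to `p` as `ζ ↦ ζ ^ (p ^ k)` (`artin_act_ppow`, `artin_act_unr`).
The image of the units is the image of the inertia group (`image_units`).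

For a finite abelian extension `E` of `ℚ_p` the kernel of the action of `ℚ_pˣ` on `E` is
`artinKer E`; the map `E ↦ artinKer E` is an inclusion reversing bijection from the finite abelian
extensions of `ℚ_p` to the open subgroups of finite index of `ℚ_pˣ` (`classification`, `existence`),
the degree of `E` is the index of `artinKer E` (`index_artinKer`) and the Galois group of `E` is
`ℚ_pˣ/artinKer E` (`exists_reciprocity`).
-/

set_option autoImplicit false

noncomputable section

namespace Fermat.Agent.Cor.LocCount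

open Module

attribute [local instance] fact_prime_sub

variable {p : ℕ} [hp : Fact p.Prime]

/-- **The reciprocity map** of `ℚ_p`. -/
def artin (p : ℕ) [Fact p.Prime] :
    ℚ_[p]ˣ →* TopologicalAbelianization Gal(PadicAlgCl p/ℚ_[p]) :=
  (cft p).symm.toMulEquiv.toMonoidHom.comp (iota p)

lemma cft_artin (x : ℚ_[p]ˣ) : cft p (artin p x) = iota p x := (cft p).apply_symm_apply _

theorem artin_injective : Function.Injective (artin p) :=
  (cft p).symm.injective.comp iota_injective

theorem continuous_artin : Continuous (artin p) :=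
  (cft p).symm.continuous_toFun.comp continuous_iota

theorem denseRange_artin : DenseRange (artin p) :=
  (cft p).symm.surjective.denseRange.comp denseRange_iota (cft p).symm.continuous_toFun

/-- `artin p (u p ^ k)` acts on the roots of unity of order `p ^ n` as `ζ ↦ ζ ^ (u⁻¹)`. -/
theorem artin_act_ppow {u : ℤ_[p]ˣ} {k : ℤ} {σ : Gal(PadicAlgCl p/ℚ_[p])}
    (h : QuotientGroup.mk σ = artin p (incl p u * unif p ^ k)) (n : ℕ) {ζ : PadicAlgCl p}
    (hζ : ζ ^ p ^ n = 1) :
    σ ζ = ζ ^ (PadicInt.toZModPow n ((u⁻¹ : ℤ_[p]ˣ) : ℤ_[p])).val := by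
  have h1 := (KW.class_field_theory_padic p).choose_spec.1 σ n ζ hζ
  change σ ζ = ζ ^ (PadicInt.toZModPow n ((cft p (QuotientGroup.mk σ)).1 : ℤ_[p])).val at h1
  rw [h, cft_artin, iota_jay] at h1
  exact h1

/-- `artin p (u p ^ k)` acts on the roots of unity of order `p ^ N - 1` as `ζ ↦ ζ ^ (p ^ k)`. -/
theorem artin_act_unr {u : ℤ_[p]ˣ} {k : ℤ} {σ : Gal(PadicAlgCl p/ℚ_[p])}
    (h : QuotientGroup.mk σ = artin p (incl p u * unif p ^ k)) {N j : ℕ} (hN : N ≠ 0)
    (hj : (j : ℤ) ≡ k [ZMOD N]) {ζ : PadicAlgCl p} (hζ : ζ ^ (p ^ N - 1) = 1) :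
    σ ζ = ζ ^ p ^ j := by
  refine (KW.class_field_theory_padic p).choose_spec.2.1 σ N j ζ hN hζ fun ℓ n hn => ?_
  change _ = PadicInt.toZModPow n (Multiplicative.toAdd (cft p (QuotientGroup.mk σ)).2 ℓ)
  rw [h, cft_artin, iota_jay, toAdd_ofAdd, map_intCast]
  have h1 : (j : ℤ) ≡ k [ZMOD ((ℓ : ℕ) ^ n : ℕ)] := hj.of_dvd (Int.natCast_dvd_natCast.mpr hn)
  have h2 := (ZMod.intCast_eq_intCast_iff _ _ _).mpr h1
  rwa [Int.cast_natCast] at h2

/-- A unit acts trivially on the roots of unity of order prime to `p`. -/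
theorem artin_unit_unr {u : ℤ_[p]ˣ} {σ : Gal(PadicAlgCl p/ℚ_[p])}
    (h : QuotientGroup.mk σ = artin p (incl p u)) {N : ℕ} (hN : N ≠ 0) {ζ : PadicAlgCl p}
    (hζ : ζ ^ (p ^ N - 1) = 1) : σ ζ = ζ := by
  have h1 := artin_act_unr (u := u) (k := 0) (σ := σ) (by rw [zpow_zero, mul_one]; exact h) hN
    (j := 0) (by exact Int.ModEq.refl _) hζ
  rwa [pow_zero, pow_one] at h1

/-- `artin p p` acts trivially on the roots of unity of order `p ^ n`. -/
theorem artin_unif_ppow {σ : Gal(PadicAlgCl p/ℚ_[p])}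
    (h : QuotientGroup.mk σ = artin p (unif p)) (n : ℕ) {ζ : PadicAlgCl p}
    (hζ : ζ ^ p ^ n = 1) : σ ζ = ζ := by
  have h1 := artin_act_ppow (u := 1) (k := 1) (σ := σ) (by rw [zpow_one, map_one, one_mul]; exact h)
    n hζ
  rw [inv_one, Units.val_one, map_one] at h1
  rcases Nat.eq_zero_or_pos n with rfl | hn
  · rw [pow_zero, pow_one] at hζ
    rw [hζ, map_one]
  · have : Fact (1 < p ^ n) := ⟨Nat.one_lt_pow hn.ne' hp.out.one_lt⟩
    rwa [ZMod.val_one, pow_one] at h1

/-- `artin p p` acts as `ζ ↦ ζ ^ p` on the roots of unity of order prime to `p`. -/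
theorem artin_unif_unr {σ : Gal(PadicAlgCl p/ℚ_[p])}
    (h : QuotientGroup.mk σ = artin p (unif p)) {N : ℕ} (hN : N ≠ 0) {ζ : PadicAlgCl p}
    (hζ : ζ ^ (p ^ N - 1) = 1) : σ ζ = ζ ^ p := by
  have h1 := artin_act_unr (u := 1) (k := 1) (σ := σ) (by rw [zpow_one, map_one, one_mul]; exact h)
    hN (j := 1) (by exact Int.ModEq.refl _) hζ
  rwa [pow_one] at h1

/-- **The image of the units is the image of the inertia group.** -/
theorem image_units : artin p '' Set.range (incl p) =
    QuotientGroup.mk '' {σ : Gal(PadicAlgCl p/ℚ_[p]) |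
      ∀ x : PadicAlgCl p, ‖x‖ ≤ 1 → ‖σ x - x‖ < 1} := by
  have h1 := (KW.class_field_theory_padic p).choose_spec.2.2.1
  change (fun σ => cft p (QuotientGroup.mk σ)) '' _ = _ at h1
  apply (cft p).injective.image_injective
  rw [Set.image_image, Set.image_image, h1]
  ext ⟨a, b⟩
  constructor
  · rintro ⟨_, ⟨u, rfl⟩, hu⟩
    have hu' : cft p (artin p (incl p u)) = (a, b) := hu
    rw [cft_artin, iota_incl] at hu'
    exact (congrArg Prod.snd hu').symm
  · rintro (rfl : b = 1)
    refine ⟨_, ⟨a⁻¹, rfl⟩, ?_⟩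
    show cft p (artin p (incl p a⁻¹)) = (a, 1)
    rw [cft_artin, iota_incl, inv_inv]

/-! ### The classification of the finite abelian extensions -/

/-- The elements of `ℚ_pˣ` which act trivially on `E`. -/
def artinKer (E : IntermediateField ℚ_[p] (PadicAlgCl p)) : Subgroup ℚ_[p]ˣ :=
  (E.fixingSubgroup.map (QuotientGroup.mk' _)).comap (artin p)

lemma artinKer_fieldOf (U : OpenSubgroup (Ab p)) :
    artinKer (fieldOf (cft p) U) = (U : Subgroup (Ab p)).comap (iota p) := by
  ext x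
  rw [artinKer, Subgroup.mem_comap, fixingSubgroup_fieldOf, Subgroup.mem_comap]
  constructor
  · rintro ⟨σ, hσ, h⟩
    change cft p (QuotientGroup.mk σ) ∈ (U : Subgroup (Ab p)) at hσ
    rw [← cft_artin, ← h]
    exact hσ
  · intro hx
    obtain ⟨σ, hσ⟩ := QuotientGroup.mk'_surjective _ (artin p x)
    refine ⟨σ, ?_, hσ⟩
    change cft p (QuotientGroup.mk' _ σ) ∈ (U : Subgroup (Ab p))
    rw [hσ, cft_artin]
    exact hx

/-- `x ∈ artinKer E` if and only if `artin p x` acts trivially on `E`. -/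
theorem mem_artinKer_iff {E : IntermediateField ℚ_[p] (PadicAlgCl p)} [FiniteDimensional ℚ_[p] E]
    [IsAbelianGalois ℚ_[p] E] {x : ℚ_[p]ˣ} {σ : Gal(PadicAlgCl p/ℚ_[p])}
    (h : QuotientGroup.mk σ = artin p x) : x ∈ artinKer E ↔ ∀ y ∈ E, σ y = y := by
  obtain ⟨U, rfl⟩ := exists_fieldOf (cft p) E
  rw [artinKer_fieldOf, Subgroup.mem_comap, ← cft_artin, ← h,
    ← IntermediateField.mem_fixingSubgroup_iff, fixingSubgroup_fieldOf]
  rfl

/-- `artinKer E` is open. -/
theorem isOpen_artinKer (E : IntermediateField ℚ_[p] (PadicAlgCl p)) [FiniteDimensional ℚ_[p] E]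
    [IsAbelianGalois ℚ_[p] E] : IsOpen (artinKer E : Set ℚ_[p]ˣ) := by
  obtain ⟨U, rfl⟩ := exists_fieldOf (cft p) E
  rw [artinKer_fieldOf]
  exact U.isOpen.preimage continuous_iota

/-- **The degree of `E` is the index of `artinKer E`.** -/
theorem index_artinKer (E : IntermediateField ℚ_[p] (PadicAlgCl p)) [FiniteDimensional ℚ_[p] E]
    [IsAbelianGalois ℚ_[p] E] : (artinKer E).index = finrank ℚ_[p] E := by
  obtain ⟨U, rfl⟩ := exists_fieldOf (cft p) E
  rw [artinKer_fieldOf, index_comap_iota U.isOpen, finrank_fieldOf]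

theorem finiteIndex_artinKer (E : IntermediateField ℚ_[p] (PadicAlgCl p))
    [FiniteDimensional ℚ_[p] E] [IsAbelianGalois ℚ_[p] E] : (artinKer E).FiniteIndex :=
  ⟨by rw [index_artinKer]; exact finrank_pos.ne'⟩

/-- `E ↦ artinKer E` reverses inclusions. -/
theorem artinKer_le_iff {E F : IntermediateField ℚ_[p] (PadicAlgCl p)}
    [FiniteDimensional ℚ_[p] E] [IsAbelianGalois ℚ_[p] E] [FiniteDimensional ℚ_[p] F]
    [IsAbelianGalois ℚ_[p] F] : artinKer E ≤ artinKer F ↔ F ≤ E := by
  obtain ⟨U, rfl⟩ := exists_fieldOf (cft p) E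
  obtain ⟨V, rfl⟩ := exists_fieldOf (cft p) F
  rw [artinKer_fieldOf, artinKer_fieldOf, comap_iota_le_iff U.isOpen V.isOpen, fieldOf_le_iff]
  rfl

/-- **The existence theorem of local class field theory for `ℚ_p`**: every open subgroup of finite
index of `ℚ_pˣ` is of the form `artinKer E` for exactly one finite abelian extension `E`. -/
theorem existence (H : Subgroup ℚ_[p]ˣ) (hH : IsOpen (H : Set ℚ_[p]ˣ)) (hf : H.FiniteIndex) :
    ∃! E : IntermediateField ℚ_[p] (PadicAlgCl p),
      FiniteDimensional ℚ_[p] E ∧ IsAbelianGalois ℚ_[p] E ∧ artinKer E = H := by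
  obtain ⟨U, hU⟩ := exists_comap_iota H hH hf
  refine ⟨fieldOf (cft p) U, ⟨inferInstance, inferInstance, by rw [artinKer_fieldOf, hU]⟩, ?_⟩
  rintro E ⟨h1, h2, h3⟩
  have h4 : artinKer E = artinKer (fieldOf (cft p) U) := by rw [artinKer_fieldOf, hU, h3]
  exact le_antisymm (artinKer_le_iff.mp h4.ge) (artinKer_le_iff.mp h4.le)

variable (p) in
/-- **The classification of the finite abelian extensions of `ℚ_p`** by the open subgroups of finite
index of `ℚ_pˣ`. -/
def classification : {E : IntermediateField ℚ_[p] (PadicAlgCl p) //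
      FiniteDimensional ℚ_[p] E ∧ IsAbelianGalois ℚ_[p] E} ≃o
    {H : Subgroup ℚ_[p]ˣ // IsOpen (H : Set ℚ_[p]ˣ) ∧ H.FiniteIndex}ᵒᵈ where
  toEquiv := Equiv.ofBijective
    (fun E => OrderDual.toDual (⟨artinKer E.1, by
      have := E.2.1
      have := E.2.2
      exact ⟨isOpen_artinKer E.1, finiteIndex_artinKer E.1⟩⟩ :
        {H : Subgroup ℚ_[p]ˣ // IsOpen (H : Set ℚ_[p]ˣ) ∧ H.FiniteIndex}))
    ⟨fun E F h => by
      have h1 := E.2.1
      have h2 := E.2.2
      have h3 := F.2.1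
      have h4 := F.2.2
      have h5 : artinKer E.1 = artinKer F.1 := congrArg Subtype.val (OrderDual.toDual.injective h)
      exact Subtype.ext (le_antisymm (artinKer_le_iff.mp h5.ge) (artinKer_le_iff.mp h5.le)),
    fun H => by
      obtain ⟨H, h1, h2⟩ := H
      obtain ⟨E, ⟨h3, h4, h5⟩, -⟩ := existence H h1 h2
      exact ⟨⟨E, h3, h4⟩, congrArg OrderDual.toDual (Subtype.ext h5)⟩⟩
  map_rel_iff' {E F} := by
    have h1 := E.2.1
    have h2 := E.2.2
    have h3 := F.2.1
    have h4 := F.2.2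
    exact artinKer_le_iff

theorem classification_apply (E : {E : IntermediateField ℚ_[p] (PadicAlgCl p) //
    FiniteDimensional ℚ_[p] E ∧ IsAbelianGalois ℚ_[p] E}) :
    (OrderDual.ofDual (classification p E)).1 = artinKer E.1 := rfl

/-- **The reciprocity law**: the Galois group of a finite abelian extension `E` of `ℚ_p` is
`ℚ_pˣ/artinKer E`, by the action of `artin p` on `E`. -/
theorem exists_reciprocity (E : IntermediateField ℚ_[p] (PadicAlgCl p)) [FiniteDimensional ℚ_[p] E]
    [IsAbelianGalois ℚ_[p] E] : ∃ f : ℚ_[p]ˣ →* Gal(E/ℚ_[p]), Function.Surjective f ∧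
      f.ker = artinKer E ∧ ∀ (x : ℚ_[p]ˣ) (σ : Gal(PadicAlgCl p/ℚ_[p])),
        QuotientGroup.mk σ = artin p x → ∀ y : E, (f x y : PadicAlgCl p) = σ y := by
  obtain ⟨U, rfl⟩ := exists_fieldOf (cft p) E
  refine ⟨(galEquiv (cft p) U).toMonoidHom.comp
    ((QuotientGroup.mk' (U : Subgroup (Ab p))).comp (iota p)),
    (galEquiv (cft p) U).surjective.comp (mk_iota_surjective U.isOpen), ?_, fun x σ h y => ?_⟩
  · rw [artinKer_fieldOf, ← ker_mk_iota]
    ext x
    exact map_eq_one_iff (galEquiv (cft p) U) (galEquiv (cft p) U).injective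
  · have h1 := galEquiv_apply (cft p) U σ y
    rw [h, cft_artin] at h1
    exact h1

end Fermat.Agent.Cor.LocCount
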