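import Fermat.Agent.Corollaries.LocCount.PadicUnits

/-!
# The open subgroups of finite index of `ℚ_pˣ` and the open subgroups of `ℤ_pˣ × ∏ ℤ_ℓ`

The homomorphism `iota : ℚ_pˣ → ℤ_pˣ × ∏ ℤ_ℓ`, `u p ^ k ↦ (u⁻¹, k)`, has dense image, and
`U ↦ iota⁻¹ U` is a bijection from the open subgroups to the open subgroups of finite index.
-/

set_option autoImplicit false

noncomputable section

namespace Fermat.Agent.Cor.LocCount

attribute [local instance] fact_prime_sub

variable {p : ℕ} [hp : Fact p.Prime]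

/-! ### The structure of `ℚ_pˣ` -/

variable (p) in
/-- `p` as a unit of `ℚ_p`. -/
def unif : ℚ_[p]ˣ := Units.mk0 (p : ℚ_[p]) (by exact_mod_cast hp.out.ne_zero)

variable (p) in
/-- The inclusion of the units of `ℤ_p`. -/
def incl : ℤ_[p]ˣ →* ℚ_[p]ˣ := Units.map (PadicInt.Coe.ringHom : ℤ_[p] →+* ℚ_[p]).toMonoidHom

lemma coe_incl (u : ℤ_[p]ˣ) : ((incl p u : ℚ_[p]ˣ) : ℚ_[p]) = ((u : ℤ_[p]) : ℚ_[p]) := rfl

lemma norm_incl (u : ℤ_[p]ˣ) : ‖((incl p u : ℚ_[p]ˣ) : ℚ_[p])‖ = 1 := by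
  rw [coe_incl, PadicInt.padic_norm_e_of_padicInt, PadicInt.norm_units]

lemma incl_injective : Function.Injective (incl p) := fun u v h => by
  apply Units.ext
  apply Subtype.ext
  exact congrArg Units.val h

lemma norm_unif_zpow (k : ℤ) : ‖((unif p ^ k : ℚ_[p]ˣ) : ℚ_[p])‖ = (p : ℝ) ^ (-k) := by
  rw [Units.val_zpow_eq_zpow_val, norm_zpow]
  show ‖(p : ℚ_[p])‖ ^ k = _
  rw [Padic.norm_p, inv_zpow, zpow_neg]

variable (p) in
/-- `(u, k) ↦ u p ^ k`. -/
def jay : ℤ_[p]ˣ × Multiplicative ℤ →* ℚ_[p]ˣ where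
  toFun x := incl p x.1 * unif p ^ x.2.toAdd
  map_one' := by simp
  map_mul' x y := by
    rw [Prod.fst_mul, Prod.snd_mul, map_mul, toAdd_mul, zpow_add, mul_mul_mul_comm]

lemma jay_bijective : Function.Bijective (jay p) := by
  have hp1 : (1 : ℝ) < p := by exact_mod_cast hp.out.one_lt
  constructor
  · rw [injective_iff_map_eq_one]
    rintro ⟨u, k⟩ h
    have h1 := congrArg (fun x : ℚ_[p]ˣ => ‖(x : ℚ_[p])‖) h
    change ‖((incl p u * unif p ^ k.toAdd : ℚ_[p]ˣ) : ℚ_[p])‖ = ‖((1 : ℚ_[p]ˣ) : ℚ_[p])‖ at h1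
    rw [Units.val_mul, norm_mul, norm_incl, norm_unif_zpow, one_mul, Units.val_one, norm_one] at h1
    have h2 : k.toAdd = 0 := by
      have := (zpow_eq_one_iff_right₀ (by linarith) hp1.ne').mp h1
      omega
    have h3 : k = 1 := h2
    subst h3
    have h4 : incl p u = 1 := by
      have h5 : incl p u * unif p ^ (0 : ℤ) = 1 := h
      rwa [zpow_zero, mul_one] at h5
    have h6 : u = 1 := incl_injective (by rw [h4, map_one])
    rw [h6]
    rfl
  · intro x
    have h1 : ‖((x * (unif p ^ (x : ℚ_[p]).valuation)⁻¹ : ℚ_[p]ˣ) : ℚ_[p])‖ = 1 := by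
      rw [← zpow_neg, Units.val_mul, norm_mul, norm_unif_zpow, neg_neg,
        Padic.norm_eq_zpow_neg_valuation x.ne_zero, ← zpow_add₀ (by linarith), neg_add_cancel,
        zpow_zero]
    refine ⟨(PadicInt.mkUnits h1, Multiplicative.ofAdd (x : ℚ_[p]).valuation), ?_⟩
    show incl p (PadicInt.mkUnits h1) * unif p ^ (x : ℚ_[p]).valuation = x
    have h2 : incl p (PadicInt.mkUnits h1) = x * (unif p ^ (x : ℚ_[p]).valuation)⁻¹ :=
      Units.ext rfl
    rw [h2, inv_mul_cancel_right]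

variable (p) in
/-- `ℚ_pˣ = ℤ_pˣ × ℤ`. -/
def jayEquiv : ℤ_[p]ˣ × Multiplicative ℤ ≃* ℚ_[p]ˣ := MulEquiv.ofBijective (jay p) jay_bijective

/-- `(u, k) ↦ (u⁻¹, k)`. -/
def iotaAux (p : ℕ) [Fact p.Prime] : ℤ_[p]ˣ × Multiplicative ℤ →* Ab p where
  toFun x := (x.1⁻¹, Multiplicative.ofAdd fun q => ((x.2.toAdd : ℤ) : ℤ_[q]))
  map_one' := by
    refine Prod.ext (inv_one) ?_
    apply Multiplicative.toAdd.injective
    funext q
    exact Int.cast_zero
  map_mul' x y := by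
    refine Prod.ext (mul_inv x.1 y.1) ?_
    apply Multiplicative.toAdd.injective
    funext q
    exact Int.cast_add _ _

variable (p) in
/-- The homomorphism `u p ^ k ↦ (u⁻¹, k)`. -/
def iota : ℚ_[p]ˣ →* Ab p := (iotaAux p).comp (jayEquiv p).symm.toMonoidHom

lemma iota_jay (u : ℤ_[p]ˣ) (k : ℤ) : iota p (incl p u * unif p ^ k) =
    (u⁻¹, Multiplicative.ofAdd fun q : Nat.Primes => (k : ℤ_[q])) := by
  have h : (jayEquiv p).symm (incl p u * unif p ^ k) = (u, Multiplicative.ofAdd k) := by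
    rw [MulEquiv.symm_apply_eq]
    rfl
  show iotaAux p ((jayEquiv p).symm (incl p u * unif p ^ k)) = _
  rw [h]
  rfl

lemma exists_jay (x : ℚ_[p]ˣ) : ∃ (u : ℤ_[p]ˣ) (k : ℤ), x = incl p u * unif p ^ k := by
  obtain ⟨⟨u, k⟩, h⟩ := (jayEquiv p).surjective x
  exact ⟨u, k.toAdd, h.symm⟩

lemma iota_incl (u : ℤ_[p]ˣ) : iota p (incl p u) = (u⁻¹, 1) := by
  have h := iota_jay u 0
  rw [zpow_zero, mul_one] at h
  rw [h]
  refine Prod.ext rfl ?_
  apply Multiplicative.toAdd.injective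
  funext q
  exact Int.cast_zero

lemma iota_unif : iota p (unif p) = (1, Multiplicative.ofAdd 1) := by
  have h := iota_jay (p := p) 1 1
  rw [map_one, one_mul, zpow_one] at h
  rw [h]
  refine Prod.ext inv_one ?_
  apply Multiplicative.toAdd.injective
  funext q
  exact Int.cast_one

lemma iota_injective : Function.Injective (iota p) := by
  rw [injective_iff_map_eq_one]
  intro x hx
  obtain ⟨u, k, rfl⟩ := exists_jay x
  rw [iota_jay] at hx
  have h1 : u = 1 := inv_eq_one.mp (congrArg Prod.fst hx)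
  have h2 : ((k : ℤ) : ℤ_[(⟨2, Nat.prime_two⟩ : Nat.Primes)]) = 0 :=
    congrFun (congrArg (fun y : Ab p => Multiplicative.toAdd y.2) hx) ⟨2, Nat.prime_two⟩
  have h3 : k = 0 := by exact_mod_cast h2
  rw [h1, h3, map_one, zpow_zero, mul_one]

/-! ### Topology -/

lemma norm_le_iff {m : ℕ} {x y : ℤ_[p]} :
    PadicInt.toZModPow m x = PadicInt.toZModPow m y ↔ ‖x - y‖ ≤ (p : ℝ) ^ (-(m : ℤ)) := by
  rw [PadicInt.norm_le_pow_iff_mem_span_pow, ← PadicInt.ker_toZModPow, RingHom.mem_ker, map_sub,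
    sub_eq_zero]

lemma toZModPow_mono {m n : ℕ} (h : m ≤ n) {x y : ℤ_[p]}
    (hxy : PadicInt.toZModPow n x = PadicInt.toZModPow n y) :
    PadicInt.toZModPow m x = PadicInt.toZModPow m y := by
  rw [← PadicInt.cast_toZModPow m n h x, ← PadicInt.cast_toZModPow m n h y, hxy]

lemma exists_level {V : Set ℤ_[p]} (hV : IsOpen V) {c : ℤ_[p]} (hc : c ∈ V) :
    ∃ m : ℕ, ∀ y, PadicInt.toZModPow m y = PadicInt.toZModPow m c → y ∈ V := by
  have hp1 : (1 : ℝ) < p := by exact_mod_cast hp.out.one_lt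
  obtain ⟨ε, hε, h⟩ := Metric.isOpen_iff.mp hV c hc
  obtain ⟨m, hm⟩ := exists_pow_lt_of_lt_one hε (inv_lt_one_of_one_lt₀ hp1)
  refine ⟨m, fun y hy => h ?_⟩
  rw [Metric.mem_ball, dist_eq_norm]
  refine (norm_le_iff.mp hy).trans_lt ?_
  rwa [zpow_neg, zpow_natCast, ← inv_pow]

lemma exists_level_units {V : Set ℤ_[p]ˣ} (hV : IsOpen V) (hc : 1 ∈ V) :
    ∃ m : ℕ, ∀ y : ℤ_[p]ˣ, red p m y = 1 → y ∈ V := by
  have h1 : IsOpen (Units.val '' V : Set ℤ_[p]) := Units.isOpenEmbedding_val.isOpenMap V hV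
  obtain ⟨m, hm⟩ := exists_level h1 ⟨1, hc, rfl⟩
  refine ⟨m, fun y hy => ?_⟩
  obtain ⟨z, hz, hzy⟩ := hm (y : ℤ_[p]) (by
    have := congrArg Units.val hy
    rw [Units.val_one, map_one]
    exact this)
  rwa [← Units.ext hzy]

/-- The basic open subgroups. -/
def basic (p : ℕ) [Fact p.Prime] (m : ℕ) (S : Finset Nat.Primes) : Subgroup (Ab p) where
  carrier := {x | red p m x.1 = 1 ∧ ∀ q ∈ S, PadicInt.toZModPow m (x.2.toAdd q) = 0}
  one_mem' := ⟨map_one _, fun q _ => map_zero _⟩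
  mul_mem' {x y} hx hy := ⟨by rw [Prod.fst_mul, map_mul, hx.1, hy.1, mul_one], fun q hq => by
    rw [Prod.snd_mul, toAdd_mul, Pi.add_apply, map_add, hx.2 q hq, hy.2 q hq, add_zero]⟩
  inv_mem' {x} hx := ⟨by rw [Prod.fst_inv, map_inv, hx.1, inv_one], fun q hq => by
    rw [Prod.snd_inv, toAdd_inv, Pi.neg_apply, map_neg, hx.2 q hq, neg_zero]⟩

lemma mem_basic {m : ℕ} {S : Finset Nat.Primes} {x : Ab p} : x ∈ basic p m S ↔
    red p m x.1 = 1 ∧ ∀ q ∈ S, PadicInt.toZModPow m (x.2.toAdd q) = 0 := Iff.rfl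

lemma isOpen_basic (m : ℕ) (S : Finset Nat.Primes) : IsOpen (basic p m S : Set (Ab p)) := by
  have e1 : (basic p m S : Set (Ab p)) =
      (fun x : Ab p => (x.1 : ℤ_[p])) ⁻¹' {x | PadicInt.toZModPow m x = PadicInt.toZModPow m 1} ∩
      ⋂ q ∈ S, (fun x : Ab p => x.2.toAdd q) ⁻¹'
        {x | PadicInt.toZModPow m x = PadicInt.toZModPow m 0} := by
    ext ⟨a, b⟩
    rw [SetLike.mem_coe, mem_basic, Set.mem_inter_iff, Set.mem_preimage, Set.mem_ofPred_eq,
      map_one, Units.ext_iff, Set.mem_iInter₂]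
    refine and_congr Iff.rfl (forall₂_congr fun q _ => ?_)
    rw [Set.mem_preimage, Set.mem_ofPred_eq, map_zero]
  rw [e1]
  refine (IsOpen.preimage ?_ (isOpen_toZModPow m 1)).inter
    (isOpen_biInter_finset fun q _ => IsOpen.preimage ?_ (isOpen_toZModPow (p := q) m 0))
  · exact Units.continuous_val.comp continuous_fst
  · exact (continuous_apply q).comp (continuous_toAdd.comp continuous_snd)

/-- The basic open subgroups are a basis of neighborhoods of `1`. -/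
lemma exists_basic {O : Set (Ab p)} (hO : IsOpen O) (h1 : 1 ∈ O) :
    ∃ (m : ℕ) (S : Finset Nat.Primes), ∀ x ∈ basic p m S, x ∈ O := by
  obtain ⟨V, W, hV, hW, h1V, h1W, hVW⟩ := isOpen_prod_iff.mp hO 1 1 h1
  obtain ⟨m₁, hm₁⟩ := exists_level_units hV h1V
  have hW' : IsOpen (Multiplicative.ofAdd ⁻¹' W : Set ((q : Nat.Primes) → ℤ_[q])) :=
    hW.preimage continuous_ofAdd
  obtain ⟨S, u, hu, hSu⟩ := isOpen_pi_iff.mp hW' 0 h1W
  have h2 : ∀ q : Nat.Primes, ∃ m : ℕ, q ∈ S →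
      ∀ y : ℤ_[q], PadicInt.toZModPow m y = PadicInt.toZModPow m 0 → y ∈ u q := by
    intro q
    by_cases hq : q ∈ S
    · obtain ⟨m, hm⟩ := exists_level (hu q hq).1 (hu q hq).2
      exact ⟨m, fun _ => hm⟩
    · exact ⟨0, fun h => absurd h hq⟩
  choose f hf using h2
  refine ⟨max m₁ (S.sup f), S, fun x hx => hVW ⟨hm₁ x.1 ?_, hSu ?_⟩⟩
  · have h3 := congrArg Units.val (mem_basic.mp hx).1
    apply Units.ext
    have h4 : PadicInt.toZModPow (max m₁ (S.sup f)) (x.1 : ℤ_[p]) =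
        PadicInt.toZModPow (max m₁ (S.sup f)) 1 := by
      rw [map_one]
      exact h3
    have h5 := toZModPow_mono (le_max_left m₁ (S.sup f)) h4
    rw [map_one] at h5
    exact h5
  · intro q hq
    refine hf q hq _ (toZModPow_mono ((Finset.le_sup hq).trans (le_max_right m₁ (S.sup f))) ?_)
    rw [map_zero]
    exact (mem_basic.mp hx).2 q hq

/-! ### Density -/

lemma exists_int (b : (q : Nat.Primes) → ℤ_[q]) (m : ℕ) (S : Finset Nat.Primes) :
    ∃ k : ℕ, ∀ q ∈ S, PadicInt.toZModPow m (k : ℤ_[q]) = PadicInt.toZModPow m (b q) := by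
  obtain ⟨k, hk⟩ := Nat.chineseRemainderOfFinset
    (fun q : Nat.Primes => (PadicInt.toZModPow m (b q)).val) (fun q => (q : ℕ) ^ m) S
    (fun q _ => pow_ne_zero m q.2.ne_zero)
    (fun q _ r _ hqr => Nat.Coprime.pow m m ((Nat.coprime_primes q.2 r.2).mpr
      fun h => hqr (Subtype.ext h)))
  refine ⟨k, fun q hq => ?_⟩
  have : NeZero ((q : ℕ) ^ m) := ⟨pow_ne_zero m q.2.ne_zero⟩
  rw [map_natCast, (ZMod.natCast_eq_natCast_iff _ _ _).mpr (hk q hq), ZMod.natCast_zmod_val]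

lemma exists_iota (a : Ab p) (m : ℕ) (S : Finset Nat.Primes) :
    ∃ y : ℚ_[p]ˣ, iota p y * a⁻¹ ∈ basic p m S := by
  obtain ⟨k, hk⟩ := exists_int a.2.toAdd m S
  refine ⟨incl p a.1⁻¹ * unif p ^ (k : ℤ), ?_⟩
  rw [iota_jay, mem_basic]
  refine ⟨?_, fun q hq => ?_⟩
  · rw [Prod.fst_mul, Prod.fst_inv, inv_inv, mul_inv_cancel, map_one]
  · rw [Prod.snd_mul, Prod.snd_inv, toAdd_mul, toAdd_inv, Pi.add_apply, Pi.neg_apply, map_add,
      map_neg, toAdd_ofAdd, Int.cast_natCast, hk q hq, add_neg_cancel]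

lemma exists_iota_mem {O : Set (Ab p)} (hO : IsOpen O) {a : Ab p} (ha : a ∈ O) :
    ∃ y : ℚ_[p]ˣ, iota p y ∈ O := by
  have h1 : IsOpen ((fun x => x * a) ⁻¹' O) := hO.preimage (continuous_mul_const a)
  obtain ⟨m, S, h⟩ := exists_basic h1 (by rwa [Set.mem_preimage, one_mul])
  obtain ⟨y, hy⟩ := exists_iota a m S
  refine ⟨y, ?_⟩
  have h2 := h _ hy
  rwa [Set.mem_preimage, inv_mul_cancel_right] at h2

theorem denseRange_iota : DenseRange (iota p) := by
  intro a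
  rw [mem_closure_iff]
  intro O hO ha
  obtain ⟨y, hy⟩ := exists_iota_mem hO ha
  exact ⟨_, hy, y, rfl⟩

/-! ### Continuity -/

lemma continuous_incl : Continuous (incl p) :=
  Continuous.units_map _ (continuous_subtype_val : Continuous (fun x : ℤ_[p] => (x : ℚ_[p])))

lemma nhds_units (m : ℕ) :
    {x : ℚ_[p]ˣ | ∃ u : ℤ_[p]ˣ, red p m u = 1 ∧ incl p u = x} ∈ nhds (1 : ℚ_[p]ˣ) := by
  have hp1 : (1 : ℝ) < p := by exact_mod_cast hp.out.one_lt
  have hp0 : (0 : ℝ) < p := by linarith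
  have h1 : IsOpen (Units.val ⁻¹' Metric.ball (1 : ℚ_[p]) ((p : ℝ) ^ (-(m : ℤ))) : Set ℚ_[p]ˣ) :=
    Metric.isOpen_ball.preimage Units.continuous_val
  refine Filter.mem_of_superset (h1.mem_nhds ?_) ?_
  · rw [Set.mem_preimage, Units.val_one]
    exact Metric.mem_ball_self (zpow_pos hp0 _)
  · intro x hx
    rw [Set.mem_preimage, Metric.mem_ball, dist_eq_norm] at hx
    have h2 : ‖(x : ℚ_[p]) - 1‖ < 1 := hx.trans_le (by
      rw [zpow_neg, zpow_natCast]
      exact inv_le_one_of_one_le₀ (one_le_pow₀ hp1.le))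
    have h3 : ‖(x : ℚ_[p])‖ = 1 := by
      have h4 := Padic.add_eq_max_of_ne (q := (x : ℚ_[p]) - 1) (r := 1) (by
        rw [norm_one]
        exact h2.ne)
      rw [sub_add_cancel, norm_one, max_eq_right h2.le] at h4
      exact h4
    refine ⟨PadicInt.mkUnits h3, ?_, Units.ext rfl⟩
    apply Units.ext
    have h5 : PadicInt.toZModPow m ((PadicInt.mkUnits h3 : ℤ_[p]ˣ) : ℤ_[p]) =
        PadicInt.toZModPow m 1 := norm_le_iff.mpr hx.le
    rw [map_one] at h5
    exact h5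

theorem continuous_iota : Continuous (iota p) := by
  refine continuous_of_continuousAt_one _ ?_
  intro O hO
  rw [map_one] at hO
  obtain ⟨O', hO'O, hO', h1⟩ := mem_nhds_iff.mp hO
  obtain ⟨m, S, h⟩ := exists_basic hO' h1
  rw [Filter.mem_map]
  refine Filter.mem_of_superset (nhds_units m) ?_
  rintro x ⟨u, hu, rfl⟩
  refine hO'O (h _ ?_)
  rw [iota_incl, mem_basic]
  exact ⟨by rw [map_inv, hu, inv_one], fun q _ => map_zero _⟩

/-! ### Open subgroups -/

lemma exists_iota_mul {U : Subgroup (Ab p)} (hU : IsOpen (U : Set (Ab p))) (a : Ab p) :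
    ∃ y : ℚ_[p]ˣ, iota p y * a⁻¹ ∈ U :=
  exists_iota_mem (O := (fun x => x * a⁻¹) ⁻¹' (U : Set (Ab p)))
    (hU.preimage (continuous_mul_const a⁻¹)) (a := a) (by
      rw [Set.mem_preimage, mul_inv_cancel]
      exact U.one_mem)

lemma mk_iota_surjective {U : Subgroup (Ab p)} (hU : IsOpen (U : Set (Ab p))) :
    Function.Surjective ((QuotientGroup.mk' U).comp (iota p)) := by
  intro a
  obtain ⟨a, rfl⟩ := QuotientGroup.mk'_surjective U a
  obtain ⟨y, hy⟩ := exists_iota_mul hU a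
  refine ⟨y, ?_⟩
  refine (QuotientGroup.eq.mpr ?_).symm
  rwa [mul_comm]

lemma ker_mk_iota (U : Subgroup (Ab p)) :
    ((QuotientGroup.mk' U).comp (iota p)).ker = U.comap (iota p) := by
  rw [← MonoidHom.comap_ker, QuotientGroup.ker_mk']

theorem index_comap_iota {U : Subgroup (Ab p)} (hU : IsOpen (U : Set (Ab p))) :
    (U.comap (iota p)).index = U.index := by
  rw [← ker_mk_iota, Subgroup.index_ker, MonoidHom.range_eq_top.mpr (mk_iota_surjective hU),
    Subgroup.card_top]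
  rfl

theorem comap_iota_le_iff {U V : Subgroup (Ab p)} (hU : IsOpen (U : Set (Ab p)))
    (hV : IsOpen (V : Set (Ab p))) : U.comap (iota p) ≤ V.comap (iota p) ↔ U ≤ V := by
  refine ⟨fun h a ha => ?_, fun h => Subgroup.comap_mono h⟩
  obtain ⟨y, hy⟩ := exists_iota_mul (U := U ⊓ V) (hU.inter hV) a
  have h1 : iota p y ∈ U := by
    have := U.mul_mem hy.1 ha
    rwa [inv_mul_cancel_right] at this
  have h2 : iota p y ∈ V := h (show y ∈ U.comap (iota p) from h1)
  have h3 := V.mul_mem (V.inv_mem hy.2) h2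
  rwa [mul_inv_rev, inv_inv, inv_mul_cancel_right] at h3

/-- Every open subgroup of finite index of `ℚ_pˣ` comes from an open subgroup. -/
theorem exists_comap_iota (H : Subgroup ℚ_[p]ˣ) (hH : IsOpen (H : Set ℚ_[p]ˣ))
    (hf : H.FiniteIndex) : ∃ U : OpenSubgroup (Ab p), (U : Subgroup (Ab p)).comap (iota p) = H := by
  classical
  obtain ⟨m₁, hm₁⟩ := exists_level_units (hH.preimage continuous_incl)
    (by rw [Set.mem_preimage, map_one]; exact H.one_mem)
  have hn : H.index ≠ 0 := hf.index_ne_zero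
  let S : Finset Nat.Primes := H.index.primeFactors.attach.image
    fun q => ⟨q.1, (Nat.mem_primeFactors.mp q.2).1⟩
  have hS : ∀ q : Nat.Primes, (q : ℕ) ∣ H.index → q ∈ S := by
    intro q hq
    exact Finset.mem_image.mpr
      ⟨⟨q, Nat.mem_primeFactors.mpr ⟨q.2, hq, hn⟩⟩, Finset.mem_attach _ _, rfl⟩
  let m := max m₁ H.index
  have key : ∀ x : ℚ_[p]ˣ, iota p x ∈ basic p m S → x ∈ H := by
    intro x hx
    obtain ⟨u, k, rfl⟩ := exists_jay x
    rw [iota_jay, mem_basic] at hx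
    have h1 : incl p u ∈ H := by
      refine hm₁ u (Units.ext ?_)
      have h2 : red p m u = 1 := by
        have := hx.1
        rwa [map_inv, inv_eq_one] at this
      have h3 : PadicInt.toZModPow m (u : ℤ_[p]) = PadicInt.toZModPow m 1 := by
        rw [map_one]
        exact congrArg Units.val h2
      have h4 := toZModPow_mono (le_max_left m₁ H.index) h3
      rw [map_one] at h4
      exact h4
    have h2 : (H.index : ℤ) ∣ k := by
      rw [Int.natCast_dvd, Nat.dvd_iff_prime_pow_dvd_dvd]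
      intro q j hq hqj
      rcases Nat.eq_zero_or_pos j with rfl | hj
      · rw [pow_zero]
        exact one_dvd _
      · have h3 : q ∣ H.index := (dvd_pow_self q hj.ne').trans hqj
        have h4 := hx.2 ⟨q, hq⟩ (hS ⟨q, hq⟩ h3)
        rw [toAdd_ofAdd, map_intCast, ZMod.intCast_zmod_eq_zero_iff_dvd] at h4
        have h5 : j ≤ m := by
          have h6 : q ^ j ≤ H.index := Nat.le_of_dvd (Nat.pos_of_ne_zero hn) hqj
          have h7 : j < q ^ j := Nat.lt_pow_self hq.one_lt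
          exact (h7.le.trans h6).trans (le_max_right _ _)
        rw [← Int.natCast_dvd]
        exact (Int.natCast_dvd_natCast.mpr (pow_dvd_pow q h5)).trans h4
    obtain ⟨c, rfl⟩ := h2
    refine H.mul_mem h1 ?_
    rw [mul_comm, zpow_mul, zpow_natCast]
    exact H.pow_index_mem _
  refine ⟨⟨basic p m S ⊔ H.map (iota p), Subgroup.isOpen_mono le_sup_left (isOpen_basic m S)⟩, ?_⟩
  ext x
  rw [Subgroup.mem_comap]
  constructor
  · intro hx
    obtain ⟨a, ha, b, hb, hab⟩ := Subgroup.mem_sup.mp hx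
    obtain ⟨h, hh, rfl⟩ := hb
    have h1 : x * h⁻¹ ∈ H := by
      apply key
      rw [map_mul, map_inv, ← hab, mul_inv_cancel_right]
      exact ha
    have h2 := H.mul_mem h1 hh
    rwa [inv_mul_cancel_right] at h2
  · intro hx
    exact Subgroup.mem_sup_right ⟨x, hx, rfl⟩

end Fermat.Agent.Cor.LocCount
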