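import Fermat.Agent.Corollaries.LocCount.Existence

/-!
# The subgroups attached to the cyclotomic extensions of `ℚ_p`

* `mem_artinKer_ppow` : `u p ^ k` acts trivially on `ℚ_p(ζ)`, `ζ` of order `p ^ n`, if and only if
  `u ≡ 1` modulo `p ^ n`;
* `mem_artinKer_unr` : `u p ^ k` acts trivially on `ℚ_p(ζ)`, `ζ` of order `p ^ N - 1` (the unramified
  extension of degree `N`), if and only if `N ∣ k`.
-/

set_option autoImplicit false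

noncomputable section

namespace Fermat.Agent.Cor.LocCount

open Module IntermediateField

attribute [local instance] fact_prime_sub

variable {p : ℕ} [hp : Fact p.Prime]

lemma finite_abelian_adjoin {m : ℕ} (hm : m ≠ 0) {ζ : PadicAlgCl p} (hζ : IsPrimitiveRoot ζ m) :
    FiniteDimensional ℚ_[p] ℚ_[p]⟮ζ⟯ ∧ IsAbelianGalois ℚ_[p] ℚ_[p]⟮ζ⟯ := by
  have : NeZero m := ⟨hm⟩
  have h1 : IsCyclotomicExtension {m} ℚ_[p] ℚ_[p]⟮ζ⟯ :=
    hζ.intermediateField_adjoin_isCyclotomicExtension ℚ_[p]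
  exact ⟨IsCyclotomicExtension.finiteDimensional {m} ℚ_[p] _,
    IsCyclotomicExtension.isAbelianGalois {m} ℚ_[p] _⟩

lemma forall_mem_adjoin_iff {ζ : PadicAlgCl p} {σ : Gal(PadicAlgCl p/ℚ_[p])} :
    (∀ y ∈ ℚ_[p]⟮ζ⟯, σ y = y) ↔ σ ζ = ζ := by
  have h := forall_mem_adjoin_smul_eq_self_iff (F := ℚ_[p]) (S := {ζ}) σ
  simp only [Set.mem_singleton_iff, forall_eq, AlgEquiv.smul_def] at h
  exact h

lemma pow_eq_pow_iff_cast {m : ℕ} [NeZero m] {ζ : PadicAlgCl p} (hζ : IsPrimitiveRoot ζ m)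
    (a b : ℕ) : ζ ^ a = ζ ^ b ↔ (a : ZMod m) = b := by
  rw [(hζ.isOfFinOrder (NeZero.ne m)).pow_inj_mod, ← hζ.eq_orderOf, ZMod.natCast_eq_natCast_iff']

/-- `u p ^ k` acts trivially on the field of `p ^ n`-th roots of unity if and only if `u ≡ 1`
modulo `p ^ n`. -/
theorem mem_artinKer_ppow {n : ℕ} {ζ : PadicAlgCl p} (hζ : IsPrimitiveRoot ζ (p ^ n)) {u : ℤ_[p]ˣ}
    {k : ℤ} : incl p u * unif p ^ k ∈ artinKer ℚ_[p]⟮ζ⟯ ↔
      PadicInt.toZModPow n (u : ℤ_[p]) = 1 := by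
  obtain ⟨h1, h2⟩ := finite_abelian_adjoin (pow_ne_zero n hp.out.ne_zero) hζ
  obtain ⟨σ, hσ⟩ := QuotientGroup.mk'_surjective _ (artin p (incl p u * unif p ^ k))
  have : NeZero (p ^ n) := ⟨pow_ne_zero n hp.out.ne_zero⟩
  rw [mem_artinKer_iff (σ := σ) hσ, forall_mem_adjoin_iff, artin_act_ppow hσ n hζ.pow_eq_one]
  have h3 : PadicInt.toZModPow n ((u⁻¹ : ℤ_[p]ˣ) : ℤ_[p]) = 1 ↔
      PadicInt.toZModPow n (u : ℤ_[p]) = 1 := by
    have h4 : red p n u⁻¹ = 1 ↔ red p n u = 1 := by rw [map_inv, inv_eq_one]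
    rw [Units.ext_iff, Units.ext_iff] at h4
    exact h4
  rw [← h3]
  have h5 : ζ ^ (PadicInt.toZModPow n ((u⁻¹ : ℤ_[p]ˣ) : ℤ_[p])).val = ζ ↔
      ζ ^ (PadicInt.toZModPow n ((u⁻¹ : ℤ_[p]ˣ) : ℤ_[p])).val = ζ ^ 1 := by rw [pow_one]
  rw [h5, pow_eq_pow_iff_cast hζ, ZMod.natCast_zmod_val, Nat.cast_one]

/-- `u p ^ k` acts trivially on the field of `(p ^ N - 1)`-th roots of unity (the unramified
extension of degree `N`) if and only if `N` divides `k`. -/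
theorem mem_artinKer_unr {N : ℕ} (hN : N ≠ 0) {ζ : PadicAlgCl p}
    (hζ : IsPrimitiveRoot ζ (p ^ N - 1)) {u : ℤ_[p]ˣ} {k : ℤ} :
    incl p u * unif p ^ k ∈ artinKer ℚ_[p]⟮ζ⟯ ↔ (N : ℤ) ∣ k := by
  have hN' : p ^ N - 1 ≠ 0 := Nat.sub_ne_zero_of_lt (Nat.one_lt_pow hN hp.out.one_lt)
  have : NeZero (p ^ N - 1) := ⟨hN'⟩
  obtain ⟨h1, h2⟩ := finite_abelian_adjoin hN' hζ
  obtain ⟨σ, hσ⟩ := QuotientGroup.mk'_surjective _ (artin p (incl p u * unif p ^ k))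
  obtain ⟨j, hj⟩ : ∃ j : ℕ, (j : ℤ) ≡ k [ZMOD N] := by
    refine ⟨(k % N).toNat, ?_⟩
    rw [Int.toNat_of_nonneg (Int.emod_nonneg k (by exact_mod_cast hN))]
    exact Int.mod_modEq k N
  rw [mem_artinKer_iff (σ := σ) hσ, forall_mem_adjoin_iff, artin_act_unr hσ hN hj hζ.pow_eq_one]
  have h5 : ζ ^ p ^ j = ζ ↔ ζ ^ p ^ j = ζ ^ 1 := by rw [pow_one]
  rw [h5, pow_eq_pow_iff_cast hζ, Nat.cast_one, Nat.cast_pow,
    KW.Loc.natCast_pow_eq_one_iff, ← Int.natCast_dvd_natCast]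
  exact (Int.ModEq.dvd_iff hj.symm).symm

end Fermat.Agent.Cor.LocCount
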