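import Mathlib

/-!
# The norm of an element of a subfield `F` of `L` and the action of `Gal(L/F)` on roots of unity

`L / F` Galois, `ζ ∈ L`, `ζ ^ m = 1`.

* `exists_aut_of_prime`: for a prime `𝔮` of `F` prime to `m` there is `φ ∈ Gal(L/F)` with
  `φ ζ = ζ ^ N𝔮` (Frobenius);
* `exists_inv_of_norm_neg`: if some element of `F` has a negative norm, then `φ ζ = ζ⁻¹` for some
  `φ ∈ Gal(L/F)` (complex conjugation);
* `exists_aut_of_norm`: if `η ∈ 𝓞 F`, `η ≠ 0` is prime to `m` outside of a prime `P₀ ∣ p`, then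
  `N η = p ^ k * c` with `c` prime to `m` and `φ ζ = ζ ^ c` for some `φ ∈ Gal(L/F)`.
-/

set_option autoImplicit false

namespace Fermat.Agent.Cor.LocCount

open NumberField

section Frob

variable {F L : Type*} [Field F] [NumberField F] [Field L] [NumberField L] [Algebra F L]

/-- The Frobenius automorphism on roots of unity. -/
theorem exists_aut_of_prime [IsGalois F L] {m : ℕ} {ζ : L} (hζ : ζ ^ m = 1) (𝔮 : Ideal (𝓞 F))
    [𝔮.IsPrime] (h0 : 𝔮 ≠ ⊥) (hm : (m : 𝓞 F) ∉ 𝔮) :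
    ∃ φ : L ≃ₐ[F] L, φ ζ = ζ ^ Ideal.absNorm 𝔮 := by
  have hmax : 𝔮.IsMaximal := Ideal.IsPrime.isMaximal inferInstance h0
  obtain ⟨Q, hQ, hover⟩ := Ideal.exists_maximal_ideal_liesOver_of_isIntegral (S := 𝓞 L) 𝔮
  have hQ0 : Q ≠ ⊥ := Ideal.ne_bot_of_liesOver_of_ne_bot h0 Q
  have hfin : Finite (𝓞 L ⧸ Q) := Ideal.finiteQuotientOfFreeOfNeBot Q hQ0
  obtain ⟨σ, hσ⟩ := IsArithFrobAt.exists_of_isInvariant (𝓞 F) (L ≃ₐ[F] L) Q
  have hm0 : m ≠ 0 := by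
    rintro rfl
    exact hm (by simp)
  have hint : IsIntegral ℤ ζ := IsIntegral.of_pow (Nat.pos_of_ne_zero hm0) (by
    rw [hζ]
    exact isIntegral_one)
  set z : 𝓞 L := ⟨ζ, hint⟩ with hz
  have hzm : z ^ m = 1 := by
    apply RingOfIntegers.coe_injective
    rw [map_pow, map_one]
    exact hζ
  have hmQ : ((m : ℕ) : 𝓞 L) ∉ Q := by
    intro h
    apply hm
    rw [hover.over, Ideal.under, Ideal.mem_comap, map_natCast]
    exact h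
  have h1 := AlgHom.IsArithFrobAt.apply_of_pow_eq_one hσ hzm hmQ
  refine ⟨σ, ?_⟩
  have h2 : Nat.card (𝓞 F ⧸ Q.under (𝓞 F)) = Ideal.absNorm 𝔮 := by
    rw [← hover.over]
    rfl
  rw [h2] at h1
  exact congrArg (algebraMap (𝓞 L) L) h1

theorem coprime_absNorm {m : ℕ} (𝔮 : Ideal (𝓞 F)) [𝔮.IsPrime] (h0 : 𝔮 ≠ ⊥)
    (hm : (m : 𝓞 F) ∉ 𝔮) : (Ideal.absNorm 𝔮).Coprime m := by
  by_contra hcon
  obtain ⟨ℓ, hℓ, h1, h2⟩ := Nat.Prime.not_coprime_iff_dvd.1 hcon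
  have hmax : 𝔮.IsMaximal := Ideal.IsPrime.isMaximal inferInstance h0
  have hfin : Finite (𝓞 F ⧸ 𝔮) := Ideal.finiteQuotientOfFreeOfNeBot 𝔮 h0
  have := Fintype.ofFinite (𝓞 F ⧸ 𝔮)
  let := Ideal.Quotient.field 𝔮
  obtain ⟨q, hq⟩ := CharP.exists (𝓞 F ⧸ 𝔮)
  obtain ⟨n, hqp, hn⟩ := FiniteField.card (𝓞 F ⧸ 𝔮) q
  have h3 : Ideal.absNorm 𝔮 = q ^ (n : ℕ) := by
    rw [← hn, ← Nat.card_eq_fintype_card]
    rfl
  rw [h3] at h1
  have h4 : ℓ = q := (Nat.prime_dvd_prime_iff_eq hℓ hqp).1 (hℓ.dvd_of_dvd_pow h1)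
  subst h4
  have h5 : ((ℓ : ℕ) : 𝓞 F) ∈ 𝔮 := by
    rw [← Ideal.Quotient.eq_zero_iff_mem, map_natCast]
    exact CharP.cast_eq_zero _ _
  obtain ⟨t, rfl⟩ := h2
  apply hm
  rw [Nat.cast_mul]
  exact Ideal.mul_mem_right _ _ h5

theorem exists_absNorm_eq {p : ℕ} (hp : p.Prime) (P₀ : Ideal (𝓞 F)) (hP₀ : (p : 𝓞 F) ∈ P₀) :
    ∃ f : ℕ, Ideal.absNorm P₀ = p ^ f := by
  have h1 : Ideal.absNorm P₀ ∣ Ideal.absNorm (Ideal.span {(p : 𝓞 F)}) :=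
    Ideal.absNorm_dvd_absNorm_of_le ((Ideal.span_singleton_le_iff_mem _).2 hP₀)
  have h2 : Ideal.absNorm (Ideal.span {(p : 𝓞 F)}) = p ^ Module.finrank ℤ (𝓞 F) := by
    have h3 : (p : 𝓞 F) = algebraMap ℤ (𝓞 F) p := by simp
    rw [h3, Ideal.absNorm_span_singleton, Algebra.norm_algebraMap, Int.natAbs_pow,
      Int.natAbs_natCast]
  rw [h2] at h1
  obtain ⟨f, -, hf⟩ := (Nat.dvd_prime_pow hp).1 h1
  exact ⟨f, hf⟩

theorem exists_of_ideal [IsGalois F L] {m : ℕ} {ζ : L} (hζ : ζ ^ m = 1) {p : ℕ} (hp : p.Prime)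
    (P₀ : Ideal (𝓞 F)) (hP₀ : (p : 𝓞 F) ∈ P₀) (I : Ideal (𝓞 F)) : I ≠ ⊥ →
    (∀ Q : Ideal (𝓞 F), Q.IsPrime → (m : 𝓞 F) ∈ Q → I ≤ Q → Q = P₀) →
    ∃ (k c : ℕ) (φ : L ≃ₐ[F] L), Ideal.absNorm I = p ^ k * c ∧ c.Coprime m ∧ φ ζ = ζ ^ c := by
  induction I using UniqueFactorizationMonoid.induction_on_prime with
  | h₁ => exact fun h => absurd rfl h
  | h₂ I hI =>
    intro _ _
    refine ⟨0, 1, 1, ?_, Nat.coprime_one_left m, ?_⟩
    · rw [Ideal.isUnit_iff.1 hI, Ideal.absNorm_top, pow_zero, one_mul]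
    · rw [pow_one]
      rfl
  | h₃ I 𝔮 hI0 h𝔮 ih =>
    intro _ h
    obtain ⟨k, c, φ, h1, h2, h3⟩ := ih hI0 fun Q hQ hmQ hIQ => h Q hQ hmQ
      (Ideal.mul_le_right.trans hIQ)
    have h𝔮p : 𝔮.IsPrime := Ideal.isPrime_of_prime h𝔮
    have h𝔮0 : 𝔮 ≠ ⊥ := h𝔮.ne_zero
    by_cases hm : (m : 𝓞 F) ∈ 𝔮
    · have h4 := h 𝔮 h𝔮p hm Ideal.mul_le_left
      subst h4
      obtain ⟨f, hf⟩ := exists_absNorm_eq hp 𝔮 hP₀
      exact ⟨f + k, c, φ, by rw [map_mul, hf, h1, pow_add, mul_assoc], h2, h3⟩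
    · obtain ⟨ψ, hψ⟩ := exists_aut_of_prime hζ 𝔮 h𝔮0 hm
      refine ⟨k, Ideal.absNorm 𝔮 * c, ψ * φ, ?_,
        Nat.Coprime.mul_left (coprime_absNorm 𝔮 h𝔮0 hm) h2, ?_⟩
      · rw [map_mul, h1]
        ring
      · rw [AlgEquiv.mul_apply, h3, map_pow, hψ, ← pow_mul]

end Frob

section Real

variable {F L : Type*} [Field F] [NumberField F] [Field L] [NumberField L] [Algebra F L]

open ComplexEmbedding in
/-- A number field with an element of negative norm has a real embedding. -/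
theorem exists_isReal {x : F} (hx : Algebra.norm ℚ x < 0) :
    ∃ σ : F →+* ℂ, ∀ y, (starRingEnd ℂ) (σ y) = σ y := by
  classical
  by_contra hcon
  push Not at hcon
  have hx0 : x ≠ 0 := by
    rintro rfl
    rw [Algebra.norm_zero] at hx
    exact lt_irrefl _ hx
  have h1 := Algebra.norm_eq_prod_embeddings ℚ ℂ x
  set f : (F →ₐ[ℚ] ℂ) → ℂ := fun σ => σ x / ‖σ x‖ with hf
  let g : (F →ₐ[ℚ] ℂ) → (F →ₐ[ℚ] ℂ) := fun σ =>
    RingHom.toRatAlgHom ((starRingEnd ℂ).comp (σ : F →+* ℂ))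
  have hg : ∀ σ y, g σ y = (starRingEnd ℂ) (σ y) := fun σ y => rfl
  have hne : ∀ σ : F →ₐ[ℚ] ℂ, (‖σ x‖ : ℂ) ≠ 0 := by
    intro σ
    rw [Ne, Complex.ofReal_eq_zero, norm_eq_zero, map_eq_zero]
    exact hx0
  have h2 : ∏ σ : F →ₐ[ℚ] ℂ, f σ = 1 := by
    refine Finset.prod_involution (fun σ _ => g σ) (fun σ _ => ?_) (fun σ _ _ h => ?_)
      (fun _ _ => Finset.mem_univ _) (fun σ _ => ?_)
    · change σ x / ‖σ x‖ * (g σ x / ‖g σ x‖) = 1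
      rw [hg, RCLike.norm_conj, div_mul_div_comm, Complex.mul_conj, Complex.normSq_eq_norm_sq]
      rw [Complex.ofReal_pow, ← pow_two]
      exact div_self (pow_ne_zero 2 (hne σ))
    · obtain ⟨y, hy⟩ := hcon (σ : F →+* ℂ)
      exact hy (DFunLike.congr_fun h y)
    · ext y
      change (starRingEnd ℂ) ((starRingEnd ℂ) (σ y)) = σ y
      exact Complex.conj_conj _
  have h3 : ∏ σ : F →ₐ[ℚ] ℂ, σ x = ((∏ σ : F →ₐ[ℚ] ℂ, ‖σ x‖ : ℝ) : ℂ) := by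
    rw [hf, Finset.prod_div_distrib, div_eq_one_iff_eq] at h2
    · rw [h2, Complex.ofReal_prod]
    · exact Finset.prod_ne_zero_iff.2 fun σ _ => hne σ
  rw [h3] at h1
  have h4 : ((Algebra.norm ℚ x : ℚ) : ℝ) = ∏ σ : F →ₐ[ℚ] ℂ, ‖σ x‖ := by
    have h5 : (((Algebra.norm ℚ x : ℚ) : ℝ) : ℂ) = ((∏ σ : F →ₐ[ℚ] ℂ, ‖σ x‖ : ℝ) : ℂ) := by
      rw [← h1]
      simp
    exact_mod_cast h5
  have h6 : (0 : ℝ) ≤ ((Algebra.norm ℚ x : ℚ) : ℝ) := by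
    rw [h4]
    exact Finset.prod_nonneg fun _ _ => norm_nonneg _
  have h7 : (0 : ℚ) ≤ Algebra.norm ℚ x := by exact_mod_cast h6
  exact not_lt.2 h7 hx

/-- Complex conjugation on roots of unity. -/
theorem exists_inv_of_norm_neg [IsGalois F L] {m : ℕ} (hm : m ≠ 0) {ζ : L} (hζ : ζ ^ m = 1) {x : F}
    (hx : Algebra.norm ℚ x < 0) : ∃ φ : L ≃ₐ[F] L, φ ζ = ζ⁻¹ := by
  obtain ⟨σ, hσ⟩ := exists_isReal hx
  let := σ.toAlgebra
  let τ : L →ₐ[F] ℂ := IsAlgClosed.lift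
  let τ' : L →ₐ[F] ℂ :=
    { ((starRingEnd ℂ).comp (τ : L →+* ℂ)) with
      commutes' := fun y => by
        change (starRingEnd ℂ) (τ (algebraMap F L y)) = _
        rw [τ.commutes]
        exact hσ y }
  let : Algebra L ℂ := (τ : L →+* ℂ).toAlgebra
  have : IsScalarTower F L ℂ := IsScalarTower.of_algebraMap_eq fun y => (τ.commutes y).symm
  have h1 := τ'.restrictNormal_commutes L ζ
  refine ⟨AlgEquiv.ofBijective (τ'.restrictNormal L) (AlgHom.bijective _), ?_⟩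
  change τ'.restrictNormal L ζ = ζ⁻¹
  apply (τ : L →+* ℂ).injective
  change τ (τ'.restrictNormal L ζ) = (starRingEnd ℂ) (τ ζ) at h1
  change τ (τ'.restrictNormal L ζ) = τ ζ⁻¹
  have h2 : ‖τ ζ‖ = 1 := Complex.norm_eq_one_of_pow_eq_one (by rw [← map_pow, hζ, map_one]) hm
  rw [h1, map_inv₀, Complex.inv_def, Complex.normSq_eq_norm_sq, h2]
  simp

/-- **The norm and the action on roots of unity.** -/
theorem exists_aut_of_norm [IsGalois F L] {m : ℕ} (hm : m ≠ 0) {ζ : L} (hζ : ζ ^ m = 1) {p : ℕ}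
    (hp : p.Prime) (P₀ : Ideal (𝓞 F)) (hP₀ : (p : 𝓞 F) ∈ P₀) {η : 𝓞 F} (hη : η ≠ 0)
    (h : ∀ Q : Ideal (𝓞 F), Q.IsPrime → (m : 𝓞 F) ∈ Q → η ∈ Q → Q = P₀) :
    ∃ (k : ℕ) (c : ℤ) (φ : L ≃ₐ[F] L), Algebra.norm ℤ η = p ^ k * c ∧ IsCoprime c (m : ℤ) ∧
      φ ζ = ζ ^ c := by
  obtain ⟨k, c, φ, h1, h2, h3⟩ := exists_of_ideal (L := L) hζ hp P₀ hP₀ (Ideal.span {η})
    (by rwa [Ne, Ideal.span_singleton_eq_bot])
    fun Q hQ hmQ hle => h Q hQ hmQ (hle (Ideal.mem_span_singleton_self η))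
  rw [Ideal.absNorm_span_singleton] at h1
  have h4 : IsCoprime (c : ℤ) (m : ℤ) := Nat.isCoprime_iff_coprime.2 h2
  rcases le_or_gt 0 (Algebra.norm ℤ η) with h5 | h5
  · refine ⟨k, c, φ, ?_, h4, by rw [zpow_natCast, h3]⟩
    have h6 : ((Algebra.norm ℤ η).natAbs : ℤ) = Algebra.norm ℤ η := Int.natAbs_of_nonneg h5
    rw [← h6, h1]
    push_cast
    ring
  · have h6 : Algebra.norm ℚ (η : F) < 0 := by
      rw [← Algebra.coe_norm_int]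
      exact_mod_cast h5
    obtain ⟨ψ, hψ⟩ := exists_inv_of_norm_neg hm hζ h6
    refine ⟨k, -c, ψ * φ, ?_, h4.neg_left, ?_⟩
    · have h7 : ((Algebra.norm ℤ η).natAbs : ℤ) = -Algebra.norm ℤ η :=
        Int.ofNat_natAbs_of_nonpos h5.le
      rw [h1] at h7
      push_cast at h7
      linear_combination h7
    · rw [AlgEquiv.mul_apply, h3, map_pow, hψ, zpow_neg, zpow_natCast, inv_pow]

end Real

end Fermat.Agent.Cor.LocCount
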