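import Mathlib

/-!
# Separation of the places of a number field above `p`

Let `F` be a number field inside `PadicAlgCl p`. If an embedding `φ : F → PadicAlgCl p` is not the
restriction of an automorphism of `PadicAlgCl p` over `ℚ_[p]`, then there are integers `a` of `F` with
`‖a‖ < 1` and `‖φ a‖ = 1`, and conversely.
-/

set_option autoImplicit false

noncomputable section

namespace Fermat.Agent.Cor.LocCount

namespace SepAux

/-! ### Equal primes give equal absolute values -/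

section Dedekind

variable {R K Ω : Type*} [CommRing R] [IsDedekindDomain R] [Field K] [Algebra R K]
  [IsFractionRing R K] [NormedField Ω] [IsUltrametricDist Ω]

/-- The prime ideal of an absolute value. -/
def primeOf (i : K →+* Ω) (h : ∀ a : R, ‖i (algebraMap R K a)‖ ≤ 1) : Ideal R where
  carrier := {a | ‖i (algebraMap R K a)‖ < 1}
  add_mem' {a b} ha hb := by
    rw [Set.mem_ofPred_eq, map_add, map_add]
    exact lt_of_le_of_lt (IsUltrametricDist.norm_add_le_max _ _) (max_lt ha hb)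
  zero_mem' := by
    rw [Set.mem_ofPred_eq, map_zero, map_zero, norm_zero]
    exact one_pos
  smul_mem' c a ha := by
    rw [smul_eq_mul, Set.mem_ofPred_eq, map_mul, map_mul, norm_mul]
    exact lt_of_le_of_lt (mul_le_of_le_one_left (norm_nonneg _) (h c)) ha

omit [IsDedekindDomain R] [IsFractionRing R K] in
lemma mem_primeOf {i : K →+* Ω} {h : ∀ a : R, ‖i (algebraMap R K a)‖ ≤ 1} {a : R} :
    a ∈ primeOf i h ↔ ‖i (algebraMap R K a)‖ < 1 := Iff.rfl

omit [IsDedekindDomain R] [IsFractionRing R K] in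
lemma norm_eq_one_iff {i : K →+* Ω} {h : ∀ a : R, ‖i (algebraMap R K a)‖ ≤ 1} {a : R} :
    ‖i (algebraMap R K a)‖ = 1 ↔ a ∉ primeOf i h := by
  rw [mem_primeOf, not_lt]
  exact ⟨fun h1 => h1.ge, fun h1 => le_antisymm (h a) h1⟩

omit [IsDedekindDomain R] [IsFractionRing R K] in
lemma isPrime_primeOf (i : K →+* Ω) (h : ∀ a : R, ‖i (algebraMap R K a)‖ ≤ 1) :
    (primeOf i h).IsPrime := by
  refine ⟨fun h1 => ?_, fun {a b} hab => ?_⟩
  · have h2 : (1 : R) ∈ primeOf i h := by rw [h1]; exact Submodule.mem_top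
    rw [mem_primeOf, map_one, map_one, norm_one] at h2
    exact lt_irrefl _ h2
  · by_contra h1
    rw [not_or, ← norm_eq_one_iff, ← norm_eq_one_iff] at h1
    rw [mem_primeOf, map_mul, map_mul, norm_mul, h1.1, h1.2, mul_one] at hab
    exact lt_irrefl _ hab

omit [IsFractionRing R K] [IsUltrametricDist Ω] in
/-- The absolute values of the elements of `R` are powers. -/
lemma exists_pow {P : Ideal R} [hP : P.IsPrime] (hP0 : P ≠ ⊥) : ∃ w : R, ∀ a : R, a ≠ 0 → ∃ n : ℕ,
    ∀ (i : K →+* Ω), (∀ a : R, a ∉ P → ‖i (algebraMap R K a)‖ = 1) →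
      ‖i (algebraMap R K a)‖ = ‖i (algebraMap R K w)‖ ^ n := by
  have hdvr : IsDiscreteValuationRing (Localization.AtPrime P) :=
    IsLocalization.AtPrime.isDiscreteValuationRing_of_dedekind_domain R hP0 _
  obtain ⟨ϖ, hϖ⟩ := IsDiscreteValuationRing.exists_irreducible (Localization.AtPrime P)
  obtain ⟨w, s, hws⟩ := IsLocalization.exists_mk'_eq P.primeCompl ϖ
  have hinj : Function.Injective (algebraMap R (Localization.AtPrime P)) :=
    IsLocalization.injective _ (Ideal.primeCompl_le_nonZeroDivisors P)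
  refine ⟨w, fun a ha => ?_⟩
  have ha' : algebraMap R (Localization.AtPrime P) a ≠ 0 := fun h => ha (hinj (by rw [h, map_zero]))
  obtain ⟨n, u, hu⟩ := IsDiscreteValuationRing.associated_pow_irreducible ha' hϖ
  obtain ⟨c, d, hcd⟩ := IsLocalization.exists_mk'_eq P.primeCompl (u : Localization.AtPrime P)
  have hc : c ∉ P := by
    have h1 : IsUnit (IsLocalization.mk' (Localization.AtPrime P) c d) := by
      rw [hcd]
      exact u.isUnit
    exact (IsLocalization.AtPrime.isUnit_mk'_iff _ P c d).mp h1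
  have h1 : (u : Localization.AtPrime P) * algebraMap R _ (d : R) = algebraMap R _ c := by
    rw [← hcd]
    exact IsLocalization.mk'_spec _ c d
  have h2 : ϖ * algebraMap R _ (s : R) = algebraMap R _ w := by
    rw [← hws]
    exact IsLocalization.mk'_spec _ w s
  have h3 : a * c * (s : R) ^ n = w ^ n * d := by
    apply hinj
    rw [map_mul, map_mul, map_mul, map_pow, map_pow, ← h1, ← h2, mul_pow, ← hu]
    ring
  refine ⟨n, fun i hi => ?_⟩
  have h4 := congrArg (fun x => ‖i (algebraMap R K x)‖) h3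
  simp only [map_mul, map_pow, norm_mul, norm_pow] at h4
  rw [hi c hc, hi s s.2, hi d d.2, one_pow, mul_one, mul_one, mul_one] at h4
  exact h4

theorem norm_eq_of_primeOf_eq {i j : K →+* Ω} {hi : ∀ a : R, ‖i (algebraMap R K a)‖ ≤ 1}
    {hj : ∀ a : R, ‖j (algebraMap R K a)‖ ≤ 1} (h : primeOf i hi = primeOf j hj) {q : R}
    (hq0 : q ≠ 0) (hq : ‖i (algebraMap R K q)‖ = ‖j (algebraMap R K q)‖)
    (hq1 : ‖i (algebraMap R K q)‖ < 1) (x : K) : ‖i x‖ = ‖j x‖ := by
  have hP := isPrime_primeOf i hi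
  have hP0 : primeOf i hi ≠ ⊥ := fun h1 => hq0 (by
    have h2 : q ∈ primeOf i hi := hq1
    rw [h1] at h2
    exact h2)
  obtain ⟨w, hw⟩ := exists_pow (K := K) (Ω := Ω) hP0
  have hi' : ∀ a : R, a ∉ primeOf i hi → ‖i (algebraMap R K a)‖ = 1 := fun a ha =>
    norm_eq_one_iff.mpr ha
  have hj' : ∀ a : R, a ∉ primeOf i hi → ‖j (algebraMap R K a)‖ = 1 := fun a ha => by
    rw [h] at ha
    exact norm_eq_one_iff.mpr ha
  have hww : ‖i (algebraMap R K w)‖ = ‖j (algebraMap R K w)‖ := by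
    obtain ⟨n, hn⟩ := hw q hq0
    have h1 := hn i hi'
    have h2 := hn j hj'
    have hn0 : n ≠ 0 := by
      rintro rfl
      rw [h1, pow_zero] at hq1
      exact lt_irrefl _ hq1
    exact (pow_left_inj₀ (norm_nonneg _) (norm_nonneg _) hn0).mp (by rw [← h1, ← h2, hq])
  have hR : ∀ a : R, ‖i (algebraMap R K a)‖ = ‖j (algebraMap R K a)‖ := by
    intro a
    by_cases ha : a = 0
    · rw [ha, map_zero, map_zero, map_zero]
    · obtain ⟨n, hn⟩ := hw a ha
      rw [hn i hi', hn j hj', hww]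
  obtain ⟨a, b, -, rfl⟩ := IsFractionRing.div_surjective (A := R) x
  rw [map_div₀, map_div₀, norm_div, norm_div, hR, hR]

end Dedekind

/-! ### Embeddings with the same absolute value -/

variable {p : ℕ} [hp : Fact p.Prime]

/-- The relation between the norms extends from rational to `p`-adic coefficients. -/
lemma norm_sum_eq {x y : PadicAlgCl p} (n : ℕ)
    (h : ∀ c : ℕ → ℚ, ‖∑ i ∈ Finset.range n, (c i : PadicAlgCl p) * x ^ i‖ =
      ‖∑ i ∈ Finset.range n, (c i : PadicAlgCl p) * y ^ i‖) (c : ℕ → ℚ_[p]) :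
    ‖∑ i ∈ Finset.range n, algebraMap ℚ_[p] (PadicAlgCl p) (c i) * x ^ i‖ =
      ‖∑ i ∈ Finset.range n, algebraMap ℚ_[p] (PadicAlgCl p) (c i) * y ^ i‖ := by
  have hc : Continuous (algebraMap ℚ_[p] (PadicAlgCl p)) := by
    refine (AddMonoidHomClass.isometry_of_norm _ fun z => ?_).continuous
    exact PadicAlgCl.norm_extends p z
  have hd : Dense (Set.pi Set.univ fun _ : ℕ => Set.range ((↑) : ℚ → ℚ_[p])) := by
    refine dense_pi _ fun i _ => ?_
    exact Padic.denseRange_ratCast p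
  have hclosed : IsClosed {c : ℕ → ℚ_[p] |
      ‖∑ i ∈ Finset.range n, algebraMap ℚ_[p] (PadicAlgCl p) (c i) * x ^ i‖ =
        ‖∑ i ∈ Finset.range n, algebraMap ℚ_[p] (PadicAlgCl p) (c i) * y ^ i‖} := by
    refine isClosed_eq ?_ ?_
    · exact (continuous_finsetSum _ fun i _ =>
        (hc.comp (continuous_apply i)).mul continuous_const).norm
    · exact (continuous_finsetSum _ fun i _ =>
        (hc.comp (continuous_apply i)).mul continuous_const).norm
  have hsub : (Set.pi Set.univ fun _ : ℕ => Set.range ((↑) : ℚ → ℚ_[p])) ⊆ {c : ℕ → ℚ_[p] |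
      ‖∑ i ∈ Finset.range n, algebraMap ℚ_[p] (PadicAlgCl p) (c i) * x ^ i‖ =
        ‖∑ i ∈ Finset.range n, algebraMap ℚ_[p] (PadicAlgCl p) (c i) * y ^ i‖} := by
    intro c hc
    have h1 : ∀ i, ∃ q : ℚ, (q : ℚ_[p]) = c i := fun i => hc i (Set.mem_univ i)
    choose q hq using h1
    rw [Set.mem_ofPred_eq]
    have h2 := h q
    have h3 : ∀ i, algebraMap ℚ_[p] (PadicAlgCl p) (c i) = (q i : PadicAlgCl p) := fun i => by
      rw [← hq, map_ratCast]
    simp only [h3]
    exact h2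
  exact hclosed.closure_subset_iff.mpr hsub (hd c)

theorem exists_algEquiv_of_norm_eq (F : IntermediateField ℚ (PadicAlgCl p))
    [FiniteDimensional ℚ F] (φ : F →+* PadicAlgCl p) (h : ∀ x : F, ‖φ x‖ = ‖(x : PadicAlgCl p)‖) :
    ∃ g : PadicAlgCl p ≃ₐ[ℚ_[p]] PadicAlgCl p, ∀ x : F, φ x = g x := by
  let pb := Field.powerBasisOfFiniteOfSeparable ℚ F
  have hcoe : ∀ q : ℚ, ((q : F) : PadicAlgCl p) = (q : PadicAlgCl p) := fun q =>
    map_ratCast (algebraMap F (PadicAlgCl p)) q
  have hφ : ∀ q : ℚ, φ (q : F) = (q : PadicAlgCl p) := fun q => map_ratCast φ q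
  have h1 : ∀ c : ℕ → ℚ_[p], ∀ n : ℕ,
      ‖∑ i ∈ Finset.range n, algebraMap ℚ_[p] (PadicAlgCl p) (c i) * (φ pb.gen) ^ i‖ =
        ‖∑ i ∈ Finset.range n, algebraMap ℚ_[p] (PadicAlgCl p) (c i) *
          (pb.gen : PadicAlgCl p) ^ i‖ := by
    intro c n
    refine norm_sum_eq n (fun q => ?_) c
    have h2 := h (∑ i ∈ Finset.range n, (q i : F) * pb.gen ^ i)
    have h3 : φ (∑ i ∈ Finset.range n, (q i : F) * pb.gen ^ i) =
        ∑ i ∈ Finset.range n, (q i : PadicAlgCl p) * (φ pb.gen) ^ i := by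
      rw [map_sum]
      exact Finset.sum_congr rfl fun i _ => by rw [map_mul, map_pow, hφ]
    have h4 : ((∑ i ∈ Finset.range n, (q i : F) * pb.gen ^ i : F) : PadicAlgCl p) =
        ∑ i ∈ Finset.range n, (q i : PadicAlgCl p) * (pb.gen : PadicAlgCl p) ^ i := by
      show algebraMap F (PadicAlgCl p) _ = _
      rw [map_sum]
      exact Finset.sum_congr rfl fun i _ => by rw [map_mul, map_pow, map_ratCast]; rfl
    rw [h3, h4] at h2
    exact h2
  have hint : IsIntegral ℚ_[p] (pb.gen : PadicAlgCl p) := Algebra.IsIntegral.isIntegral _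
  have h5 : Polynomial.aeval (φ pb.gen) (minpoly ℚ_[p] (pb.gen : PadicAlgCl p)) = 0 := by
    have h6 := h1 (fun i => (minpoly ℚ_[p] (pb.gen : PadicAlgCl p)).coeff i)
      ((minpoly ℚ_[p] (pb.gen : PadicAlgCl p)).natDegree + 1)
    have h7 : ∀ z : PadicAlgCl p, ∑ i ∈ Finset.range
        ((minpoly ℚ_[p] (pb.gen : PadicAlgCl p)).natDegree + 1),
          algebraMap ℚ_[p] (PadicAlgCl p)
            ((minpoly ℚ_[p] (pb.gen : PadicAlgCl p)).coeff i) * z ^ i =
        Polynomial.aeval z (minpoly ℚ_[p] (pb.gen : PadicAlgCl p)) := fun z => by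
      rw [Polynomial.aeval_eq_sum_range]
      exact Finset.sum_congr rfl fun i _ => by rw [Algebra.smul_def]
    rw [h7, h7, minpoly.aeval, norm_zero, norm_eq_zero] at h6
    exact h6
  obtain ⟨g, hg⟩ := (isConjRoot_of_aeval_eq_zero hint h5).symm.exists_algEquiv
  refine ⟨g, fun x => ?_⟩
  have h8 : (φ.toRatAlgHom : F →ₐ[ℚ] PadicAlgCl p) =
      ((g : PadicAlgCl p →+* PadicAlgCl p).comp (algebraMap F (PadicAlgCl p))).toRatAlgHom :=
    pb.algHom_ext hg.symm
  exact DFunLike.congr_fun h8 x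

/-! ### Separation -/

omit hp in
lemma norm_le_one_of_isIntegral {Ω : Type*} [NormedField Ω] [IsUltrametricDist Ω] {x : Ω}
    (hx : IsIntegral ℤ x) : ‖x‖ ≤ 1 := by
  have h1 := (Valuation.integer.integers (NormedField.valuation (K := Ω))).mem_of_integral
    (hx.tower_top (A := (NormedField.valuation (K := Ω)).integer))
  exact h1

end SepAux

open SepAux NumberField in
/-- **Separation**: if the embedding `φ` of the number field `F ≤ PadicAlgCl p` is not the restriction
of an automorphism over `ℚ_p`, then there are integers of `F` which lie in one and only one of the two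
prime ideals above `p` defined by the inclusion and by `φ`. -/
theorem exists_sep {p : ℕ} [hp : Fact p.Prime] (F : IntermediateField ℚ (PadicAlgCl p))
    [FiniteDimensional ℚ F] (φ : F →+* PadicAlgCl p)
    (hφ : ¬ ∃ g : PadicAlgCl p ≃ₐ[ℚ_[p]] PadicAlgCl p, ∀ x : F, φ x = g x) :
    (∃ a : F, IsIntegral ℤ a ∧ ‖(a : PadicAlgCl p)‖ < 1 ∧ ‖φ a‖ = 1) ∧
      ∃ a : F, IsIntegral ℤ a ∧ ‖(a : PadicAlgCl p)‖ = 1 ∧ ‖φ a‖ < 1 := by
  have : NumberField F := ⟨⟩
  let i : F →+* PadicAlgCl p := algebraMap F (PadicAlgCl p)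
  have hint : ∀ (j : F →+* PadicAlgCl p) (a : 𝓞 F), ‖j (algebraMap (𝓞 F) F a)‖ ≤ 1 := by
    intro j a
    refine norm_le_one_of_isIntegral ?_
    exact (RingOfIntegers.isIntegral_coe a).map j.toIntAlgHom
  have hp1 : ∀ j : F →+* PadicAlgCl p, ‖j (algebraMap (𝓞 F) F (p : 𝓞 F))‖ = (p : ℝ)⁻¹ := by
    intro j
    rw [map_natCast, map_natCast, ← map_natCast (algebraMap ℚ_[p] (PadicAlgCl p)) p,
      PadicAlgCl.norm_extends, Padic.norm_p]
  have hp2 : (p : ℝ)⁻¹ < 1 := inv_lt_one_of_one_lt₀ (by exact_mod_cast hp.out.one_lt)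
  have hp0 : (p : 𝓞 F) ≠ 0 := by exact_mod_cast hp.out.ne_zero
  have hmax : ∀ j : F →+* PadicAlgCl p, (primeOf (R := 𝓞 F) j (hint j)).IsMaximal := by
    intro j
    refine (isPrime_primeOf j (hint j)).isMaximal fun h => hp0 ?_
    have h1 : (p : 𝓞 F) ∈ primeOf (R := 𝓞 F) j (hint j) := by
      rw [mem_primeOf, hp1]
      exact hp2
    rw [h] at h1
    exact h1
  have hne : primeOf (R := 𝓞 F) i (hint i) ≠ primeOf (R := 𝓞 F) φ (hint φ) := by
    intro h
    refine hφ (exists_algEquiv_of_norm_eq F φ fun x => ?_)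
    exact (norm_eq_of_primeOf_eq h hp0 (by rw [hp1, hp1]) (by rw [hp1]; exact hp2) x).symm
  constructor
  · by_contra h
    refine hne ((hmax i).eq_of_le (hmax φ).ne_top fun a ha => ?_)
    rw [mem_primeOf]
    by_contra h1
    exact h ⟨a, RingOfIntegers.isIntegral_coe a, ha, le_antisymm (hint φ a) (not_lt.mp h1)⟩
  · by_contra h
    refine hne ((hmax φ).eq_of_le (hmax i).ne_top fun a ha => ?_).symm
    rw [mem_primeOf]
    by_contra h1
    exact h ⟨a, RingOfIntegers.isIntegral_coe a, le_antisymm (hint i a) (not_lt.mp h1), ha⟩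

end Fermat.Agent.Cor.LocCount
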