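import Fermat.Agent.Corollaries.LocCount.NormMem
import Fermat.Agent.Corollaries.LocCount.NormGlob
import Fermat.Agent.Corollaries.LocCount.Sep

/-!
# The action of a norm on the roots of unity
-/

set_option autoImplicit false

noncomputable section

namespace Fermat.Agent.Cor.LocCount

open Module IntermediateField NumberField

attribute [local instance] fact_prime_sub

variable {p : ℕ} [hp : Fact p.Prime]

lemma zpow_eq_self_of {G : Type*} [Group G] {α : G} {m : ℕ} (h : α ^ m = 1) {a : ℤ}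
    (ha : (a : ZMod m) = 1) : α ^ a = α := by
  have h1 : (m : ℤ) ∣ a - 1 := by
    rw [← ZMod.intCast_zmod_eq_zero_iff_dvd]
    rw [Int.cast_sub, ha, Int.cast_one, sub_self]
  obtain ⟨t, ht⟩ := h1
  have h2 : a = m * t + 1 := by rw [← ht]; ring
  rw [h2, zpow_add, zpow_mul, zpow_natCast, h, one_zpow, one_mul, zpow_one]

lemma near_one {x : ℚ_[p]ˣ} {n : ℕ} (hn : n ≠ 0) (h : ‖(x : ℚ_[p]) - 1‖ ≤ (p : ℝ) ^ (-n : ℤ)) :
    ∃ w : ℤ_[p]ˣ, x = incl p w ∧ PadicInt.toZModPow n (w : ℤ_[p]) = 1 := by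
  have hp1 : (1 : ℝ) < p := by exact_mod_cast hp.out.one_lt
  obtain ⟨w, k, rfl⟩ := exists_jay x
  have h1 : ‖((incl p w * unif p ^ k : ℚ_[p]ˣ) : ℚ_[p]) - 1‖ < 1 := by
    refine h.trans_lt ?_
    rw [zpow_neg, zpow_natCast]
    exact inv_lt_one_of_one_lt₀ (one_lt_pow₀ hp1 hn)
  have h2 : ‖((incl p w * unif p ^ k : ℚ_[p]ˣ) : ℚ_[p])‖ = 1 := by
    have h3 : ((incl p w * unif p ^ k : ℚ_[p]ˣ) : ℚ_[p]) =
        (((incl p w * unif p ^ k : ℚ_[p]ˣ) : ℚ_[p]) - 1) + 1 := by ring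
    rw [h3, IsUltrametricDist.norm_add_eq_max_of_norm_ne_norm (by rw [norm_one]; exact h1.ne),
      norm_one]
    exact max_eq_right h1.le
  have h4 : k = 0 := by
    rw [Units.val_mul, norm_mul, norm_incl, norm_unif_zpow, one_mul] at h2
    have := (zpow_eq_one_iff_right₀ (by linarith) hp1.ne').mp h2
    omega
  subst h4
  rw [zpow_zero, mul_one] at h ⊢
  refine ⟨w, rfl, ?_⟩
  have h5 : ‖(w : ℤ_[p]) - 1‖ ≤ (p : ℝ) ^ (-n : ℤ) := by
    rw [PadicInt.norm_def, PadicInt.coe_sub, PadicInt.coe_one]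
    exact h
  rw [PadicInt.norm_le_pow_iff_mem_span_pow, ← PadicInt.ker_toZModPow, RingHom.mem_ker, map_sub,
    map_one, sub_eq_zero] at h5
  exact h5

/-- The action of `artin p (u p ^ k)` on roots of unity. -/
theorem act_zpow {u : ℤ_[p]ˣ} {k : ℤ} {σ : Gal(PadicAlgCl p/ℚ_[p])}
    (h : QuotientGroup.mk σ = artin p (incl p u * unif p ^ k)) {n N j : ℕ} (hN : N ≠ 0)
    (hj : (j : ℤ) ≡ k [ZMOD N]) {c : ℤ}
    (hc : (c : ZMod (p ^ n)) = PadicInt.toZModPow n (u : ℤ_[p]))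
    (hc' : ((c * p ^ j : ℤ) : ZMod (p ^ N - 1)) = 1) {ζ : PadicAlgCl p}
    (hζ : ζ ^ (p ^ n * (p ^ N - 1)) = 1) : (σ ζ) ^ c = ζ := by
  have hm0 : p ^ n * (p ^ N - 1) ≠ 0 := mul_ne_zero (pow_ne_zero _ hp.out.ne_zero)
    (Nat.sub_ne_zero_of_lt (Nat.one_lt_pow hN hp.out.one_lt))
  have hζ0 : ζ ≠ 0 := by
    rintro rfl
    rw [zero_pow hm0] at hζ
    exact zero_ne_one hζ
  -- the part of order `p ^ n`
  have h1 : ∀ α : (PadicAlgCl p)ˣ, α ^ p ^ n = 1 → (σ (α : PadicAlgCl p)) ^ c = α := by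
    intro α hα
    have hα' : (α : PadicAlgCl p) ^ p ^ n = 1 := by
      rw [← Units.val_pow_eq_pow_val, hα, Units.val_one]
    rw [artin_act_ppow h n hα', ← Units.val_pow_eq_pow_val, ← Units.val_zpow_eq_zpow_val,
      ← zpow_natCast, ← zpow_mul]
    congr 1
    refine zpow_eq_self_of hα ?_
    have : NeZero (p ^ n) := ⟨pow_ne_zero _ hp.out.ne_zero⟩
    rw [Int.cast_mul, hc, Int.cast_natCast, ZMod.natCast_zmod_val, ← map_mul, ← Units.val_mul,
      inv_mul_cancel, Units.val_one, map_one]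
  have h2 : ∀ β : (PadicAlgCl p)ˣ, β ^ (p ^ N - 1) = 1 → (σ (β : PadicAlgCl p)) ^ c = β := by
    intro β hβ
    have hβ' : (β : PadicAlgCl p) ^ (p ^ N - 1) = 1 := by
      rw [← Units.val_pow_eq_pow_val, hβ, Units.val_one]
    rw [artin_act_unr h hN hj hβ', ← Units.val_pow_eq_pow_val, ← Units.val_zpow_eq_zpow_val,
      ← zpow_natCast, ← zpow_mul]
    congr 1
    refine zpow_eq_self_of hβ ?_
    rw [← hc']
    push_cast
    ring
  obtain ⟨z, rfl⟩ : ∃ z : (PadicAlgCl p)ˣ, (z : PadicAlgCl p) = ζ := ⟨Units.mk0 ζ hζ0, rfl⟩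
  have hz : z ^ (p ^ n * (p ^ N - 1)) = 1 := by
    apply Units.ext
    rw [Units.val_pow_eq_pow_val, hζ, Units.val_one]
  -- the quotient
  let s : (PadicAlgCl p)ˣ := Units.map (σ : PadicAlgCl p →* PadicAlgCl p) z
  have hs : (s : PadicAlgCl p) = σ z := rfl
  have h3 : (s ^ c * z⁻¹) ^ p ^ n = 1 := by
    have h4 := h2 (z ^ p ^ n) (by rw [← pow_mul, hz])
    have h5 : (s ^ c) ^ p ^ n = z ^ p ^ n := by
      apply Units.ext
      rw [← h4, Units.val_pow_eq_pow_val, Units.val_zpow_eq_zpow_val, hs,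
        Units.val_pow_eq_pow_val, map_pow, ← zpow_natCast, ← zpow_natCast, ← zpow_mul, ← zpow_mul,
        mul_comm]
    rw [mul_pow, h5, inv_pow, mul_inv_cancel]
  have h4 : (s ^ c * z⁻¹) ^ (p ^ N - 1) = 1 := by
    have h4 := h1 (z ^ (p ^ N - 1)) (by rw [← pow_mul, mul_comm, hz])
    have h5 : (s ^ c) ^ (p ^ N - 1) = z ^ (p ^ N - 1) := by
      apply Units.ext
      rw [← h4, Units.val_pow_eq_pow_val, Units.val_zpow_eq_zpow_val, hs,
        Units.val_pow_eq_pow_val, map_pow, ← zpow_natCast, ← zpow_natCast, ← zpow_mul, ← zpow_mul,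
        mul_comm]
    rw [mul_pow, h5, inv_pow, mul_inv_cancel]
  have hcop : Nat.gcd (p ^ n) (p ^ N - 1) = 1 := by
    refine Nat.Coprime.pow_left n ((Nat.Prime.coprime_iff_not_dvd hp.out).mpr fun hd => ?_)
    have h6 : p ∣ p ^ N := dvd_pow_self p hN
    have h7 : 1 ≤ p ^ N := Nat.one_le_pow _ _ hp.out.pos
    have h8 : p ∣ 1 := by
      have := Nat.dvd_sub h6 hd
      rwa [Nat.sub_sub_self h7] at this
    exact hp.out.one_lt.ne' (Nat.dvd_one.mp h8)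
  have h5 : s ^ c * z⁻¹ = 1 := by
    have := pow_gcd_eq_one.mpr ⟨h3, h4⟩
    rwa [hcop, pow_one] at this
  have h6 : s ^ c = z := mul_inv_eq_one.mp h5
  have h7 := congrArg Units.val h6
  rwa [Units.val_zpow_eq_zpow_val, hs] at h7

end Fermat.Agent.Cor.LocCount
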