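import Fermat.Agent.Corollaries.LocCount.Explicit

/-!
# The number field attached to an abelian extension of `ℚ_p`

`E` is a finite abelian extension of `ℚ_p` contained in `ℚ_p(ζ)`, `ζ` a primitive `m`-th root of
unity, and `fld E ζ = E ∩ ℚ(ζ)`.
-/

set_option autoImplicit false

noncomputable section

namespace Fermat.Agent.Cor.LocCount

open Module IntermediateField

attribute [local instance] fact_prime_sub

variable {p : ℕ} [hp : Fact p.Prime]

/-- A finite abelian extension is contained in a cyclotomic extension. -/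
theorem exists_le_adjoin (E : IntermediateField ℚ_[p] (PadicAlgCl p)) [FiniteDimensional ℚ_[p] E]
    [IsAbelianGalois ℚ_[p] E] : ∃ n N : ℕ, n ≠ 0 ∧ N ≠ 0 ∧
      ∀ ζ : PadicAlgCl p, IsPrimitiveRoot ζ (p ^ n * (p ^ N - 1)) → E ≤ ℚ_[p]⟮ζ⟯ := by
  obtain ⟨M, hM, ⟨f⟩⟩ := KW.kronecker_weber_local p E
  have hMz : NeZero M := ⟨hM.ne'⟩
  obtain ⟨n, M', hM', hMn⟩ := Nat.exists_eq_pow_mul_and_not_dvd hM.ne' p hp.out.ne_one
  have hcop : p.Coprime M' := (Nat.Prime.coprime_iff_not_dvd hp.out).mpr hM'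
  have hM'0 : M' ≠ 0 := by
    rintro rfl
    exact hM' (dvd_zero p)
  refine ⟨n + 1, M'.totient, Nat.succ_ne_zero n, (Nat.totient_pos.mpr (Nat.pos_of_ne_zero hM'0)).ne',
    fun ζ hζ => ?_⟩
  have hdvd : M ∣ p ^ (n + 1) * (p ^ M'.totient - 1) := by
    rw [hMn]
    refine mul_dvd_mul (pow_dvd_pow p (Nat.le_succ n)) ?_
    have h1 := Nat.ModEq.pow_totient hcop
    exact (Nat.modEq_iff_dvd' (Nat.one_le_pow _ _ hp.out.pos)).mp h1.symm
  obtain ⟨c, hc⟩ := hdvd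
  have hm0 : p ^ (n + 1) * (p ^ M'.totient - 1) ≠ 0 := by
    refine mul_ne_zero (pow_ne_zero _ hp.out.ne_zero) (Nat.sub_ne_zero_of_lt
      (Nat.one_lt_pow (Nat.totient_pos.mpr (Nat.pos_of_ne_zero hM'0)).ne' hp.out.one_lt))
  -- the embedding of the cyclotomic field
  have hfd : FiniteDimensional ℚ_[p] (CyclotomicField M ℚ_[p]) :=
    IsCyclotomicExtension.finiteDimensional {M} ℚ_[p] _
  let ψ : CyclotomicField M ℚ_[p] →ₐ[ℚ_[p]] PadicAlgCl p := IsAlgClosed.lift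
  have hgal : IsGalois ℚ_[p] E := inferInstance
  intro y hy
  -- `E` is normal, so the image of `ψ ∘ f` is `E`
  have h3 : y ∈ (ψ.comp f).fieldRange := by
    rw [IntermediateField.normal_iff_forall_fieldRange_eq.mp inferInstance (ψ.comp f)]
    exact hy
  obtain ⟨x, rfl⟩ := h3
  have h4 : f x ∈ Algebra.adjoin ℚ_[p] {b : CyclotomicField M ℚ_[p] | ∃ a ∈ ({M} : Set ℕ), a ≠ 0 ∧ b ^ a = 1} :=
    IsCyclotomicExtension.adjoin_roots (f x)
  show ψ (f x) ∈ ℚ_[p]⟮ζ⟯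
  generalize f x = z at h4
  induction h4 using Algebra.adjoin_induction with
  | mem b hb =>
    obtain ⟨a, ha, -, hb⟩ := hb
    rw [Set.mem_singleton_iff] at ha
    subst ha
    have h5 : (ψ b) ^ (p ^ (n + 1) * (p ^ M'.totient - 1)) = 1 := by
      rw [← map_pow, hc, pow_mul, hb, one_pow, map_one]
    have : NeZero (p ^ (n + 1) * (p ^ M'.totient - 1)) := ⟨hm0⟩
    obtain ⟨i, -, hi⟩ := hζ.eq_pow_of_pow_eq_one h5
    rw [← hi]
    exact pow_mem (mem_adjoin_simple_self ℚ_[p] ζ) i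
  | algebraMap r =>
    rw [AlgHom.commutes]
    exact IntermediateField.algebraMap_mem _ r
  | add a b _ _ ha hb => rw [map_add]; exact add_mem ha hb
  | mul a b _ _ ha hb => rw [map_mul]; exact mul_mem ha hb

/-- The field `ℚ(ζ)`. -/
abbrev cyc (ζ : PadicAlgCl p) : IntermediateField ℚ (PadicAlgCl p) := IntermediateField.adjoin ℚ {ζ}

lemma isCyclotomic_cyc {m : ℕ} (hm : m ≠ 0) {ζ : PadicAlgCl p} (hζ : IsPrimitiveRoot ζ m) :
    IsCyclotomicExtension {m} ℚ (cyc ζ) := by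
  have : NeZero m := ⟨hm⟩
  have h1 : IsAlgebraic ℚ ζ := (hζ.isIntegral (Nat.pos_of_ne_zero hm)).tower_top.isAlgebraic
  change IsCyclotomicExtension {m} ℚ (cyc ζ).toSubalgebra
  rw [cyc, IntermediateField.adjoin_simple_toSubalgebra_of_isAlgebraic h1]
  exact hζ.adjoin_isCyclotomicExtension ℚ

/-- The field `E ∩ ℚ(ζ)`. -/
def fld (E : IntermediateField ℚ_[p] (PadicAlgCl p)) (ζ : PadicAlgCl p) :
    IntermediateField ℚ (PadicAlgCl p) := E.restrictScalars ℚ ⊓ cyc ζ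

lemma mem_fld {E : IntermediateField ℚ_[p] (PadicAlgCl p)} {ζ x : PadicAlgCl p} :
    x ∈ fld E ζ ↔ x ∈ E ∧ x ∈ cyc ζ := Iff.rfl

/-- The restriction of automorphisms to `ℚ(ζ)`. -/
def kapL (ζ : PadicAlgCl p) [Normal ℚ (cyc ζ)] :
    Gal(PadicAlgCl p/ℚ_[p]) →* Gal(cyc ζ/ℚ) :=
  (AlgEquiv.restrictNormalHom (F := ℚ) (K₁ := PadicAlgCl p) (cyc ζ)).comp
    (AlgEquiv.restrictScalarsHom ℚ)

lemma kapL_apply {ζ : PadicAlgCl p} [Normal ℚ (cyc ζ)] (σ : Gal(PadicAlgCl p/ℚ_[p]))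
    (x : cyc ζ) : (kapL ζ σ x : PadicAlgCl p) = σ x :=
  AlgEquiv.restrictNormal_commutes (AlgEquiv.restrictScalars ℚ σ) (cyc ζ) x

/-- An automorphism which is trivial on `E ∩ ℚ(ζ)` is trivial on `E`. -/
theorem fixes_of_fixes {E : IntermediateField ℚ_[p] (PadicAlgCl p)} {m : ℕ} (hm : m ≠ 0)
    {ζ : PadicAlgCl p} (hζ : IsPrimitiveRoot ζ m) (hE : E ≤ ℚ_[p]⟮ζ⟯)
    {σ : Gal(PadicAlgCl p/ℚ_[p])} (h : ∀ x ∈ fld E ζ, σ x = x) : ∀ y ∈ E, σ y = y := by
  have hc := isCyclotomic_cyc hm hζ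
  have hgal : IsGalois ℚ (cyc ζ) := IsCyclotomicExtension.isGalois {m} ℚ (cyc ζ)
  have hfd : FiniteDimensional ℚ (cyc ζ) := IsCyclotomicExtension.finiteDimensional {m} ℚ (cyc ζ)
  let B : Subgroup Gal(cyc ζ/ℚ) := E.fixingSubgroup.map (kapL ζ)
  have h1 : kapL ζ σ ∈ (IntermediateField.fixedField B).fixingSubgroup := by
    rw [IntermediateField.mem_fixingSubgroup_iff]
    intro l hl
    rw [IntermediateField.mem_fixedField_iff] at hl
    apply Subtype.ext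
    refine (kapL_apply σ l).trans ?_
    refine h _ (mem_fld.mpr ⟨?_, l.2⟩)
    rw [← InfiniteGalois.fixedField_fixingSubgroup E, IntermediateField.mem_fixedField_iff]
    intro τ hτ
    exact (kapL_apply τ l).symm.trans (congrArg Subtype.val (hl _ ⟨τ, hτ, rfl⟩))
  rw [IntermediateField.fixingSubgroup_fixedField] at h1
  obtain ⟨τ, hτ, h2⟩ := h1
  have h3 : (τ⁻¹ * σ) ζ = ζ := by
    have h4 : kapL ζ (τ⁻¹ * σ) = 1 := by
      rw [map_mul, map_inv, h2, inv_mul_cancel]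
    have h5 := kapL_apply (τ⁻¹ * σ) ⟨ζ, mem_adjoin_simple_self ℚ ζ⟩
    rw [h4] at h5
    exact h5.symm
  have h4 := forall_mem_adjoin_iff.mpr h3
  intro y hy
  have h5 := h4 y (hE hy)
  have h6 : σ y = τ y := by
    have : σ y = τ ((τ⁻¹ * σ) y) := by
      rw [AlgEquiv.mul_apply, ← AlgEquiv.mul_apply, mul_inv_cancel, AlgEquiv.one_apply]
    rw [this, h5]
  rw [h6]
  exact (IntermediateField.mem_fixingSubgroup_iff _ _).mp hτ y hy

lemma le_adjoin_fld {E : IntermediateField ℚ_[p] (PadicAlgCl p)} {m : ℕ} (hm : m ≠ 0)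
    {ζ : PadicAlgCl p} (hζ : IsPrimitiveRoot ζ m) (hE : E ≤ ℚ_[p]⟮ζ⟯) :
    E ≤ IntermediateField.adjoin ℚ_[p] (fld E ζ : Set (PadicAlgCl p)) := by
  rw [← InfiniteGalois.fixedField_fixingSubgroup
    (IntermediateField.adjoin ℚ_[p] (fld E ζ : Set (PadicAlgCl p))), IntermediateField.le_iff_le]
  intro σ hσ
  rw [IntermediateField.mem_fixingSubgroup_iff] at hσ ⊢
  exact fixes_of_fixes hm hζ hE fun x hx => hσ x (IntermediateField.subset_adjoin _ _ hx)

/-- `E ∩ ℚ(ζ)` is dense in `E`. -/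
theorem dense_fld {E : IntermediateField ℚ_[p] (PadicAlgCl p)} {m : ℕ} (hm : m ≠ 0)
    {ζ : PadicAlgCl p} (hζ : IsPrimitiveRoot ζ m) (hE : E ≤ ℚ_[p]⟮ζ⟯) {y : PadicAlgCl p}
    (hy : y ∈ E) {ε : ℝ} (hε : 0 < ε) : ∃ x ∈ fld E ζ, ‖x - y‖ < ε := by
  let S : Subring (PadicAlgCl p) := (fld E ζ).toSubalgebra.toSubring.topologicalClosure
  have h1 : y ∈ IntermediateField.adjoin ℚ_[p] (fld E ζ : Set (PadicAlgCl p)) :=
    le_adjoin_fld hm hζ hE hy
  have h2 : y ∈ Algebra.adjoin ℚ_[p] (fld E ζ : Set (PadicAlgCl p)) := by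
    rw [← IntermediateField.adjoin_toSubalgebra_of_isAlgebraic fun x _ =>
      Algebra.IsAlgebraic.isAlgebraic x]
    exact h1
  clear h1 hy
  have hsub : ∀ x ∈ fld E ζ, x ∈ S := fun x hx => subset_closure hx
  have h3 : y ∈ S := by
    induction h2 using Algebra.adjoin_induction with
    | mem x hx => exact hsub x hx
    | algebraMap r =>
      have h4 : algebraMap ℚ_[p] (PadicAlgCl p) r ∈ closure (fld E ζ : Set (PadicAlgCl p)) := by
        rw [Metric.mem_closure_iff]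
        intro δ hδ
        obtain ⟨t, ht⟩ := Padic.rat_dense p r hδ
        refine ⟨algebraMap ℚ (PadicAlgCl p) t, IntermediateField.algebraMap_mem _ t, ?_⟩
        have h5 : algebraMap ℚ (PadicAlgCl p) t = algebraMap ℚ_[p] (PadicAlgCl p) (t : ℚ_[p]) := by
          rw [map_ratCast, eq_ratCast]
        rw [h5, dist_eq_norm, ← map_sub, norm_algebraMap']
        exact ht
      exact h4
    | add a b _ _ ha hb => exact S.add_mem ha hb
    | mul a b _ _ ha hb => exact S.mul_mem ha hb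
  have h6 : y ∈ closure (fld E ζ : Set (PadicAlgCl p)) := h3
  obtain ⟨x, hx, h7⟩ := Metric.mem_closure_iff.mp h6 ε hε
  exact ⟨x, hx, by rwa [← dist_eq_norm, dist_comm]⟩

end Fermat.Agent.Cor.LocCount
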