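import Fermat.Agent.CFT.Local.NormIndex
import Mathlib.FieldTheory.Galois.Abelian

/-!
# The norm index inequality for abelian extensions of local fields
-/

set_option autoImplicit false

noncomputable section

namespace Fermat.Agent.Cor.LocCount

open Module Fermat.Agent.CFTLocal

/-- **The norm index inequality**: `[Kˣ : N Eˣ] ≤ [E : K]` for an abelian extension `E/K` of finite
extensions of `ℚ_q`. -/
theorem index_norm_le (q : ℕ) [Fact q.Prime] (d : ℕ) : ∀ (K E : Type) [Field K] [Algebra ℚ_[q] K]
    [Field E] [Algebra ℚ_[q] E] [Algebra K E] [IsScalarTower ℚ_[q] K E] [FiniteDimensional ℚ_[q] E]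
    [IsAbelianGalois K E], finrank K E = d →
      (normUnits K E).range.index ≠ 0 ∧ (normUnits K E).range.index ≤ d := by
  induction d using Nat.strong_induction_on with
  | _ d ih =>
    intro K E _ _ _ _ _ _ _ _ hd
    have fK : FiniteDimensional ℚ_[q] K := FiniteDimensional.left ℚ_[q] K E
    have fE : FiniteDimensional K E := FiniteDimensional.right ℚ_[q] K E
    have hd0 : 0 < d := by
      rw [← hd]
      exact finrank_pos
    rcases Nat.lt_or_ge 1 d with h1 | h1
    · -- a subgroup of prime order
      obtain ⟨ℓ, hℓ, hdvd⟩ := Nat.exists_prime_and_dvd h1.ne'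
      have : Fact ℓ.Prime := ⟨hℓ⟩
      have hcard : Nat.card Gal(E/K) = d := by rw [IsGalois.card_aut_eq_finrank, hd]
      obtain ⟨σ, hσ⟩ := exists_prime_orderOf_dvd_card' (G := Gal(E/K)) ℓ (by rwa [hcard])
      let F : IntermediateField K E := IntermediateField.fixedField (Subgroup.zpowers σ)
      have hFE : finrank F E = ℓ := by
        rw [IntermediateField.finrank_fixedField_eq_card, Nat.card_zpowers, hσ]
      have hmul : finrank K F * finrank F E = d := by rw [finrank_mul_finrank, hd]
      have hlt : finrank K F < d := by
        rw [← hmul, hFE]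
        have h2 : 0 < finrank K F := finrank_pos
        have h3 := hℓ.two_le
        nlinarith
      have i1 : IsAbelianGalois K F := IsAbelianGalois.tower_bot K F E
      have i2 : IsGalois F E := inferInstance
      have i4 : IsScalarTower ℚ_[q] F E := IsScalarTower.of_algebraMap_eq fun _ => rfl
      have i3 : FiniteDimensional ℚ_[q] F := FiniteDimensional.left ℚ_[q] F E
      obtain ⟨h2, h3⟩ := ih _ hlt K F rfl
      have h4 : (normUnits F E).range.index = ℓ := norm_index_local q F E ℓ hℓ hFE
      have h5 : (normUnits K E).range = (normUnits F E).range.map (normUnits K F) := by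
        rw [MonoidHom.map_range]
        congr 1
        ext x
        exact Algebra.norm_norm.symm
      rw [h5, Subgroup.index_map]
      have h6 : ((normUnits F E).range ⊔ (normUnits K F).ker).index ∣ ℓ := by
        rw [← h4]
        exact Subgroup.index_dvd_of_le le_sup_left
      have h7 := Nat.le_of_dvd hℓ.pos h6
      have h8 := Nat.pos_of_dvd_of_pos h6 hℓ.pos
      refine ⟨mul_ne_zero h8.ne' h2, ?_⟩
      calc _ ≤ ℓ * finrank K F := Nat.mul_le_mul h7 h3
        _ = d := by rw [← hmul, hFE, mul_comm]
    · have h2 : d = 1 := by omega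
      subst h2
      have h3 : (normUnits K E).range = ⊤ := by
        rw [MonoidHom.range_eq_top]
        intro x
        refine ⟨Units.map (algebraMap K E) x, Units.ext ?_⟩
        show Algebra.norm K (algebraMap K E x) = x
        rw [Algebra.norm_algebraMap, hd, pow_one]
      rw [h3, Subgroup.index_top]
      exact ⟨one_ne_zero, le_rfl⟩

end Fermat.Agent.Cor.LocCount
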