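import Fermat.Agent.Corollaries.LocCount.NormUnr

/-!
# Norm groups of composita and intersections
-/

set_option autoImplicit false

noncomputable section

namespace Fermat.Agent.Cor.LocCount

open Module IntermediateField

attribute [local instance] fact_prime_sub

variable {p : ℕ} [hp : Fact p.Prime]

/-- **The norm group of a compositum** is the intersection of the norm groups. -/
theorem normGroup_sup (E F : IntermediateField ℚ_[p] (PadicAlgCl p)) [FiniteDimensional ℚ_[p] E]
    [IsAbelianGalois ℚ_[p] E] [FiniteDimensional ℚ_[p] F] [IsAbelianGalois ℚ_[p] F] :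
    IsAbelianGalois ℚ_[p] ↥(E ⊔ F) ∧ normGroup (E ⊔ F) = normGroup E ⊓ normGroup F := by
  have hE : (normGroup E).FiniteIndex := ⟨by rw [index_normGroup]; exact finrank_pos.ne'⟩
  have hF : (normGroup F).FiniteIndex := ⟨by rw [index_normGroup]; exact finrank_pos.ne'⟩
  obtain ⟨G, ⟨h1, h2, h3⟩, -⟩ := existence_norm (normGroup E ⊓ normGroup F)
    ((isOpen_normGroup E).inter (isOpen_normGroup F)) inferInstance
  have hEG : E ≤ G := normGroup_le_iff.mp (h3.le.trans inf_le_left)
  have hFG : F ≤ G := normGroup_le_iff.mp (h3.le.trans inf_le_right)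
  have hle : E ⊔ F ≤ G := sup_le hEG hFG
  have hab : IsAbelianGalois ℚ_[p] ↥(E ⊔ F) :=
    IsAbelianGalois.of_algHom (IntermediateField.inclusion hle)
  refine ⟨hab, le_antisymm (le_inf (normGroup_le_iff.mpr le_sup_left)
    (normGroup_le_iff.mpr le_sup_right)) ?_⟩
  rw [← h3]
  exact normGroup_le_iff.mpr hle

/-- **The norm group of an intersection** is the product of the norm groups. -/
theorem normGroup_inf (E F : IntermediateField ℚ_[p] (PadicAlgCl p)) [FiniteDimensional ℚ_[p] E]
    [IsAbelianGalois ℚ_[p] E] [FiniteDimensional ℚ_[p] F] [IsAbelianGalois ℚ_[p] F] :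
    normGroup (E ⊓ F) = normGroup E ⊔ normGroup F := by
  have hE : (normGroup E).FiniteIndex := ⟨by rw [index_normGroup]; exact finrank_pos.ne'⟩
  have hfi : (normGroup E ⊔ normGroup F).FiniteIndex := Subgroup.finiteIndex_of_le le_sup_left
  obtain ⟨G, ⟨h1, h2, h3⟩, -⟩ := existence_norm (normGroup E ⊔ normGroup F)
    (Subgroup.isOpen_mono le_sup_left (isOpen_normGroup E)) hfi
  have hGE : G ≤ E := normGroup_le_iff.mp (le_sup_left.trans h3.ge)
  have hGF : G ≤ F := normGroup_le_iff.mp (le_sup_right.trans h3.ge)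
  have hfd : FiniteDimensional ℚ_[p] ↥(E ⊓ F) :=
    FiniteDimensional.of_injective (IntermediateField.inclusion (inf_le_left : E ⊓ F ≤ E)).toLinearMap
      (IntermediateField.inclusion_injective (inf_le_left : E ⊓ F ≤ E))
  have hab : IsAbelianGalois ℚ_[p] ↥(E ⊓ F) :=
    IsAbelianGalois.of_algHom (IntermediateField.inclusion (inf_le_left : E ⊓ F ≤ E))
  refine le_antisymm ?_ (sup_le (normGroup_le_iff.mpr inf_le_left) (normGroup_le_iff.mpr inf_le_right))
  rw [← h3]
  exact normGroup_le_iff.mpr (le_inf hGE hGF)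

end Fermat.Agent.Cor.LocCount
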