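import Fermat.Agent.Corollaries.LocCount.NormAct
import Fermat.Agent.Corollaries.LocCount.NormIndex

/-!
# The norm groups of the finite abelian extensions of `ℚ_p`

`range_norm` : `N Eˣ = artinKer E` for every finite abelian extension `E` of `ℚ_p`.
-/

set_option autoImplicit false

noncomputable section

namespace Fermat.Agent.Cor.LocCount

open Module IntermediateField NumberField

attribute [local instance] fact_prime_sub

variable {p : ℕ} [hp : Fact p.Prime]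

section NormMod

variable {K : Type*} [Field K] [NumberField K]

lemma norm_one_add_mul (ℓ : ℕ) (t : 𝓞 K) :
    ((Algebra.norm ℤ (1 + (ℓ : 𝓞 K) * t) : ℤ) : ZMod ℓ) = 1 := by
  classical
  let b := Module.Free.chooseBasis ℤ (𝓞 K)
  have h1 (M : Matrix (Module.Free.ChooseBasisIndex ℤ (𝓞 K))
      (Module.Free.ChooseBasisIndex ℤ (𝓞 K)) ℤ) :
      ((M.det : ℤ) : ZMod ℓ) = ((Int.castRingHom (ZMod ℓ)).mapMatrix M).det :=
    RingHom.map_det (Int.castRingHom (ZMod ℓ)) M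
  have h2 : (ℓ : 𝓞 K) * t = (ℓ : ℤ) • t := by simp
  have h3 (N : Matrix (Module.Free.ChooseBasisIndex ℤ (𝓞 K))
      (Module.Free.ChooseBasisIndex ℤ (𝓞 K)) ℤ) :
      (Int.castRingHom (ZMod ℓ)).mapMatrix ((ℓ : ℤ) • N) = 0 := by
    ext i j
    rw [RingHom.mapMatrix_apply, Matrix.map_apply, Matrix.smul_apply, smul_eq_mul, map_mul]
    simp
  rw [Algebra.norm_eq_matrix_det b, h1, map_add, map_add, h2, map_smul, h3, add_zero, map_one,
    map_one, Matrix.det_one]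

end NormMod

section Main

variable {E : IntermediateField ℚ_[p] (PadicAlgCl p)} {ζ : PadicAlgCl p}

/-- Embeddings which are not induced by embeddings of `E` give other prime ideals. -/
lemma idealOf_ne {φ : fld E ζ →ₐ[ℚ] PadicAlgCl p} [NumberField (fld E ζ)]
    (hφ : φ ∉ Set.range (restr E ζ)) : idealOf φ ≠ idealOf (fld E ζ).val := by
  intro h
  obtain ⟨⟨a, ha, h1, h2⟩, -⟩ := exists_sep (fld E ζ) (φ : fld E ζ →+* PadicAlgCl p) (by
    rintro ⟨g, hg⟩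
    refine hφ ⟨(g : PadicAlgCl p →ₐ[ℚ_[p]] PadicAlgCl p).comp E.val, ?_⟩
    refine AlgHom.ext fun x => ?_
    exact (hg x).symm)
  have hb : (⟨a, ha⟩ : 𝓞 (fld E ζ)) ∈ idealOf (fld E ζ).val := h1
  rw [← h] at hb
  have h3 : ‖φ a‖ < 1 := hb
  have h4 : ‖φ a‖ = 1 := h2
  exact absurd h4 h3.ne

/-- Elements of `Gal(ℚ(ζ)/F)` and the action on `F`. -/
lemma fixes_fld [Algebra (fld E ζ) (cyc ζ)] (hmap : ∀ x : fld E ζ,
      ((algebraMap (fld E ζ) (cyc ζ) x : cyc ζ) : PadicAlgCl p) = x)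
    (φ : cyc ζ ≃ₐ[fld E ζ] cyc ζ) {c : ℤ}
    (hφ : φ ⟨ζ, mem_adjoin_simple_self ℚ ζ⟩ = (⟨ζ, mem_adjoin_simple_self ℚ ζ⟩ : cyc ζ) ^ c)
    {σ : Gal(PadicAlgCl p/ℚ_[p])} (hσ : (σ ζ) ^ c = ζ) : ∀ x ∈ fld E ζ, σ x = x := by
  let ψ : cyc ζ →+* PadicAlgCl p :=
    ((σ : PadicAlgCl p →+* PadicAlgCl p).comp (cyc ζ).val.toRingHom).comp (φ : cyc ζ →+* cyc ζ)
  have hψ : ∀ l : cyc ζ, ψ l = σ ((φ l : cyc ζ) : PadicAlgCl p) := fun l => rfl
  have h1 : ∀ (x : PadicAlgCl p) (hx : x ∈ cyc ζ), ψ ⟨x, hx⟩ = x := by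
    intro x hx
    refine IntermediateField.adjoin_induction ℚ (p := fun x hx => ψ ⟨x, hx⟩ = x) ?_ ?_ ?_ ?_ ?_ hx
    · intro x hx
      rw [Set.mem_singleton_iff] at hx
      subst hx
      have h3 : ((φ ⟨x, mem_adjoin_simple_self ℚ x⟩ : cyc x) : PadicAlgCl p) = x ^ c := by
        rw [hφ]
        exact map_zpow₀ (cyc x).val _ c
      refine (congrArg σ h3).trans ?_
      rw [map_zpow₀]
      exact hσ
    · intro r
      have h2 : (⟨algebraMap ℚ (PadicAlgCl p) r, IntermediateField.algebraMap_mem _ r⟩ : cyc ζ) =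
          ((r : ℚ) : cyc ζ) := Subtype.ext (eq_ratCast (algebraMap ℚ (PadicAlgCl p)) r)
      rw [h2, map_ratCast, eq_ratCast]
    · intro x y hx hy h2 h3
      exact (map_add ψ ⟨x, hx⟩ ⟨y, hy⟩).trans (congrArg₂ (· + ·) h2 h3)
    · intro x hx h2
      exact (map_inv₀ ψ ⟨x, hx⟩).trans (congrArg (·⁻¹) h2)
    · intro x y hx hy h2 h3
      exact (map_mul ψ ⟨x, hx⟩ ⟨y, hy⟩).trans (congrArg₂ (· * ·) h2 h3)
  intro x hx
  have h2 := h1 _ (algebraMap (fld E ζ) (cyc ζ) ⟨x, hx⟩).2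
  rw [hψ] at h2
  have h3 : σ ((φ (algebraMap (fld E ζ) (cyc ζ) ⟨x, hx⟩) : cyc ζ) : PadicAlgCl p) =
    ((algebraMap (fld E ζ) (cyc ζ) ⟨x, hx⟩ : cyc ζ) : PadicAlgCl p) := h2
  rwa [AlgEquiv.commutes, hmap] at h3

lemma jay_inj {a b : ℤ_[p]ˣ} {k l : ℤ} (h : incl p a * unif p ^ k = incl p b * unif p ^ l) :
    a = b ∧ k = l := by
  have h1 : ((a, Multiplicative.ofAdd k) : ℤ_[p]ˣ × Multiplicative ℤ) =
    (b, Multiplicative.ofAdd l) := (jayEquiv p).injective h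
  exact ⟨congrArg Prod.fst h1, 
    congrArg (fun z : ℤ_[p]ˣ × Multiplicative ℤ => Multiplicative.toAdd z.2) h1⟩

lemma not_dvd_sub {N : ℕ} (hN : N ≠ 0) : ¬ p ∣ p ^ N - 1 := by
  intro hd
  have h6 : p ∣ p ^ N := dvd_pow_self p hN
  have h7 : 1 ≤ p ^ N := Nat.one_le_pow _ _ hp.out.pos
  have h8 : p ∣ 1 := by
    have := Nat.dvd_sub h6 hd
    rwa [Nat.sub_sub_self h7] at this
  exact hp.out.one_lt.ne' (Nat.dvd_one.mp h8)

/-- The norm of an integer of `E ∩ ℚ(ζ)`. -/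
theorem norm_mem_of_integral [FiniteDimensional ℚ_[p] E] [IsAbelianGalois ℚ_[p] E]
    [NumberField (fld E ζ)] {n N : ℕ} (hn : n ≠ 0) (hN : N ≠ 0)
    (hζ : IsPrimitiveRoot ζ (p ^ n * (p ^ N - 1))) (hE : E ≤ ℚ_[p]⟮ζ⟯) {η₀ : 𝓞 (fld E ζ)}
    (hη₀ : η₀ ≠ 0) {x : ℚ_[p]ˣ}
    (hx : (x : ℚ_[p]) = Algebra.norm ℚ_[p] (toE E ζ (algebraMap (𝓞 (fld E ζ)) (fld E ζ) η₀))) :
    x ∈ artinKer E := by
  classical
  have hm : p ^ n * (p ^ N - 1) ≠ 0 := mul_ne_zero (pow_ne_zero _ hp.out.ne_zero)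
    (Nat.sub_ne_zero_of_lt (Nat.one_lt_pow hN hp.out.one_lt))
  have hp1 : (1 : ℝ) < p := by exact_mod_cast hp.out.one_lt
  obtain ⟨ε, hε⟩ : ∃ ε : ℝ, ε = (p : ℝ) ^ (-n : ℤ) := ⟨_, rfl⟩
  have hε0 : 0 < ε := hε ▸ zpow_pos (by linarith) _
  have hεlt : ε < 1 := by
    rw [hε, zpow_neg, zpow_natCast]
    exact inv_lt_one_of_one_lt₀ (one_lt_pow₀ hp1 hn)
  have hε1 : ε ≤ 1 := hεlt.le
  obtain ⟨y₀, hy₀⟩ : ∃ y₀ : fld E ζ, y₀ = algebraMap (𝓞 (fld E ζ)) (fld E ζ) η₀ := ⟨_, rfl⟩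
  have hy₀0 : (y₀ : PadicAlgCl p) ≠ 0 := by
    intro h
    have h1 : algebraMap (𝓞 (fld E ζ)) (fld E ζ) η₀ = 0 := by
      rw [← hy₀]
      exact Subtype.ext h
    exact hη₀ (RingOfIntegers.coe_injective (h1.trans (map_zero _).symm))
  have hn0 : 0 < ‖(y₀ : PadicAlgCl p)‖ := norm_pos_iff.mpr hy₀0
  have hn1 : ‖(y₀ : PadicAlgCl p)‖ ≤ 1 := by
    rw [hy₀]
    exact norm_le_one_emb (fld E ζ).val η₀
  obtain ⟨η, b, h1, h2, h3, h4⟩ := exists_eta (fld E ζ).val (Set.range (restr E ζ))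
    (fun φ hφ => idealOf_ne hφ) (not_dvd_sub (p := p) hN) η₀ (mul_pos hn0 hε0)
  obtain ⟨y, hy⟩ : ∃ y : fld E ζ, y = algebraMap (𝓞 (fld E ζ)) (fld E ζ) η := ⟨_, rfl⟩
  have h2' : ‖(y : PadicAlgCl p) - y₀‖ ≤ ‖(y₀ : PadicAlgCl p)‖ * ε := by
    rw [hy, hy₀] at *
    exact h2
  have hy0 : (y : PadicAlgCl p) ≠ 0 := by
    intro h
    rw [h, zero_sub, norm_neg] at h2'
    nlinarith
  have hη0 : η ≠ 0 := by
    rintro rfl
    rw [map_zero] at hy
    exact hy0 (by rw [hy]; rfl)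
  -- the quotient in `E`
  let t : E := toE E ζ y / toE E ζ y₀
  have ht : ‖(t : PadicAlgCl p) - 1‖ ≤ ε := by
    have h5 : (t : PadicAlgCl p) = (y : PadicAlgCl p) / y₀ := rfl
    have h6 : (t : PadicAlgCl p) - 1 = ((y : PadicAlgCl p) - y₀) / y₀ := by
      rw [h5, sub_div, div_self hy₀0]
    rw [h6, norm_div, div_le_iff₀ hn0, mul_comm]
    exact h2'
  have hNt := norm_norm_sub_one hε0.le hε1 ht
  have hNt' : Algebra.norm ℚ_[p] t = Algebra.norm ℚ_[p] (toE E ζ y) / x := by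
    have h5 : toE E ζ y₀ ≠ 0 := fun h => hy₀0 (congrArg Subtype.val h)
    refine eq_div_of_mul_eq x.ne_zero ?_
    rw [hx, ← hy₀, ← map_mul, div_mul_cancel₀ _ h5]
  -- the product
  obtain ⟨P, hPdef⟩ : ∃ P : PadicAlgCl p,
    P = ∏ φ ∈ (Finset.univ.image (restr E ζ))ᶜ, φ y := ⟨_, rfl⟩
  have hP : ‖P - 1‖ ≤ ε := by
    rw [hPdef]
    refine norm_prod_sub_one _ _ hε0.le hε1 fun φ hφ => ?_
    have h5 : φ ∉ Set.range (restr E ζ) := by
      rintro ⟨ψ, hψ⟩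
      exact (Finset.mem_compl.mp hφ) (Finset.mem_image.mpr ⟨ψ, Finset.mem_univ _, hψ⟩)
    rw [hy]
    refine (h3 φ h5).trans ?_
    calc _ ≤ 1 * ε := mul_le_mul_of_nonneg_right hn1 hε0.le
      _ = ε := one_mul ε
  have hprod := norm_eq_mul hm hζ hE y
  rw [← hPdef] at hprod
  -- the norm to `ℚ`
  obtain ⟨r, hrdef⟩ : ∃ r : ℤ, r = Algebra.norm ℤ η := ⟨_, rfl⟩
  have hr : (r : ℚ) = Algebra.norm ℚ y := by
    rw [hrdef, hy]
    exact Algebra.coe_norm_int η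
  have hr0 : r ≠ 0 := by
    rw [hrdef]
    exact Algebra.norm_ne_zero_iff.mpr hη0
  have hr0' : (r : ℚ_[p]) ≠ 0 := by exact_mod_cast hr0
  have h8 : algebraMap ℚ_[p] (PadicAlgCl p) ((r : ℚ_[p]) / x) =
      algebraMap ℚ_[p] (PadicAlgCl p) (Algebra.norm ℚ_[p] t) * P := by
    have h9 : ((r : ℤ) : PadicAlgCl p) = algebraMap ℚ (PadicAlgCl p) (Algebra.norm ℚ y) := by
      rw [← hr, map_intCast]
    rw [hNt', map_div₀, map_div₀, map_intCast, h9, hprod]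
    ring
  have h10 : ‖(r : ℚ_[p]) / x - 1‖ ≤ ε := by
    rw [← norm_algebraMap' (PadicAlgCl p), map_sub, map_one, h8]
    refine norm_mul_sub_one hε1 ?_ hP
    rw [← map_one (algebraMap ℚ_[p] (PadicAlgCl p)), ← map_sub, norm_algebraMap']
    exact hNt
  obtain ⟨w, hw, hw1⟩ := near_one (x := Units.mk0 (r : ℚ_[p]) hr0' / x) hn (by
    rw [← hε, Units.val_div_eq_div_val, Units.val_mk0]
    exact h10)
  obtain ⟨u, k', hux⟩ := exists_jay x
  -- the global automorphism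
  have hle : fld E ζ ≤ cyc ζ := fun x hx => (mem_fld.mp hx).2
  have hneZ : NeZero (p ^ n * (p ^ N - 1)) := ⟨hm⟩
  have hcyc := isCyclotomic_cyc hm hζ
  have hNF : NumberField (cyc ζ) :=
    IsCyclotomicExtension.numberField {p ^ n * (p ^ N - 1)} ℚ (cyc ζ)
  have hgal : IsGalois ℚ (cyc ζ) := IsCyclotomicExtension.isGalois {p ^ n * (p ^ N - 1)} ℚ (cyc ζ)
  let alg : Algebra (fld E ζ) (cyc ζ) :=
    RingHom.toAlgebra (IntermediateField.inclusion hle : fld E ζ →+* cyc ζ)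
  have htower : IsScalarTower ℚ (fld E ζ) (cyc ζ) := IsScalarTower.of_algebraMap_eq fun _ => rfl
  have hgal' : IsGalois (fld E ζ) (cyc ζ) := IsGalois.tower_top_of_isGalois ℚ (fld E ζ) (cyc ζ)
  obtain ⟨k, c, φ, h5, h6, h7⟩ := exists_aut_of_norm (L := cyc ζ) hm
    (ζ := ⟨ζ, mem_adjoin_simple_self ℚ ζ⟩) (Subtype.ext hζ.pow_eq_one) hp.out
    (idealOf (fld E ζ).val) (p_mem_idealOf _) hη0 (fun Q hQ hmQ hηQ => by
      refine h4 Q hQ ?_ hηQ
      rw [Nat.cast_mul, Nat.cast_pow] at hmQ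
      rcases hQ.mem_or_mem hmQ with h | h
      · exact Or.inl (hQ.mem_of_pow_mem n h)
      · exact Or.inr h)
  rw [← hrdef] at h5
  -- `c` is a unit
  have hpc : ¬ (p : ℤ) ∣ c := by
    intro hd
    have h11 : (p : ℤ) ∣ ((p ^ n * (p ^ N - 1) : ℕ) : ℤ) := by
      rw [Int.natCast_dvd_natCast]
      exact (dvd_pow_self p hn).mul_right _
    have h12 := h6.isUnit_of_dvd' hd h11
    exact (Nat.prime_iff_prime_int.mp hp.out).not_isUnit h12
  have hcnorm : ‖(c : ℤ_[p])‖ = 1 := by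
    refine le_antisymm (PadicInt.norm_le_one _) (not_lt.mp fun h => hpc ?_)
    exact (PadicInt.norm_int_lt_one_iff_dvd c).mp h
  obtain ⟨cu, hcu⟩ := PadicInt.isUnit_iff.mpr hcnorm
  have h13 : incl p cu * unif p ^ (k : ℤ) = incl p (w * u) * unif p ^ k' := by
    have h14 : incl p cu * unif p ^ (k : ℤ) = Units.mk0 (r : ℚ_[p]) hr0' := by
      apply Units.ext
      rw [Units.val_mul, coe_incl, hcu, zpow_natCast, Units.val_pow_eq_pow_val, Units.val_mk0, h5]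
      show ((c : ℤ_[p]) : ℚ_[p]) * (p : ℚ_[p]) ^ k = _
      push_cast
      ring
    rw [h14, map_mul, mul_assoc, ← hux, ← hw, div_mul_cancel]
  obtain ⟨h14, h15⟩ := jay_inj h13
  obtain ⟨σ, hσ⟩ := QuotientGroup.mk'_surjective _ (artin p x)
  have hσ' : QuotientGroup.mk σ = artin p (incl p u * unif p ^ k') := by
    rw [← hux]
    exact hσ
  rw [mem_artinKer_iff (σ := σ) hσ]
  refine fixes_of_fixes hm hζ hE (fixes_fld (fun _ => rfl) φ h7
    (act_zpow hσ' hN (j := k) (n := n) (by rw [h15]) ?_ ?_ hζ.pow_eq_one))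
  · have h16 : (c : ZMod (p ^ n)) = PadicInt.toZModPow n (c : ℤ_[p]) := (map_intCast _ c).symm
    rw [h16, ← hcu, h14, Units.val_mul, map_mul, hw1, one_mul]
  · have h17 := norm_one_add_mul (p ^ N - 1) b
    rw [← h1, ← hrdef, h5] at h17
    rw [← h17, mul_comm]

/-- Norms act trivially. -/
theorem norm_mem (E : IntermediateField ℚ_[p] (PadicAlgCl p)) [FiniteDimensional ℚ_[p] E]
    [IsAbelianGalois ℚ_[p] E] {x : ℚ_[p]ˣ} {y : E} (hxy : (x : ℚ_[p]) = Algebra.norm ℚ_[p] y) :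
    x ∈ artinKer E := by
  obtain ⟨n, N, hn, hN, hE'⟩ := exists_le_adjoin E
  have hm : p ^ n * (p ^ N - 1) ≠ 0 := mul_ne_zero (pow_ne_zero _ hp.out.ne_zero)
    (Nat.sub_ne_zero_of_lt (Nat.one_lt_pow hN hp.out.one_lt))
  have hmz : NeZero ((p ^ n * (p ^ N - 1) : ℕ) : PadicAlgCl p) := ⟨by exact_mod_cast hm⟩
  obtain ⟨ζ, hζ⟩ := HasEnoughRootsOfUnity.exists_primitiveRoot (PadicAlgCl p) (p ^ n * (p ^ N - 1))
  have hE := hE' ζ hζ
  have hp1 : (1 : ℝ) < p := by exact_mod_cast hp.out.one_lt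
  obtain ⟨ε, hε⟩ : ∃ ε : ℝ, ε = (p : ℝ) ^ (-n : ℤ) := ⟨_, rfl⟩
  have hε0 : 0 < ε := hε ▸ zpow_pos (by linarith) _
  have hεlt : ε < 1 := by
    rw [hε, zpow_neg, zpow_natCast]
    exact inv_lt_one_of_one_lt₀ (one_lt_pow₀ hp1 hn)
  have hy0 : y ≠ 0 := by
    rintro rfl
    rw [Algebra.norm_zero] at hxy
    exact x.ne_zero hxy
  have hy0' : (y : PadicAlgCl p) ≠ 0 := fun h => hy0 (Subtype.ext h)
  have hny : 0 < ‖(y : PadicAlgCl p)‖ := norm_pos_iff.mpr hy0'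
  obtain ⟨z, hz, hzy⟩ := dense_fld hm hζ hE y.2 (mul_pos hny hε0)
  have hz0 : z ≠ 0 := by
    rintro rfl
    rw [zero_sub, norm_neg] at hzy
    nlinarith
  -- the number field
  have hfd := finiteDimensional_fld (E := E) hm hζ
  have hNF : NumberField (fld E ζ) := ⟨⟩
  obtain ⟨a, b, hb, hab⟩ := IsFractionRing.div_surjective (A := 𝓞 (fld E ζ)) (⟨z, hz⟩ : fld E ζ)
  have hb0 : b ≠ 0 := nonZeroDivisors.ne_zero hb
  have ha0 : a ≠ 0 := by
    rintro rfl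
    rw [map_zero, zero_div] at hab
    exact hz0 (congrArg Subtype.val hab).symm
  have key : ∀ c : 𝓞 (fld E ζ), c ≠ 0 → ∃ xc : ℚ_[p]ˣ, xc ∈ artinKer E ∧
      (xc : ℚ_[p]) = Algebra.norm ℚ_[p] (toE E ζ (algebraMap (𝓞 (fld E ζ)) (fld E ζ) c)) := by
    intro c hc
    have h1 : toE E ζ (algebraMap (𝓞 (fld E ζ)) (fld E ζ) c) ≠ 0 := by
      rw [map_ne_zero]
      intro h
      exact hc (RingOfIntegers.coe_injective (h.trans (map_zero _).symm))
    exact ⟨Units.mk0 _ (Algebra.norm_ne_zero_iff.mpr h1),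
      norm_mem_of_integral hn hN hζ hE hc rfl, rfl⟩
  obtain ⟨xa, hxa, hxa'⟩ := key a ha0
  obtain ⟨xb, hxb, hxb'⟩ := key b hb0
  -- the quotient
  have h1 : toE E ζ (⟨z, hz⟩ : fld E ζ) * toE E ζ (algebraMap (𝓞 (fld E ζ)) (fld E ζ) b) =
      toE E ζ (algebraMap (𝓞 (fld E ζ)) (fld E ζ) a) := by
    rw [← hab, ← map_mul, div_mul_cancel₀]
    intro h
    exact hb0 (RingOfIntegers.coe_injective (h.trans (map_zero _).symm))
  let t : E := toE E ζ (⟨z, hz⟩ : fld E ζ) / y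
  have ht : ‖(t : PadicAlgCl p) - 1‖ ≤ ε := by
    have h5 : (t : PadicAlgCl p) = z / y := rfl
    have h6 : (t : PadicAlgCl p) - 1 = (z - y) / y := by
      rw [h5, sub_div, div_self hy0']
    rw [h6, norm_div, div_le_iff₀ hny, mul_comm]
    exact hzy.le
  have hNt := norm_norm_sub_one hε0.le hεlt.le ht
  have h2 : t * y * toE E ζ (algebraMap (𝓞 (fld E ζ)) (fld E ζ) b) =
      toE E ζ (algebraMap (𝓞 (fld E ζ)) (fld E ζ) a) := by
    rw [div_mul_cancel₀ _ hy0, h1]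
  have h3 : Algebra.norm ℚ_[p] t * x * xb = xa := by
    rw [hxy, hxa', hxb', ← map_mul, ← map_mul, h2]
  have h4 : ((xa / (x * xb) : ℚ_[p]ˣ) : ℚ_[p]) = Algebra.norm ℚ_[p] t := by
    rw [Units.val_div_eq_div_val, Units.val_mul, div_eq_iff (mul_ne_zero x.ne_zero xb.ne_zero),
      ← h3, mul_assoc]
  obtain ⟨w, hw, hw1⟩ := near_one (x := xa / (x * xb)) hn (by rw [h4, ← hε]; exact hNt)
  have h5 : incl p w ∈ artinKer E := by
    obtain ⟨σ, hσ⟩ := QuotientGroup.mk'_surjective _ (artin p (incl p w))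
    rw [mem_artinKer_iff (σ := σ) hσ]
    refine fun z hz => forall_mem_adjoin_iff.mpr ?_ z (hE hz)
    have h6 := act_zpow (u := w) (k := 0) (σ := σ) (by rw [zpow_zero, mul_one]; exact hσ) hN
      (n := n) (j := 0) (by exact Int.ModEq.refl _) (c := 1) (by rw [Int.cast_one, hw1])
      (by simp) hζ.pow_eq_one
    rwa [zpow_one] at h6
  rw [← hw] at h5
  have h6 : x = xa * xb⁻¹ * (xa / (x * xb))⁻¹ := by
    rw [inv_div, div_eq_mul_inv, mul_comm x xb, mul_assoc xa, mul_assoc xb, inv_mul_cancel_left,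
      mul_comm x, mul_inv_cancel_left]
  rw [h6]
  exact mul_mem (mul_mem hxa (inv_mem hxb)) (inv_mem h5)

/-- **The norm group of a finite abelian extension** `E` of `ℚ_p` is the kernel of the action of
`ℚ_pˣ` on `E`. -/
theorem range_norm (E : IntermediateField ℚ_[p] (PadicAlgCl p)) [FiniteDimensional ℚ_[p] E]
    [IsAbelianGalois ℚ_[p] E] :
    (Units.map (Algebra.norm ℚ_[p] : E →* ℚ_[p])).range = artinKer E := by
  have h1 : (Units.map (Algebra.norm ℚ_[p] : E →* ℚ_[p])).range ≤ artinKer E := by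
    rintro _ ⟨y, rfl⟩
    exact norm_mem E (y := (y : E)) rfl
  have h2 := index_norm_le p (finrank ℚ_[p] E) ℚ_[p] E rfl
  change (Units.map (Algebra.norm ℚ_[p] : E →* ℚ_[p])).range.index ≠ 0 ∧
    (Units.map (Algebra.norm ℚ_[p] : E →* ℚ_[p])).range.index ≤ _ at h2
  refine le_antisymm h1 ?_
  have h3 := Subgroup.relIndex_mul_index h1
  rw [index_artinKer] at h3
  have h4 : (Units.map (Algebra.norm ℚ_[p] : E →* ℚ_[p])).range.relIndex (artinKer E) = 1 := by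
    have h5 : 0 < finrank ℚ_[p] E := finrank_pos
    have h6 := h2.2
    rw [← h3] at h6
    have h7 : (Units.map (Algebra.norm ℚ_[p] : E →* ℚ_[p])).range.relIndex (artinKer E) ≠ 0 := by
      intro h
      rw [h, zero_mul] at h3
      exact h2.1 h3.symm
    by_contra h8
    have h9 : 2 ≤ (Units.map (Algebra.norm ℚ_[p] : E →* ℚ_[p])).range.relIndex (artinKer E) := by
      omega
    nlinarith
  exact Subgroup.relIndex_eq_one.mp h4

end Main

/-! ### Class field theory for `ℚ_p` in terms of norm groups -/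

/-- The norm group of a finite extension. -/
abbrev normGroup (E : IntermediateField ℚ_[p] (PadicAlgCl p)) : Subgroup ℚ_[p]ˣ :=
  (Units.map (Algebra.norm ℚ_[p] : E →* ℚ_[p])).range

/-- `[ℚ_pˣ : N Eˣ] = [E : ℚ_p]`. -/
theorem index_normGroup (E : IntermediateField ℚ_[p] (PadicAlgCl p)) [FiniteDimensional ℚ_[p] E]
    [IsAbelianGalois ℚ_[p] E] : (normGroup E).index = finrank ℚ_[p] E := by
  rw [normGroup, range_norm, index_artinKer]

theorem isOpen_normGroup (E : IntermediateField ℚ_[p] (PadicAlgCl p)) [FiniteDimensional ℚ_[p] E]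
    [IsAbelianGalois ℚ_[p] E] : IsOpen (normGroup E : Set ℚ_[p]ˣ) := by
  rw [normGroup, range_norm]
  exact isOpen_artinKer E

/-- `E ↦ N Eˣ` reverses inclusions. -/
theorem normGroup_le_iff {E F : IntermediateField ℚ_[p] (PadicAlgCl p)}
    [FiniteDimensional ℚ_[p] E] [IsAbelianGalois ℚ_[p] E] [FiniteDimensional ℚ_[p] F]
    [IsAbelianGalois ℚ_[p] F] : normGroup E ≤ normGroup F ↔ F ≤ E := by
  rw [normGroup, normGroup, range_norm, range_norm, artinKer_le_iff]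

/-- **The existence theorem**: every open subgroup of finite index of `ℚ_pˣ` is the norm group of
exactly one finite abelian extension. -/
theorem existence_norm (H : Subgroup ℚ_[p]ˣ) (hH : IsOpen (H : Set ℚ_[p]ˣ)) (hf : H.FiniteIndex) :
    ∃! E : IntermediateField ℚ_[p] (PadicAlgCl p),
      FiniteDimensional ℚ_[p] E ∧ IsAbelianGalois ℚ_[p] E ∧ normGroup E = H := by
  obtain ⟨E, ⟨h1, h2, h3⟩, h4⟩ := existence H hH hf
  refine ⟨E, ⟨h1, h2, (range_norm E).trans h3⟩, ?_⟩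
  rintro F ⟨h5, h6, h7⟩
  exact h4 F ⟨h5, h6, (range_norm F).symm.trans h7⟩

/-- **The reciprocity law**: `Gal(E/ℚ_p)` is `ℚ_pˣ/N Eˣ` by the action of `artin p` on `E`. -/
theorem reciprocity_norm (E : IntermediateField ℚ_[p] (PadicAlgCl p)) [FiniteDimensional ℚ_[p] E]
    [IsAbelianGalois ℚ_[p] E] : ∃ f : ℚ_[p]ˣ →* Gal(E/ℚ_[p]), Function.Surjective f ∧
      f.ker = normGroup E ∧ ∀ (x : ℚ_[p]ˣ) (σ : Gal(PadicAlgCl p/ℚ_[p])),
        QuotientGroup.mk σ = artin p x → ∀ y : E, (f x y : PadicAlgCl p) = σ y := by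
  obtain ⟨f, h1, h2, h3⟩ := exists_reciprocity E
  exact ⟨f, h1, h2.trans (range_norm E).symm, h3⟩

/-- `N ℚ_p(ζ)ˣ` for `ζ` of order `p ^ n`: `u p ^ k` is a norm if and only if `u ≡ 1` modulo
`p ^ n`. -/
theorem mem_normGroup_ppow {n : ℕ} {ζ : PadicAlgCl p} (hζ : IsPrimitiveRoot ζ (p ^ n)) {u : ℤ_[p]ˣ}
    {k : ℤ} : incl p u * unif p ^ k ∈ normGroup ℚ_[p]⟮ζ⟯ ↔
      PadicInt.toZModPow n (u : ℤ_[p]) = 1 := by
  obtain ⟨h1, h2⟩ := finite_abelian_adjoin (pow_ne_zero n hp.out.ne_zero) hζ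
  rw [normGroup, range_norm, mem_artinKer_ppow hζ]

/-- The norm group of the unramified extension of degree `N`: `u p ^ k` is a norm if and only if `N`
divides `k`. -/
theorem mem_normGroup_unr {N : ℕ} (hN : N ≠ 0) {ζ : PadicAlgCl p}
    (hζ : IsPrimitiveRoot ζ (p ^ N - 1)) {u : ℤ_[p]ˣ} {k : ℤ} :
    incl p u * unif p ^ k ∈ normGroup ℚ_[p]⟮ζ⟯ ↔ (N : ℤ) ∣ k := by
  obtain ⟨h1, h2⟩ := finite_abelian_adjoin
    (Nat.sub_ne_zero_of_lt (Nat.one_lt_pow hN hp.out.one_lt)) hζ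
  rw [normGroup, range_norm, mem_artinKer_unr hN hζ]

end Fermat.Agent.Cor.LocCount
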