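import Fermat.Agent.Corollaries.LocCount.NormProd

/-!
# The approximation argument
-/

set_option autoImplicit false

noncomputable section

namespace Fermat.Agent.Cor.LocCount

open Module IntermediateField NumberField

attribute [local instance] fact_prime_sub

variable {p : ℕ} [hp : Fact p.Prime]

lemma norm_le_one_of_isIntegral {x : PadicAlgCl p} (hx : IsIntegral ℤ x) : ‖x‖ ≤ 1 := by
  let A : ValuationSubring (PadicAlgCl p) := (Valued.v : Valuation (PadicAlgCl p) NNReal).valuationSubring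
  have h1 : IsIntegral A x := hx.tower_top
  obtain ⟨y, hy⟩ := (IsIntegrallyClosed.isIntegral_iff (R := A) (K := PadicAlgCl p)).mp h1
  have h2 : Valued.v (y : PadicAlgCl p) ≤ 1 := y.2
  have h3 : (y : PadicAlgCl p) = x := hy
  rw [h3, PadicAlgCl.valuation_def] at h2
  exact_mod_cast h2

section Ideals

variable {F : IntermediateField ℚ (PadicAlgCl p)} [NumberField F]

omit [NumberField F] in
lemma norm_le_one_emb (φ : F →ₐ[ℚ] PadicAlgCl p) (a : 𝓞 F) : ‖φ (a : F)‖ ≤ 1 :=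
  norm_le_one_of_isIntegral ((a.2 : IsIntegral ℤ (a : F)).map (φ.toRingHom.toIntAlgHom))

omit [NumberField F] in
/-- The ideal attached to an embedding. -/
def idealOf (φ : F →ₐ[ℚ] PadicAlgCl p) : Ideal (𝓞 F) where
  carrier := {a | ‖φ (a : F)‖ < 1}
  add_mem' {a b} ha hb := by
    show ‖φ ((a : F) + (b : F))‖ < 1
    rw [map_add]
    exact (IsUltrametricDist.norm_add_le_max _ _).trans_lt (max_lt ha hb)
  zero_mem' := by
    show ‖φ (0 : F)‖ < 1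
    rw [map_zero, norm_zero]
    exact one_pos
  smul_mem' c a ha := by
    show ‖φ ((c : F) * (a : F))‖ < 1
    rw [map_mul, norm_mul]
    calc ‖φ (c : F)‖ * ‖φ (a : F)‖ ≤ 1 * ‖φ (a : F)‖ :=
          mul_le_mul_of_nonneg_right (norm_le_one_emb φ c) (norm_nonneg _)
      _ < 1 := by rw [one_mul]; exact ha

omit [NumberField F] in
lemma mem_idealOf {φ : F →ₐ[ℚ] PadicAlgCl p} {a : 𝓞 F} : a ∈ idealOf φ ↔ ‖φ (a : F)‖ < 1 :=
  Iff.rfl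

omit [NumberField F] in
lemma norm_eq_one_of_notMem {φ : F →ₐ[ℚ] PadicAlgCl p} {a : 𝓞 F} (h : a ∉ idealOf φ) :
    ‖φ (a : F)‖ = 1 :=
  le_antisymm (norm_le_one_emb φ a) (not_lt.mp h)

omit [NumberField F] in
instance isPrime_idealOf (φ : F →ₐ[ℚ] PadicAlgCl p) : (idealOf φ).IsPrime where
  ne_top' := by
    rw [Ideal.ne_top_iff_one, mem_idealOf]
    show ¬ ‖φ (1 : F)‖ < 1
    rw [map_one, norm_one]
    exact lt_irrefl 1
  mem_or_mem' {a b} h := by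
    by_contra hc
    rw [not_or] at hc
    have h1 : ‖φ ((a : F) * (b : F))‖ < 1 := h
    rw [map_mul, norm_mul, norm_eq_one_of_notMem hc.1, norm_eq_one_of_notMem hc.2, one_mul] at h1
    exact lt_irrefl 1 h1

omit [NumberField F] in
lemma p_mem_idealOf (φ : F →ₐ[ℚ] PadicAlgCl p) : ((p : ℕ) : 𝓞 F) ∈ idealOf φ := by
  rw [mem_idealOf]
  show ‖φ (((p : ℕ) : 𝓞 F) : F)‖ < 1
  have h0 : (((p : ℕ) : 𝓞 F) : F) = ((p : ℕ) : F) := map_natCast (algebraMap (𝓞 F) F) p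
  have h1 : φ (((p : ℕ) : 𝓞 F) : F) = algebraMap ℚ_[p] (PadicAlgCl p) (p : ℚ_[p]) := by
    rw [h0, map_natCast, map_natCast]
  rw [h1, norm_algebraMap']
  exact Padic.norm_p_lt_one

omit [NumberField F] in
lemma idealOf_ne_bot (φ : F →ₐ[ℚ] PadicAlgCl p) : idealOf φ ≠ ⊥ := by
  intro h
  have h1 := p_mem_idealOf φ
  rw [h, Ideal.mem_bot] at h1
  exact hp.out.ne_zero (by exact_mod_cast h1)

/-- There is an integer in all prime ideals over `p` except `P₀`. -/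
lemma exists_mem_others (P₀ : Ideal (𝓞 F)) [hP : P₀.IsPrime] : ∃ a : 𝓞 F, a ∉ P₀ ∧
    ∀ Q : Ideal (𝓞 F), Q.IsPrime → ((p : ℕ) : 𝓞 F) ∈ Q → Q ≠ P₀ → a ∈ Q := by
  classical
  have hp0 : ((p : ℕ) : 𝓞 F) ≠ 0 := by exact_mod_cast hp.out.ne_zero
  have hfin : {Q : Ideal (𝓞 F) | Q.IsPrime ∧ ((p : ℕ) : 𝓞 F) ∈ Q ∧ Q ≠ P₀}.Finite := by
    have h1 := Ideal.finite_factors (R := 𝓞 F) (I := Ideal.span {((p : ℕ) : 𝓞 F)}) (by
      rw [Ne, Ideal.zero_eq_bot, Ideal.span_singleton_eq_bot]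
      exact hp0)
    refine (h1.image fun v => v.asIdeal).subset ?_
    rintro Q ⟨h2, h3, -⟩
    refine ⟨⟨Q, h2, ?_⟩, ?_, rfl⟩
    · rintro rfl
      exact hp0 ((Ideal.mem_bot).mp h3)
    · show Q ∣ _
      rw [Ideal.dvd_span_singleton]
      exact h3
  have h2 : ¬ hfin.toFinset.inf id ≤ P₀ := by
    intro h
    obtain ⟨Q, hQ, hQP⟩ := (Ideal.IsPrime.inf_le' hP).mp h
    rw [Set.Finite.mem_toFinset] at hQ
    obtain ⟨h3, h4, h5⟩ := hQ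
    have h6 : Q ≠ ⊥ := by
      rintro rfl
      exact hp0 ((Ideal.mem_bot).mp h4)
    have h7 : Q.IsMaximal := h3.isMaximal h6
    exact h5 (h7.eq_of_le hP.ne_top hQP)
  obtain ⟨a, ha, haP⟩ := SetLike.not_le_iff_exists.mp h2
  refine ⟨a, haP, fun Q hQ hpQ hne => ?_⟩
  have h3 : hfin.toFinset.inf id ≤ Q :=
    Finset.inf_le (f := id) (by rw [Set.Finite.mem_toFinset]; exact ⟨hQ, hpQ, hne⟩)
  exact h3 ha

end Ideals

section Approx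

variable {F : IntermediateField ℚ (PadicAlgCl p)} [NumberField F]

/-- An integer which is close to `1` at the given place, close to `0` at the other places over `p`
and divisible by `m₁`. -/
theorem exists_e (φ₀ : F →ₐ[ℚ] PadicAlgCl p) (I : Set (F →ₐ[ℚ] PadicAlgCl p))
    (hsep : ∀ φ ∉ I, idealOf φ ≠ idealOf φ₀)
    {m₁ : ℕ} (hm₁ : ¬ p ∣ m₁) {δ : ℝ} (hδ : 0 < δ) : ∃ e c : 𝓞 F, e = (m₁ : 𝓞 F) * c ∧
      ‖φ₀ (algebraMap (𝓞 F) F e) - 1‖ ≤ δ ∧ (∀ φ ∉ I, ‖φ (algebraMap (𝓞 F) F e)‖ ≤ δ) ∧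
      ∀ Q : Ideal (𝓞 F), Q.IsPrime → (((p : ℕ) : 𝓞 F) ∈ Q ∨ ((m₁ : ℕ) : 𝓞 F) ∈ Q) →
        Q ≠ idealOf φ₀ → e ∈ Q := by
  classical
  have hP : (idealOf φ₀).IsPrime := isPrime_idealOf φ₀
  obtain ⟨a, ha, haQ⟩ := exists_mem_others (p := p) (idealOf φ₀)
  have ha1 : ‖φ₀ (algebraMap (𝓞 F) F a)‖ = 1 := norm_eq_one_of_notMem (φ := φ₀) ha
  have hm1 : ‖((m₁ : ℕ) : PadicAlgCl p)‖ = 1 := by
    have h1 : ((m₁ : ℕ) : PadicAlgCl p) = algebraMap ℚ_[p] (PadicAlgCl p) (m₁ : ℚ_[p]) := by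
      rw [map_natCast]
    rw [h1, norm_algebraMap', Padic.norm_natCast_eq_one_iff]
    exact (Nat.Prime.coprime_iff_not_dvd hp.out).mpr hm₁
  have hS : ∀ φ : F →ₐ[ℚ] PadicAlgCl p, ∃ S : ℕ, φ ∉ I →
      ‖φ (algebraMap (𝓞 F) F a)‖ ^ S < δ ∧ ‖φ (algebraMap (𝓞 F) F a)‖ < 1 := by
    intro φ
    by_cases hφ : φ ∈ I
    · exact ⟨0, fun h => absurd hφ h⟩
    · have h1 : ‖φ (algebraMap (𝓞 F) F a)‖ < 1 :=
        haQ (idealOf φ) (isPrime_idealOf φ) (p_mem_idealOf φ) (hsep φ hφ)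
      obtain ⟨S, hS⟩ := exists_pow_lt_of_lt_one hδ h1
      exact ⟨S, fun _ => ⟨hS, h1⟩⟩
  choose S hS using hS
  obtain ⟨T, hT⟩ : ∃ T : ℕ, ∀ φ, S φ ≤ T :=
    ⟨Finset.univ.sup S, fun φ => Finset.le_sup (Finset.mem_univ φ)⟩
  obtain ⟨s, hs, hs1⟩ := exists_pow_near
    (z := (m₁ : PadicAlgCl p) * φ₀ (algebraMap (𝓞 F) F a))
    (by rw [norm_mul, hm1, ha1, one_mul]) hδ T
  have hs0 : s ≠ 0 := (Nat.zero_lt_of_lt hs).ne'
  have h1 : ∀ φ : F →ₐ[ℚ] PadicAlgCl p,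
      φ (algebraMap (𝓞 F) F ((((m₁ : ℕ) : 𝓞 F) * a) ^ s)) =
      ((m₁ : PadicAlgCl p) * φ (algebraMap (𝓞 F) F a)) ^ s := fun φ => by
    rw [map_pow, map_mul, map_natCast, map_pow, map_mul, map_natCast]
  refine ⟨((m₁ : 𝓞 F) * a) ^ s, (m₁ : 𝓞 F) ^ (s - 1) * a ^ s, ?_, ?_, ?_, ?_⟩
  · rw [mul_pow, ← mul_assoc, ← pow_succ', Nat.sub_add_cancel (Nat.pos_of_ne_zero hs0)]
  · rw [h1]
    exact hs1.le
  · intro φ hφ
    rw [h1, norm_pow, norm_mul, hm1, one_mul]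
    obtain ⟨h2, h3⟩ := hS φ hφ
    exact (pow_le_pow_of_le_one (norm_nonneg _) h3.le ((hT φ).trans hs.le)).trans h2.le
  · intro Q hQ hpm hne
    rcases hpm with h | h
    · exact Q.pow_mem_of_mem (Q.mul_mem_left _ (haQ Q hQ h hne)) s (Nat.pos_of_ne_zero hs0)
    · exact Q.pow_mem_of_mem (Q.mul_mem_right _ h) s (Nat.pos_of_ne_zero hs0)

/-- The approximation argument: an integer `η` close to `η₀` at the given place, close to `1` at the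
other places over `p`, and congruent to `1` modulo `m₁`. -/
theorem exists_eta (φ₀ : F →ₐ[ℚ] PadicAlgCl p) (I : Set (F →ₐ[ℚ] PadicAlgCl p))
    (hsep : ∀ φ ∉ I, idealOf φ ≠ idealOf φ₀)
    {m₁ : ℕ} (hm₁ : ¬ p ∣ m₁) (η₀ : 𝓞 F) {δ : ℝ} (hδ : 0 < δ) :
    ∃ η b : 𝓞 F, η = 1 + (m₁ : 𝓞 F) * b ∧
      ‖φ₀ (algebraMap (𝓞 F) F η) - φ₀ (algebraMap (𝓞 F) F η₀)‖ ≤ δ ∧
      (∀ φ ∉ I, ‖φ (algebraMap (𝓞 F) F η) - 1‖ ≤ δ) ∧
      ∀ Q : Ideal (𝓞 F), Q.IsPrime → (((p : ℕ) : 𝓞 F) ∈ Q ∨ ((m₁ : ℕ) : 𝓞 F) ∈ Q) →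
        η ∈ Q → Q = idealOf φ₀ := by
  obtain ⟨e, c, hec, he1, he2, he3⟩ := exists_e φ₀ I hsep hm₁ hδ
  have hφ1 : ∀ φ : F →ₐ[ℚ] PadicAlgCl p, φ (algebraMap (𝓞 F) F (1 + e * (η₀ - 1))) =
      1 + φ (algebraMap (𝓞 F) F e) * φ (algebraMap (𝓞 F) F (η₀ - 1)) := fun φ => by
    rw [map_add, map_mul, map_one, map_add, map_mul, map_one]
  refine ⟨1 + e * (η₀ - 1), c * (η₀ - 1), by rw [hec, mul_assoc], ?_, fun φ hφ => ?_,
    fun Q hQ hpm hη => ?_⟩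
  · have h2 : φ₀ (algebraMap (𝓞 F) F (1 + e * (η₀ - 1))) - φ₀ (algebraMap (𝓞 F) F η₀) =
        (φ₀ (algebraMap (𝓞 F) F e) - 1) * φ₀ (algebraMap (𝓞 F) F (η₀ - 1)) := by
      have h3 : φ₀ (algebraMap (𝓞 F) F (η₀ - 1)) = φ₀ (algebraMap (𝓞 F) F η₀) - 1 := by
        rw [map_sub, map_one, map_sub, map_one]
      rw [hφ1, h3]
      ring
    rw [h2, norm_mul]
    calc _ ≤ δ * 1 := mul_le_mul he1 (norm_le_one_emb φ₀ (η₀ - 1)) (norm_nonneg _) hδ.le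
      _ = δ := mul_one δ
  · rw [hφ1, add_sub_cancel_left, norm_mul]
    calc _ ≤ δ * 1 := mul_le_mul (he2 φ hφ) (norm_le_one_emb φ (η₀ - 1)) (norm_nonneg _) hδ.le
      _ = δ := mul_one δ
  · by_contra hne
    have h1 := he3 Q hQ hpm hne
    have h2 : (1 : 𝓞 F) ∈ Q := by
      have := Q.sub_mem hη (Q.mul_mem_right (η₀ - 1) h1)
      rwa [add_sub_cancel_right] at this
    exact (Ideal.ne_top_iff_one Q).mp hQ.ne_top h2

end Approx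

end Fermat.Agent.Cor.LocCount
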