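import Fermat.Agent.Corollaries.LocCount.NormField

/-!
# Norms and embeddings

`norm_eq_mul` : for `F = E ∩ ℚ(ζ)` and `x ∈ F` the norm of `x` from `F` to `ℚ` is the norm of `x`
from `E` to `ℚ_p` times the product of the images of `x` under the embeddings of `F` which do not
extend to an automorphism over `ℚ_p`.
-/

set_option autoImplicit false

noncomputable section

namespace Fermat.Agent.Cor.LocCount

open Module IntermediateField

attribute [local instance] fact_prime_sub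

variable {p : ℕ} [hp : Fact p.Prime]

lemma norm_aut (σ : Gal(PadicAlgCl p/ℚ_[p])) (x : PadicAlgCl p) : ‖σ x‖ = ‖x‖ :=
  (spectralNorm_eq_of_equiv σ x).symm

/-- Units have powers close to `1`. -/
theorem exists_pow_near {z : PadicAlgCl p} (hz : ‖z‖ = 1) {δ : ℝ} (hδ : 0 < δ) (S : ℕ) :
    ∃ s : ℕ, S < s ∧ ‖z ^ s - 1‖ < δ := by
  let K : Submodule ℚ_[p] (PadicAlgCl p) := Subalgebra.toSubmodule (ℚ_[p]⟮z⟯).toSubalgebra
  have hfd : FiniteDimensional ℚ_[p] ℚ_[p]⟮z⟯ :=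
    IntermediateField.adjoin.finiteDimensional (Algebra.IsIntegral.isIntegral z)
  have hfd' : FiniteDimensional ℚ_[p] K := hfd
  have hK : ProperSpace K := FiniteDimensional.proper ℚ_[p] K
  let x : ℕ → K := fun i => ⟨z ^ i, pow_mem (mem_adjoin_simple_self ℚ_[p] z) i⟩
  have hx : ∀ i, x i ∈ Metric.closedBall (0 : K) 1 := by
    intro i
    rw [mem_closedBall_zero_iff]
    show ‖z ^ i‖ ≤ 1
    rw [norm_pow, hz, one_pow]
  obtain ⟨a, -, φ, hφ, hlim⟩ := (isCompact_closedBall (0 : K) 1).tendsto_subseq hx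
  obtain ⟨i₀, hi₀⟩ := Metric.tendsto_atTop.mp hlim (δ / 2) (by linarith)
  obtain ⟨j, hj⟩ : ∃ j, i₀ ≤ j ∧ φ i₀ + S < φ j := by
    refine ⟨φ i₀ + S + i₀ + 1, by omega, ?_⟩
    have := hφ.le_apply (x := φ i₀ + S + i₀ + 1)
    omega
  refine ⟨φ j - φ i₀, by omega, ?_⟩
  have h1 : dist (x (φ j)) (x (φ i₀)) < δ := by
    calc dist (x (φ j)) (x (φ i₀)) ≤ dist (x (φ j)) a + dist (x (φ i₀)) a := dist_triangle_right _ _ _
      _ < δ / 2 + δ / 2 := add_lt_add (hi₀ j hj.1) (hi₀ i₀ le_rfl)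
      _ = δ := by ring
  have h2 : dist (x (φ j)) (x (φ i₀)) = ‖z ^ φ j - z ^ φ i₀‖ := by
    rw [dist_eq_norm]
    rfl
  have h3 : z ^ φ j - z ^ φ i₀ = z ^ φ i₀ * (z ^ (φ j - φ i₀) - 1) := by
    rw [mul_sub, ← pow_add, Nat.add_sub_cancel' (by omega), mul_one]
  rw [h2, h3, norm_mul, norm_pow, hz, one_pow, one_mul] at h1
  exact h1

lemma norm_mul_sub_one {x y : PadicAlgCl p} {δ : ℝ} (hδ1 : δ ≤ 1) (hx : ‖x - 1‖ ≤ δ)
    (hy : ‖y - 1‖ ≤ δ) : ‖x * y - 1‖ ≤ δ := by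
  have h1 : x * y - 1 = (x - 1) * y + (y - 1) := by ring
  have hy1 : ‖y‖ ≤ 1 := by
    have h2 : y = (y - 1) + 1 := by ring
    rw [h2]
    refine (IsUltrametricDist.norm_add_le_max _ _).trans (max_le (hy.trans hδ1) ?_)
    rw [norm_one]
  rw [h1]
  refine (IsUltrametricDist.norm_add_le_max _ _).trans (max_le ?_ hy)
  rw [norm_mul]
  calc ‖x - 1‖ * ‖y‖ ≤ ‖x - 1‖ * 1 := mul_le_mul_of_nonneg_left hy1 (norm_nonneg _)
    _ ≤ δ := by rw [mul_one]; exact hx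

lemma norm_prod_sub_one {ι : Type*} (s : Finset ι) (f : ι → PadicAlgCl p) {δ : ℝ} (hδ0 : 0 ≤ δ)
    (hδ1 : δ ≤ 1) (h : ∀ i ∈ s, ‖f i - 1‖ ≤ δ) : ‖∏ i ∈ s, f i - 1‖ ≤ δ := by
  classical
  induction s using Finset.induction_on with
  | empty => rw [Finset.prod_empty, sub_self, norm_zero]; exact hδ0
  | insert a s ha ih =>
    rw [Finset.prod_insert ha]
    exact norm_mul_sub_one hδ1 (h a (Finset.mem_insert_self a s))
      (ih fun i hi => h i (Finset.mem_insert_of_mem hi))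

/-- Embeddings over `ℚ_p` extend to automorphisms. -/
lemma exists_aut_of_embedding {E : IntermediateField ℚ_[p] (PadicAlgCl p)}
    (ψ : E →ₐ[ℚ_[p]] PadicAlgCl p) : ∃ g : Gal(PadicAlgCl p/ℚ_[p]), ∀ x : E, ψ x = g x := by
  obtain ⟨φ, hφ⟩ := IntermediateField.exists_algHom_of_splits (K := PadicAlgCl p) (f := ψ)
    (fun s => ⟨Algebra.IsIntegral.isIntegral s, IsAlgClosed.splits _⟩)
  exact ⟨AlgEquiv.ofBijective φ (Algebra.IsAlgebraic.algHom_bijective φ),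
    fun x => (DFunLike.congr_fun hφ x).symm⟩

lemma norm_embedding {E : IntermediateField ℚ_[p] (PadicAlgCl p)}
    (ψ : E →ₐ[ℚ_[p]] PadicAlgCl p) (x : E) : ‖ψ x‖ = ‖(x : PadicAlgCl p)‖ := by
  obtain ⟨g, hg⟩ := exists_aut_of_embedding ψ
  rw [hg, norm_aut]

/-- The norm of an element close to `1` is close to `1`. -/
lemma norm_norm_sub_one {E : IntermediateField ℚ_[p] (PadicAlgCl p)} [FiniteDimensional ℚ_[p] E]
    {x : E} {δ : ℝ} (hδ0 : 0 ≤ δ) (hδ1 : δ ≤ 1) (h : ‖(x : PadicAlgCl p) - 1‖ ≤ δ) :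
    ‖Algebra.norm ℚ_[p] x - 1‖ ≤ δ := by
  have h1 : ‖algebraMap ℚ_[p] (PadicAlgCl p) (Algebra.norm ℚ_[p] x - 1)‖ ≤ δ := by
    rw [map_sub, map_one, Algebra.norm_eq_prod_embeddings]
    refine norm_prod_sub_one _ _ hδ0 hδ1 fun ψ _ => ?_
    have h2 : ψ x - 1 = ψ (x - 1) := by rw [map_sub, map_one]
    rw [h2, norm_embedding]
    exact h
  rwa [norm_algebraMap'] at h1

section Split

variable (E : IntermediateField ℚ_[p] (PadicAlgCl p)) (ζ : PadicAlgCl p)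

/-- The inclusion of `E ∩ ℚ(ζ)` in `E`. -/
def toE : fld E ζ →+* E where
  toFun x := ⟨x.1, (mem_fld.mp x.2).1⟩
  map_one' := rfl
  map_mul' _ _ := rfl
  map_zero' := rfl
  map_add' _ _ := rfl

/-- The restriction of an embedding of `E`. -/
def restr (ψ : E →ₐ[ℚ_[p]] PadicAlgCl p) : fld E ζ →ₐ[ℚ] PadicAlgCl p :=
  ((ψ : E →+* PadicAlgCl p).comp (toE E ζ)).toRatAlgHom

lemma restr_apply (ψ : E →ₐ[ℚ_[p]] PadicAlgCl p) (x : fld E ζ) :
    restr E ζ ψ x = ψ (toE E ζ x) := rfl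

variable {E ζ}

lemma restr_injective {m : ℕ} (hm : m ≠ 0) (hζ : IsPrimitiveRoot ζ m) (hE : E ≤ ℚ_[p]⟮ζ⟯) :
    Function.Injective (restr E ζ) := by
  intro ψ ψ' h
  obtain ⟨g, hg⟩ := exists_aut_of_embedding ψ
  obtain ⟨g', hg'⟩ := exists_aut_of_embedding ψ'
  have h1 : ∀ x ∈ fld E ζ, (g'⁻¹ * g) x = x := by
    intro x hx
    have h2 := DFunLike.congr_fun h ⟨x, hx⟩
    rw [restr_apply, restr_apply, hg, hg'] at h2
    have h3 : g x = g' x := h2
    rw [AlgEquiv.mul_apply, h3, ← AlgEquiv.mul_apply, inv_mul_cancel, AlgEquiv.one_apply]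
  have h2 := fixes_of_fixes hm hζ hE h1
  ext x
  rw [hg, hg']
  have h3 := h2 x x.2
  calc g x = g' ((g'⁻¹ * g) x) := by
        rw [AlgEquiv.mul_apply, ← AlgEquiv.mul_apply, mul_inv_cancel, AlgEquiv.one_apply]
    _ = g' x := by rw [h3]

lemma finiteDimensional_fld {m : ℕ} (hm : m ≠ 0) (hζ : IsPrimitiveRoot ζ m) :
    FiniteDimensional ℚ (fld E ζ) := by
  have hc := isCyclotomic_cyc hm hζ
  have hfd : FiniteDimensional ℚ (cyc ζ) := IsCyclotomicExtension.finiteDimensional {m} ℚ (cyc ζ)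
  have hle : fld E ζ ≤ cyc ζ := fun x hx => (mem_fld.mp hx).2
  exact FiniteDimensional.of_injective (IntermediateField.inclusion hle).toLinearMap
    (IntermediateField.inclusion_injective hle)

open scoped Classical in
/-- The norm of `x` from `F` to `ℚ` is the norm of `x` from `E` to `ℚ_p` times the product of the
images of `x` under the embeddings which are not induced by embeddings of `E`. -/
theorem norm_eq_mul [FiniteDimensional ℚ_[p] E] [FiniteDimensional ℚ (fld E ζ)] {m : ℕ}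
    (hm : m ≠ 0) (hζ : IsPrimitiveRoot ζ m) (hE : E ≤ ℚ_[p]⟮ζ⟯) (x : fld E ζ) :
    algebraMap ℚ (PadicAlgCl p) (Algebra.norm ℚ x) =
      algebraMap ℚ_[p] (PadicAlgCl p) (Algebra.norm ℚ_[p] (toE E ζ x)) *
        ∏ φ ∈ (Finset.univ.image (restr E ζ))ᶜ, φ x := by
  rw [Algebra.norm_eq_prod_embeddings, Algebra.norm_eq_prod_embeddings,
    ← Finset.prod_mul_prod_compl (Finset.univ.image (restr E ζ)),
    Finset.prod_image fun a _ b _ h => restr_injective hm hζ hE h]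
  rfl

end Split

end Fermat.Agent.Cor.LocCount
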