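import Fermat.Agent.Corollaries.LocCount.NormMain

/-!
# Universal norms and the norm groups of the cyclotomic extensions of `ℚ_p`

* `mem_normGroup_cyclotomic` : `u p ^ k` is a norm from `ℚ_p(ζ)`, `ζ` of order `p ^ n (p ^ N - 1)`,
  if and only if `u ≡ 1` modulo `p ^ n` and `N ∣ k`;
* `le_cyclotomic_iff` : a finite abelian extension `E` is contained in `ℚ_p(ζ)` if and only if the
  units `u ≡ 1` modulo `p ^ n` and `p ^ N` are norms from `E`;
* `universal_norms` : an element of `ℚ_pˣ` which is a norm from every finite abelian extension of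
  `ℚ_p` is `1`.
-/

set_option autoImplicit false

noncomputable section

namespace Fermat.Agent.Cor.LocCount

open Module IntermediateField

attribute [local instance] fact_prime_sub

variable {p : ℕ} [hp : Fact p.Prime]

/-- The norm group of a general cyclotomic extension. -/
theorem mem_normGroup_cyclotomic {n N : ℕ} (hN : N ≠ 0) {ζ : PadicAlgCl p}
    (hζ : IsPrimitiveRoot ζ (p ^ n * (p ^ N - 1))) {u : ℤ_[p]ˣ} {k : ℤ} :
    incl p u * unif p ^ k ∈ normGroup ℚ_[p]⟮ζ⟯ ↔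
      PadicInt.toZModPow n (u : ℤ_[p]) = 1 ∧ (N : ℤ) ∣ k := by
  have hm₁ : p ^ N - 1 ≠ 0 := Nat.sub_ne_zero_of_lt (Nat.one_lt_pow hN hp.out.one_lt)
  have hpn : p ^ n ≠ 0 := pow_ne_zero _ hp.out.ne_zero
  have hm : p ^ n * (p ^ N - 1) ≠ 0 := mul_ne_zero hpn hm₁
  have hα : IsPrimitiveRoot (ζ ^ (p ^ N - 1)) (p ^ n) :=
    hζ.pow (Nat.pos_of_ne_zero hm) (mul_comm _ _)
  have hβ : IsPrimitiveRoot (ζ ^ p ^ n) (p ^ N - 1) := hζ.pow (Nat.pos_of_ne_zero hm) rfl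
  obtain ⟨h1, h2⟩ := finite_abelian_adjoin hm hζ
  obtain ⟨h3, h4⟩ := finite_abelian_adjoin hpn hα
  obtain ⟨h5, h6⟩ := finite_abelian_adjoin hm₁ hβ
  obtain ⟨σ, hσ⟩ := QuotientGroup.mk'_surjective _ (artin p (incl p u * unif p ^ k))
  rw [← mem_artinKer_ppow (k := k) hα, ← mem_artinKer_unr (u := u) hN hβ, normGroup, range_norm,
    mem_artinKer_iff (σ := σ) hσ, mem_artinKer_iff (σ := σ) hσ, mem_artinKer_iff (σ := σ) hσ,
    forall_mem_adjoin_iff, forall_mem_adjoin_iff, forall_mem_adjoin_iff]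
  constructor
  · intro h
    rw [map_pow, map_pow, h]
    exact ⟨rfl, rfl⟩
  · rintro ⟨h7, h8⟩
    have hζ0 : ζ ≠ 0 := hζ.ne_zero hm
    rw [map_pow] at h7 h8
    have h9 : (σ ζ / ζ) ^ (p ^ N - 1) = 1 := by
      rw [div_pow, h7, div_self (pow_ne_zero _ hζ0)]
    have h10 : (σ ζ / ζ) ^ p ^ n = 1 := by
      rw [div_pow, h8, div_self (pow_ne_zero _ hζ0)]
    have hcop : Nat.gcd (p ^ n) (p ^ N - 1) = 1 :=
      Nat.Coprime.pow_left n ((Nat.Prime.coprime_iff_not_dvd hp.out).mpr (not_dvd_sub hN))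
    have h11 : σ ζ / ζ = 1 := by
      have := pow_gcd_eq_one.mpr ⟨h10, h9⟩
      rwa [hcop, pow_one] at this
    exact (div_eq_one_iff_eq hζ0).mp h11

/-- **Which abelian extensions are contained in a given cyclotomic extension.** -/
theorem le_cyclotomic_iff {n N : ℕ} (hN : N ≠ 0) {ζ : PadicAlgCl p}
    (hζ : IsPrimitiveRoot ζ (p ^ n * (p ^ N - 1))) (E : IntermediateField ℚ_[p] (PadicAlgCl p))
    [FiniteDimensional ℚ_[p] E] [IsAbelianGalois ℚ_[p] E] : E ≤ ℚ_[p]⟮ζ⟯ ↔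
      (∀ u : ℤ_[p]ˣ, PadicInt.toZModPow n (u : ℤ_[p]) = 1 → incl p u ∈ normGroup E) ∧
        unif p ^ N ∈ normGroup E := by
  have hm₁ : p ^ N - 1 ≠ 0 := Nat.sub_ne_zero_of_lt (Nat.one_lt_pow hN hp.out.one_lt)
  have hm : p ^ n * (p ^ N - 1) ≠ 0 := mul_ne_zero (pow_ne_zero _ hp.out.ne_zero) hm₁
  obtain ⟨h1, h2⟩ := finite_abelian_adjoin hm hζ
  rw [← normGroup_le_iff]
  constructor
  · intro h
    refine ⟨fun u hu => h ?_, h ?_⟩
    · have := (mem_normGroup_cyclotomic hN hζ (u := u) (k := 0)).mpr ⟨hu, dvd_zero _⟩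
      rwa [zpow_zero, mul_one] at this
    · have := (mem_normGroup_cyclotomic hN hζ (u := 1) (k := N)).mpr
        ⟨by rw [Units.val_one, map_one], dvd_rfl⟩
      rwa [map_one, one_mul, zpow_natCast] at this
  · rintro ⟨h3, h4⟩ x hx
    obtain ⟨u, k, rfl⟩ := exists_jay x
    obtain ⟨h5, t, rfl⟩ := (mem_normGroup_cyclotomic hN hζ).mp hx
    refine mul_mem (h3 u h5) ?_
    rw [zpow_mul, zpow_natCast]
    exact zpow_mem h4 t

/-- **The universal norms are trivial**: an element of `ℚ_pˣ` which is a norm from every finite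
abelian extension is `1`. -/
theorem universal_norms {x : ℚ_[p]ˣ} (h : ∀ E : IntermediateField ℚ_[p] (PadicAlgCl p),
    FiniteDimensional ℚ_[p] E → IsAbelianGalois ℚ_[p] E → x ∈ normGroup E) : x = 1 := by
  have h' : ∀ m : ℕ, m ≠ 0 → ∃ ζ : PadicAlgCl p, IsPrimitiveRoot ζ m ∧
      x ∈ normGroup ℚ_[p]⟮ζ⟯ := by
    intro m hm
    have hmz : NeZero ((m : ℕ) : PadicAlgCl p) := ⟨by exact_mod_cast hm⟩
    obtain ⟨ζ, hζ⟩ := HasEnoughRootsOfUnity.exists_primitiveRoot (PadicAlgCl p) m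
    obtain ⟨h1, h2⟩ := finite_abelian_adjoin hm hζ
    exact ⟨ζ, hζ, h _ h1 h2⟩
  obtain ⟨u, k, rfl⟩ := exists_jay x
  have hu : u = 1 := by
    apply Units.ext
    apply PadicInt.ext_of_toZModPow.mp
    intro n
    obtain ⟨ζ, hζ, h1⟩ := h' (p ^ n) (pow_ne_zero _ hp.out.ne_zero)
    rw [(mem_normGroup_ppow hζ).mp h1, Units.val_one, map_one]
  have hk : k = 0 := by
    obtain ⟨ζ, hζ, h1⟩ := h' (p ^ (k.natAbs + 1) - 1)
      (Nat.sub_ne_zero_of_lt (Nat.one_lt_pow (Nat.succ_ne_zero _) hp.out.one_lt))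
    have h2 := (mem_normGroup_unr (Nat.succ_ne_zero _) hζ).mp h1
    refine Int.eq_zero_of_abs_lt_dvd h2 ?_
    rw [Int.abs_eq_natAbs]
    exact_mod_cast Nat.lt_succ_self _
  rw [hu, hk, map_one, zpow_zero, mul_one]

end Fermat.Agent.Cor.LocCount
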