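import Fermat.Agent.Corollaries.LocCount.NormUniv

/-!
# Unramified abelian extensions of `ℚ_p` and norms of units

For a finite abelian extension `E` of `ℚ_p` are equivalent: every unit of `ℤ_p` is a norm from `E`;
the inertia group acts trivially on `E`; `E` is contained in the field of the `(p ^ N - 1)`-th roots
of unity, `N = [E : ℚ_p]` (`unramified_tfae`).
-/

set_option autoImplicit false

noncomputable section

namespace Fermat.Agent.Cor.LocCount

open Module IntermediateField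

attribute [local instance] fact_prime_sub

variable {p : ℕ} [hp : Fact p.Prime]

/-- **The units are norms if and only if the extension is unramified.** -/
theorem unramified_tfae (E : IntermediateField ℚ_[p] (PadicAlgCl p)) [FiniteDimensional ℚ_[p] E]
    [IsAbelianGalois ℚ_[p] E] : [
      ∀ u : ℤ_[p]ˣ, ∃ y : E, Algebra.norm ℚ_[p] y = ((u : ℤ_[p]) : ℚ_[p]),
      ∀ σ : Gal(PadicAlgCl p/ℚ_[p]), (∀ x : PadicAlgCl p, ‖x‖ ≤ 1 → ‖σ x - x‖ < 1) →
        ∀ y ∈ E, σ y = y,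
      ∀ ζ : PadicAlgCl p, IsPrimitiveRoot ζ (p ^ finrank ℚ_[p] E - 1) → E ≤ ℚ_[p]⟮ζ⟯].TFAE := by
  have hN : finrank ℚ_[p] E ≠ 0 := finrank_pos.ne'
  have h0 : (∀ u : ℤ_[p]ˣ, ∃ y : E, Algebra.norm ℚ_[p] y = ((u : ℤ_[p]) : ℚ_[p])) ↔
      ∀ u : ℤ_[p]ˣ, incl p u ∈ normGroup E := by
    refine forall_congr' fun u => ⟨?_, ?_⟩
    · rintro ⟨y, hy⟩
      have hy0 : y ≠ 0 := by
        rintro rfl
        rw [Algebra.norm_zero] at hy
        exact (incl p u).ne_zero hy.symm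
      exact ⟨Units.mk0 y hy0, Units.ext hy⟩
    · rintro ⟨y, hy⟩
      exact ⟨y, congrArg Units.val hy⟩
  rw [h0]
  tfae_have 1 → 2 := by
    intro h σ hσ
    obtain ⟨_, ⟨u, rfl⟩, hu⟩ := (Set.ext_iff.mp image_units (QuotientGroup.mk σ)).mpr ⟨σ, hσ, rfl⟩
    have h1 := h u
    rw [normGroup, range_norm] at h1
    exact (mem_artinKer_iff hu.symm).mp h1
  tfae_have 2 → 1 := by
    intro h u
    obtain ⟨σ, hσ, hu⟩ := (Set.ext_iff.mp image_units (artin p (incl p u))).mp ⟨_, ⟨u, rfl⟩, rfl⟩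
    rw [normGroup, range_norm]
    exact (mem_artinKer_iff hu).mpr (h σ hσ)
  tfae_have 1 → 3 := by
    intro h ζ hζ
    refine (le_cyclotomic_iff (n := 0) hN (by rwa [pow_zero, one_mul]) E).mpr ⟨fun u _ => h u, ?_⟩
    rw [← index_normGroup]
    exact Subgroup.pow_index_mem _ _
  tfae_have 3 → 1 := by
    intro h u
    have hm : p ^ finrank ℚ_[p] E - 1 ≠ 0 := Nat.sub_ne_zero_of_lt (Nat.one_lt_pow hN hp.out.one_lt)
    have hmz : NeZero ((p ^ finrank ℚ_[p] E - 1 : ℕ) : PadicAlgCl p) := ⟨by exact_mod_cast hm⟩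
    obtain ⟨ζ, hζ⟩ := HasEnoughRootsOfUnity.exists_primitiveRoot (PadicAlgCl p)
      (p ^ finrank ℚ_[p] E - 1)
    refine ((le_cyclotomic_iff (n := 0) hN (by rwa [pow_zero, one_mul]) E).mp (h ζ hζ)).1 u ?_
    have : Subsingleton (ZMod (p ^ 0)) := by rw [pow_zero]; infer_instance
    exact Subsingleton.elim _ _
  tfae_finish

end Fermat.Agent.Cor.LocCount
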